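import Fermat.Agent.RT.InertiaTW.FunFamily
import Fermat.Agent.Carayol.Omega.Maps
import Fermat.Agent.Carayol.Rational

/-!
# Functions on `X₀(q²R)` in the field of level `q n`

A function on `X₀(q²R)` whose coefficients are fixed by the inertia elements fixing `μ_q` is, read
at `q ^ n`, an element of the field of level `q n` fixed by the diagonal matrices of determinant
one.
-/

set_option autoImplicit false
set_option linter.unusedSectionVars false

noncomputable section

open CongruenceSubgroup AlgebraicCurve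
open Fermat.Agent.Carayol Fermat.Agent.Carayol.Omega Fermat.Agent.Arith
open ModularCurve (coeffMap qExpand jqModC)
open scoped MatrixGroups Classical

namespace Fermat.Agent.RT.InertiaTW

/-- The inertia elements fixing the `q`-th roots of unity. -/
def inertiaMu (A : ValuationSubring QBar) (q : ℕ) : Set GQ :=
  {σ | σ ∈ A.inertiaSubgroupIn ℚ ∧ ∀ μ : QBar, μ ^ q = 1 → σ μ = μ}

variable {q R : ℕ} [Fact q.Prime] [NeZero R] [NeZero (q * twLevel q R)]
  {A : ValuationSubring QBar}

theorem goodPt_twMark (hR : ¬ q ∣ R) :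
    GoodPt (markLabel (coprime_twLevel Fact.out hR) (twMark q) :
      ZMod (q * twLevel q R) × ZMod (q * twLevel q R)) := by
  have hord := nsmul_markLabel_eq_zero_iff (coprime_twLevel (q := q) Fact.out hR)
    (NeZero.ne (twLevel q R)) (twMark_dvd_twLevel q R)
  refine ⟨fun h => ?_, fun h => ?_⟩
  · have := Nat.le_of_dvd (by norm_num) ((hord 2).mp h)
    rcases twMark_eq q with e | e <;> omega
  · have := Nat.le_of_dvd (by norm_num) ((hord 3).mp h)
    rcases twMark_eq q with e | e <;> omega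

theorem twAct_moves (hA : A.LiesOverPrime q) (hR : ¬ q ∣ R) (g : GL (Fin 2) (ZMod q)) :
    (stdSetup (q * twLevel q R)).Moves (inertiaField A) ((twTate hA hR).act g)
      (liftMat (coprime_twLevel Fact.out hR) (g : Matrix (Fin 2) (Fin 2) (ZMod q))) :=
  Setup.act_moves (stdSetup (q * twLevel q R)) (inertiaField A) Fact.out (twMark q) (twMark_eq q)
    (twMark_dvd_twLevel q R) (coprime_twLevel Fact.out hR)
    (exists_aut_inertiaField hA Fact.out (not_dvd_twLevel Fact.out hR)
      (stdSetup (q * twLevel q R)).isPrimitiveRoot) g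

/-- The action of `GL₂(𝔽_q)` on the field of level `q n`. -/
def twActHom (hA : A.LiesOverPrime q) (hR : ¬ q ∣ R) :
    GL (Fin 2) (ZMod q) →* (twField q R A ≃ₐ[inertiaField A] twField q R A) :=
  (twTate hA hR).act

/-- The elements of the field of level `q n` fixed by the diagonal matrices of determinant one. -/
def diagFixed (hA : A.LiesOverPrime q) (hR : ¬ q ∣ R) : Subfield (LaurentSeries QBar) where
  carrier := {z | ∃ x : twField q R A, (x : LaurentSeries QBar) = z ∧
    ∀ a : (ZMod q)ˣ, twActHom hA hR (diagElt a a⁻¹) x = x}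
  zero_mem' := ⟨0, rfl, fun _ => map_zero _⟩
  one_mem' := ⟨1, rfl, fun _ => map_one _⟩
  add_mem' := by
    rintro _ _ ⟨x, rfl, hx⟩ ⟨y, rfl, hy⟩
    exact ⟨x + y, rfl, fun a => by rw [map_add, hx, hy]⟩
  mul_mem' := by
    rintro _ _ ⟨x, rfl, hx⟩ ⟨y, rfl, hy⟩
    exact ⟨x * y, rfl, fun a => by rw [map_mul, hx, hy]⟩
  neg_mem' := by
    rintro _ ⟨x, rfl, hx⟩
    exact ⟨-x, rfl, fun a => by rw [map_neg, hx]⟩
  inv_mem' := by
    rintro _ ⟨x, rfl, hx⟩
    exact ⟨x⁻¹, rfl, fun a => by rw [map_inv₀, hx]⟩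

variable (hA : A.LiesOverPrime q) (hR : ¬ q ∣ R)

theorem mem_twField_of_mem_diagFixed {z : LaurentSeries QBar} (hz : z ∈ diagFixed hA hR) :
    z ∈ twField q R A := by
  obtain ⟨x, rfl, -⟩ := hz
  exact x.2

theorem coe_mem_diagFixed_iff {x : twField q R A} :
    (x : LaurentSeries QBar) ∈ diagFixed hA hR ↔
      ∀ a : (ZMod q)ˣ, twActHom hA hR (diagElt a a⁻¹) x = x :=
  ⟨fun ⟨_, hy, h⟩ => Subtype.ext hy ▸ h, fun h => ⟨x, rfl, h⟩⟩

theorem jd_mem_diagFixed {d : ℕ} [NeZero d] (hd : d ∣ q ^ 2 * R) :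
    qExpand QBar (twLevel q R) (qExpand QBar d (jqModC QBar)) ∈ diagFixed hA hR := by
  have : NeZero q := ⟨(Fact.out : q.Prime).ne_zero⟩
  have hd' : d ∣ q * R * q := (show q ^ 2 * R = q * R * q by ring) ▸ hd
  obtain ⟨y, hy⟩ : ∃ y : twField q R A, (y : LaurentSeries QBar) =
      qExpand QBar (twLevel q R) (qExpand QBar d (jqModC QBar)) :=
    ⟨⟨_, (stdSetup (q * twLevel q R)).qExpand_jd_mem (inertiaField A) (goodPt_twMark hR)
      (coprime_twLevel Fact.out hR) Fact.out (dvd_twLevel q R) hd'⟩, rfl⟩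
  rw [← hy, coe_mem_diagFixed_iff]
  exact fun a => Setup.fixed_diag (stdSetup (q * twLevel q R)) (goodPt_twMark hR)
    (coprime_twLevel Fact.out hR) Fact.out (dvd_twLevel q R) hd'
    (g := diagElt a a⁻¹) rfl rfl (twAct_moves hA hR _) hy

theorem C_mem_diagFixed_of_inertiaField (c : inertiaField A) :
    HahnSeries.C (c : QBar) ∈ diagFixed hA hR :=
  ⟨algebraMap (inertiaField A) (twField q R A) c, algebraMap_laurent_comp (K := QBar) c,
    fun _ => AlgEquiv.commutes _ c⟩

theorem C_zeta_mem_diagFixed :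
    HahnSeries.C ((stdSetup (q * twLevel q R)).ζ ^ twLevel q R) ∈ diagFixed hA hR := by
  set E := stdSetup (q * twLevel q R) with hE
  have hcop := coprime_twLevel (q := q) (R := R) Fact.out hR
  have e : (E.fz (inertiaField A) (twLevel q R : ZMod (q * twLevel q R)) : LaurentSeries QBar) =
      HahnSeries.C (E.ζ ^ twLevel q R) :=
    congrArg HahnSeries.C (E.zeta_pow_congr (by rw [ZMod.natCast_zmod_val]))
  rw [← e, coe_mem_diagFixed_iff]
  intro a
  obtain ⟨-, hz, -⟩ := twAct_moves hA hR (diagElt a a⁻¹)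
  refine (hz _).trans ?_
  congr 1
  have hdet : (liftMat hcop (diagElt a a⁻¹ : GL (Fin 2) (ZMod q)).val).det = 1 := by
    apply (crt hcop).injective
    rw [crt_det_liftMat, map_one]
    refine Prod.ext ?_ rfl
    show Matrix.det !![(a : ZMod q), 0; 0, ((a⁻¹ : (ZMod q)ˣ) : ZMod q)] = 1
    rw [Matrix.det_fin_two_of, mul_zero, sub_zero, Units.mul_inv]
  rw [hdet, one_mul]

/-- An inertia element moving `μ_q` as prescribed, seen on a primitive root. -/
theorem exists_inertia_pow {ξ : QBar} (hξ : IsPrimitiveRoot ξ q) (hA : A.LiesOverPrime q)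
    (d : (ZMod q)ˣ) :
    ∃ σ ∈ A.inertiaSubgroupIn ℚ, ∀ μ : QBar, μ ^ q = 1 → σ μ = μ ^ (d : ZMod q).val := by
  have : NeZero q := ⟨(Fact.out : q.Prime).ne_zero⟩
  obtain ⟨σ, hσ, hσξ⟩ := Mazur.Eisenstein.exists_inertia_apply hA Fact.out (m := 0)
    (ζ := ξ) (η := ξ ^ (d : ZMod q).val) (by rwa [zero_add, pow_one])
    (by rw [zero_add, pow_one]; exact hξ.pow_of_coprime _ (ZMod.val_coe_unit_coprime d))
  refine ⟨σ, hσ, fun μ hμ => ?_⟩
  obtain ⟨i, -, rfl⟩ := hξ.eq_pow_of_pow_eq_one hμ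
  rw [map_pow, hσξ, ← pow_mul, ← pow_mul, mul_comm]

/-- Constants fixed by the inertia elements fixing `μ_q` lie in the fixed elements. -/
theorem C_mem_diagFixed {c : QBar} (hc : ∀ σ ∈ inertiaMu A q, σ c = c) :
    HahnSeries.C c ∈ diagFixed hA hR := by
  have : NeZero q := ⟨(Fact.out : q.Prime).ne_zero⟩
  set E := stdSetup (q * twLevel q R) with hE
  set ξ := E.ζ ^ twLevel q R with hξdef
  have hξ : IsPrimitiveRoot ξ q := E.isPrimitiveRoot.pow (NeZero.pos _) (mul_comm _ _)
  have hξ0 : ξ ≠ 0 := hξ.ne_zero (NeZero.ne q)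
  choose τ hτI hτ using fun d : (ZMod q)ˣ => exists_inertia_pow hξ hA d
  have hτξ : ∀ d, τ d ξ = ξ ^ (d : ZMod q).val := fun d => hτ d ξ hξ.pow_eq_one
  -- the sums over inertia of the fixed elements are fixed by inertia
  let T : QBar → QBar := fun y => ∑ d, τ d y
  have hT : ∀ y, (∀ σ ∈ inertiaMu A q, σ y = y) → T y ∈ inertiaField A := by
    intro y hy
    rw [mem_inertiaField]
    intro σ hσ
    obtain ⟨i, -, hi⟩ := hξ.eq_pow_of_pow_eq_one (show σ ξ ^ q = 1 by
      rw [← map_pow, hξ.pow_eq_one, map_one])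
    have hcopi : i.Coprime q := (hξ.pow_iff_coprime (NeZero.pos q) i).mp
      (hi ▸ hξ.map_of_injective σ.injective)
    set s : (ZMod q)ˣ := ZMod.unitOfCoprime i hcopi
    show σ (∑ d, τ d y) = ∑ d, τ d y
    rw [map_sum]
    refine Fintype.sum_equiv (Equiv.mulLeft s) _ _ fun d => ?_
    rw [Equiv.coe_mulLeft]
    have hmem : (τ (s * d))⁻¹ * (σ * τ d) ∈ inertiaMu A q := by
      refine ⟨mul_mem (inv_mem (hτI _)) (mul_mem hσ (hτI _)), fun μ hμ => ?_⟩
      obtain ⟨l, -, rfl⟩ := hξ.eq_pow_of_pow_eq_one hμ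
      rw [map_pow]
      congr 1
      apply (τ (s * d)).injective
      rw [AlgEquiv.mul_apply, AlgEquiv.mul_apply, show τ (s * d) ((τ (s * d))⁻¹ (σ (τ d ξ))) =
        σ (τ d ξ) from (τ (s * d)).apply_symm_apply _, hτξ, hτξ, map_pow, ← hi, ← pow_mul,
        Units.val_mul, ZMod.val_mul, ZMod.coe_unitOfCoprime, ZMod.val_natCast,
        ← pow_eq_pow_mod _ hξ.pow_eq_one, pow_mul, pow_mul, ← pow_eq_pow_mod _ hξ.pow_eq_one]
    have h := hy _ hmem
    rw [AlgEquiv.mul_apply, AlgEquiv.mul_apply] at h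
    exact ((τ (s * d)).apply_symm_apply _).symm.trans (congrArg (τ (s * d)) h)
  -- Lagrange resolvents
  have hsum : ∑ i ∈ Finset.range q, T (c * ξ ^ i) * (ξ⁻¹) ^ i = (q : QBar) * c := by
    show ∑ i ∈ Finset.range q, (∑ d, τ d (c * ξ ^ i)) * (ξ⁻¹) ^ i = _
    simp only [Finset.sum_mul, map_mul, map_pow, hτξ, mul_assoc, ← mul_pow]
    rw [Finset.sum_comm, Finset.sum_eq_single (1 : (ZMod q)ˣ)]
    · rw [hc (τ 1) ⟨hτI 1, fun μ hμ => by
          rw [hτ 1 μ hμ, Units.val_one, ZMod.val_one, pow_one]⟩,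
        Units.val_one, ZMod.val_one, pow_one, mul_inv_cancel₀ hξ0]
      simp [mul_comm]
    · intro d _ hd
      rw [← Finset.mul_sum, geom_sum_eq, mul_pow, ← pow_mul, mul_comm _ q, pow_mul,
        hξ.pow_eq_one, inv_pow, hξ.pow_eq_one]
      · simp
      · intro h
        refine hd (Units.ext (ZMod.val_injective q (hξ.pow_inj (ZMod.val_lt _) (ZMod.val_lt _) ?_)))
        rw [mul_inv_eq_one₀ hξ0] at h
        rw [h, Units.val_one, ZMod.val_one, pow_one]
    · exact fun h => absurd (Finset.mem_univ _) h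
  have hqC : HahnSeries.C ((q : QBar) * c) ∈ diagFixed hA hR := by
    rw [← hsum, map_sum]
    refine sum_mem fun i _ => ?_
    rw [map_mul, map_pow, map_inv₀]
    refine mul_mem (C_mem_diagFixed_of_inertiaField hA hR ⟨_, hT _ fun σ hσ => ?_⟩)
      (pow_mem (inv_mem (C_zeta_mem_diagFixed hA hR)) _)
    rw [map_mul, map_pow, hc σ hσ, hσ.2 ξ hξ.pow_eq_one]
  rw [map_mul, map_natCast] at hqC
  have hq0 : (q : LaurentSeries QBar) ≠ 0 := by
    rw [← map_natCast (HahnSeries.C : QBar →+* LaurentSeries QBar), map_ne_zero_iff _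
      (RingHom.injective _)]
    exact Nat.cast_ne_zero.mpr (NeZero.ne q)
  have := mul_mem (inv_mem (natCast_mem (diagFixed hA hR) q)) hqC
  rwa [inv_mul_cancel_left₀ hq0] at this

/-- A function on `X₀(q²R)` with coefficients fixed by `inertiaMu`, read at `q ^ n`. -/
theorem qExpand_mem_diagFixed [NeZero (q ^ 2 * R)]
    {z : ModularCurve.modularFunctionFieldBar (q ^ 2 * R)}
    (hz : ∀ σ ∈ inertiaMu A q,
      ModularCurve.arithmeticGalois (ModularCurve.modularFunctionFieldFull (q ^ 2 * R)) σ • z = z) :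
    qExpand QBar (twLevel q R) (z : LaurentSeries QBar) ∈ diagFixed hA hR := by
  let F : Subfield QBar :=
    (diagFixed hA hR).comap (HahnSeries.C : QBar →+* LaurentSeries QBar)
  let ι : F →+* QBar := F.subtype
  have hco : ∀ i, (z : LaurentSeries QBar).coeff i ∈ F := fun i =>
    C_mem_diagFixed hA hR fun σ hσ =>
      congrArg (fun w => HahnSeries.coeff w i) (congrArg Subtype.val (hz σ hσ))
  let y : LaurentSeries F :=
    { coeff := fun i => ⟨(z : LaurentSeries QBar).coeff i, hco i⟩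
      isPWO_support' := (z : LaurentSeries QBar).isPWO_support.mono
        fun i hi h => hi (Subtype.ext h) }
  have hy : coeffMap ι y = (z : LaurentSeries QBar) := HahnSeries.ext (funext fun i => rfl)
  have hmem := z.2
  change (z : LaurentSeries QBar) ∈
    ModularCurve.laurentBaseChange QBar (ModularCurve.modularFunctionFieldFull (q ^ 2 * R)) at hmem
  rw [← JacTorsion.cExt_laurentBaseChange (ι := ι), ← hy] at hmem
  have hmem' := JacTorsion.mem_of_coeffMap_mem_cExt hmem
  rw [ModFun.laurentBaseChange_eq_fullC] at hmem'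
  rw [← hy]
  clear hmem hy
  clear_value y
  induction hmem' using IntermediateField.adjoin_induction with
  | mem w hw =>
    obtain ⟨d, hd, hdN, rfl⟩ := hw
    have := hd
    rw [ModularCurve.coeffMap_qExpand, ModularCurve.coeffMap_jqModC]
    exact jd_mem_diagFixed hA hR hdN
  | algebraMap c =>
    rw [ModularCurve.algebraMap_laurentSeries_eq_single, ModularCurve.coeffMap_single,
      ModularCurve.qExpand_single, mul_zero]
    exact c.2
  | add a b _ _ ha hb => rw [map_add, map_add]; exact add_mem ha hb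
  | inv a _ ha => rw [map_inv₀, map_inv₀]; exact inv_mem ha
  | mul a b _ _ ha hb => rw [map_mul, map_mul]; exact mul_mem ha hb

end Fermat.Agent.RT.InertiaTW

end
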