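import Fermat.Agent.RT.InertiaTW.FixedDivisor
import Fermat.Agent.RT.InertiaTW.DiagFixed

/-!
# Kummer functions of classes fixed by the inertia elements fixing `μ_q`

Such classes on `X₀(q²R)` killed by `m` form a `FunFamily`.
-/

set_option autoImplicit false

noncomputable section

open CongruenceSubgroup AlgebraicCurve Matrix.SpecialLinearGroup
open Fermat.Agent.Carayol Fermat.Agent.Carayol.Omega Fermat.Agent.JacTorsion Fermat.Agent.Arith
open ModularCurve (coeffMap qExpand arithmeticGalois modularFunctionFieldFull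
  modularFunctionFieldBar)
open scoped MatrixGroups Classical

namespace Fermat.Agent.RT.InertiaTW

variable {q R : ℕ} [Fact q.Prime] [NeZero R] [NeZero (q * twLevel q R)]
  {A : ValuationSubring QBar} [Fact (q.Coprime (twLevel q R))]

omit [Fact (q.Coprime (twLevel q R))] in
/-- `diag(1, d)` acts as coefficient conjugation by the inertia elements moving `μ_q` by `d`. -/
theorem act_diag_eq_coeffMap (hA : A.LiesOverPrime q) (hR : ¬ q ∣ R) {σ : GQ}
    (hσ : σ ∈ A.inertiaSubgroupIn ℚ) {d : (ZMod q)ˣ}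
    (hd : ∀ μ : QBar, μ ^ q = 1 → σ μ = μ ^ (d : ZMod q).val) (y : twField q R A) :
    ((twTate hA hR).act (diagElt 1 d) y : LaurentSeries QBar) =
      coeffMap (σ : QBar →+* QBar) (y : LaurentSeries QBar) := by
  have : NeZero q := ⟨(Fact.out : q.Prime).ne_zero⟩
  have hcop := coprime_twLevel (q := q) (R := R) Fact.out hR
  set E := stdSetup (q * (twLevel q R)) with hE
  let σ' : QBar ≃ₐ[inertiaField A] QBar :=
    { σ.toRingEquiv with commutes' := fun c => (mem_inertiaField A).mp c.2 σ hσ }
  obtain ⟨c, e, -, hc, he, he'⟩ := E.exists_moves_conj (inertiaField A) σ'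
  have hcζ : σ E.ζ = E.ζ ^ c := hc
  have hM : diagMat (q * (twLevel q R)) (c : ZMod (q * (twLevel q R))) =
      liftMat hcop (diagElt 1 d : GL (Fin 2) (ZMod q)).val := by
    have h1 : IsPrimitiveRoot (E.ζ ^ (twLevel q R)) q := E.isPrimitiveRoot.pow (NeZero.pos _) (mul_comm q (twLevel q R))
    have h2 : IsPrimitiveRoot (E.ζ ^ q) (twLevel q R) := E.isPrimitiveRoot.pow (NeZero.pos _) rfl
    have e1 : (E.ζ ^ (twLevel q R)) ^ c = (E.ζ ^ (twLevel q R)) ^ (d : ZMod q).val := by
      rw [← hd _ h1.pow_eq_one, map_pow, hcζ, ← pow_mul, ← pow_mul]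
      exact congrArg (E.ζ ^ ·) (mul_comm _ _)
    have e2 : (E.ζ ^ q) ^ c = (E.ζ ^ q) ^ 1 := by
      rw [pow_one]
      conv_rhs => rw [← inertia_root hA Fact.out hσ h2.pow_eq_one (not_dvd_twLevel Fact.out hR),
        map_pow, hcζ]
      rw [← pow_mul, ← pow_mul]
      exact congrArg (E.ζ ^ ·) (mul_comm _ _)
    rw [pow_eq_pow_mod c h1.pow_eq_one] at e1
    rw [pow_eq_pow_mod c h2.pow_eq_one, pow_eq_pow_mod 1 h2.pow_eq_one] at e2
    have cq : ((c : ℕ) : ZMod q) = (d : ZMod q) := by
      rw [← ZMod.natCast_mod, h1.pow_inj (Nat.mod_lt _ (NeZero.pos q)) (ZMod.val_lt _) e1,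
        ZMod.natCast_zmod_val]
    have cn : ((c : ℕ) : ZMod (twLevel q R)) = 1 := by
      rw [← ZMod.natCast_mod, h2.pow_inj (Nat.mod_lt _ (NeZero.pos (twLevel q R)))
        (Nat.mod_lt _ (NeZero.pos (twLevel q R))) e2, ZMod.natCast_mod, Nat.cast_one]
    ext i j
    apply (crt hcop).injective
    rw [crt_liftMat]
    show crt hcop (diagMat _ _ i j) = ((!![(1 : ZMod q), 0; 0, (d : ZMod q)]) j i, _)
    fin_cases i <;> fin_cases j <;> simp [diagMat, Prod.ext_iff, cq, cn]
  rw [hM] at he
  exact (congrArg (fun z : twField q R A => (z : LaurentSeries QBar))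
    (AlgEquiv.congr_fun ((twAct_moves hA hR (diagElt 1 d)).ext he) y)).trans (he' y)

set_option maxHeartbeats 1600000 in
/-- The Kummer functions exist. -/
theorem exists_funFamily (hA : A.LiesOverPrime q) (hR : ¬ q ∣ R) (m : ℕ) [NeZero m] {r : ℕ}
    (x : Fin r → Pic0.torsion QBar (modularFunctionFieldBar (q ^ 2 * R)) m)
    (hx : ∀ i, ∀ σ ∈ A.inertiaSubgroupIn ℚ, (∀ μ : QBar, μ ^ q = 1 → σ μ = μ) →
      σ • (x i : ModularCurve.JZero (q ^ 2 * R)) = x i) :
    Nonempty (FunFamily hA hR m x) := by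
  have : NeZero q := ⟨(Fact.out : q.Prime).ne_zero⟩
  have : NeZero (q ^ 2 * R) := ⟨mul_ne_zero (pow_ne_zero 2 (NeZero.ne q)) (NeZero.ne R)⟩
  obtain ⟨h, D, hh⟩ := exists_lead_family (H := inertiaMu A q) x fun i σ hσ => hx i σ hσ.1 hσ.2
  choose hh0 hhl hD hDfix hhfix hord using hh
  have hmem : ∀ i, qExpand QBar (twLevel q R) (h i : LaurentSeries QBar) ∈ diagFixed hA hR :=
    fun i => qExpand_mem_diagFixed hA hR (hhfix i)
  let u : Fin r → twField q R A := fun i => ⟨_, mem_twField_of_mem_diagFixed hA hR (hmem i)⟩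
  have hu0 : ∀ i, u i ≠ 0 := fun i h0 => hh0 i (Subtype.ext (ModularCurve.qExpand_injective (twLevel q R)
    ((congrArg Subtype.val h0).trans (map_zero (qExpand QBar (twLevel q R))).symm)))
  have hdiv : ∀ i, Units.mk0 (h i) (hh0 i) ∈ divGrp QBar (modularFunctionFieldBar (q ^ 2 * R)) m :=
    fun i P => by rw [Units.val_mk0, hord i P]; exact dvd_mul_right _ _
  have hxD : ∀ i, x i = toTorsion (Additive.ofMul ⟨_, hdiv i⟩) := fun i => Subtype.ext (by
    rw [← hD i]
    refine congrArg Pic0.mk (Subtype.ext (eq_of_smul_eq (m := m) ?_))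
    show _ = (m : ℤ) • divQuot ⟨_, hdiv i⟩
    rw [smul_divQuot]
    ext P
    rw [Finsupp.smul_apply, smul_eq_mul, JacTorsion.div_apply]
    exact (hord i P).symm)
  refine ⟨{ f := fun i => Units.mk0 (u i) (hu0 i)
            places := fun i => ?_
            diag := fun i a => Units.ext ((coe_mem_diagFixed_iff hA hR (x := u i)).mp (hmem i) a)
            kum := fun i s => ?_
            galois := fun i d c hc => ?_ }⟩
  · -- places
    intro v hv
    let S : Subfield (modularFunctionFieldBar (q ^ 2 * R)) := (diagFixed hA hR).comap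
      ((qExpand QBar (twLevel q R)).comp (modularFunctionFieldBar (q ^ 2 * R)).val.toRingHom)
    let ι : S →+* twField q R A :=
      { toFun := fun z => ⟨qExpand QBar (twLevel q R)
          ((z : modularFunctionFieldBar (q ^ 2 * R)) : LaurentSeries QBar),
          mem_twField_of_mem_diagFixed hA hR z.2⟩
        map_one' := Subtype.ext (map_one (qExpand QBar (twLevel q R)))
        map_mul' := fun _ _ => Subtype.ext (map_mul (qExpand QBar (twLevel q R)) _ _)
        map_zero' := Subtype.ext (map_zero (qExpand QBar (twLevel q R)))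
        map_add' := fun _ _ => Subtype.ext (map_add (qExpand QBar (twLevel q R)) _ _) }
    have hw : ∀ c : ℚ, c ≠ 0 → (v.comap ι) ((c : S)) = 1 := fun c hc => by
      show v (ι (c : S)) = 1
      rw [map_ratCast, ← map_ratCast (algebraMap (inertiaField A) (twField q R A))]
      exact hv _ (Rat.cast_ne_zero.mpr hc)
    have hxS : h i ∈ S := hmem i
    have := dvd_log_valuation_of S.subtype (v.comap ι) hw (m := m) (x := ⟨h i, hxS⟩)
      (fun h0 => hh0 i (congrArg Subtype.val h0)) (hord i) fun P => by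
        obtain ⟨g, hg0, hgfix, hgord⟩ := exists_fixed_ord_set (hDfix i) P
        exact ⟨⟨g, qExpand_mem_diagFixed hA hR hgfix⟩,
          fun h0 => hg0 (congrArg Subtype.val h0), hgord⟩
    exact this
  · -- monodromy
    have hcop := coprime_twLevel (q := q) (R := R) Fact.out hR
    obtain ⟨γ, hγ⟩ := exists_redMat_eq (N := q * (twLevel q R)) (M := liftMat hcop (toGL s).val) (by
      apply (crt hcop).injective
      rw [crt_det_liftMat, map_one]
      exact Prod.ext s.det_coe rfl)
    have hent : ∀ a b, ((γ a b : ℤ) : ZMod q) = s b a ∧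
        ((γ a b : ℤ) : ZMod (twLevel q R)) = (1 : Matrix (Fin 2) (Fin 2) (ZMod (twLevel q R))) a b := fun a b => by
      have e := congrArg (crt hcop) (congrFun (congrFun hγ a) b)
      rw [crt_liftMat] at e
      simpa [redMat, crt, Prod.ext_iff] using e
    have hγn : γ ∈ CongruenceSubgroup.Gamma (twLevel q R) := by
      refine Gamma_mem.mpr ⟨?_, ?_, ?_, ?_⟩
      · exact (hent 0 0).2.trans (Matrix.one_apply_eq _)
      · exact (hent 0 1).2.trans (Matrix.one_apply_ne (by decide))
      · exact (hent 1 0).2.trans (Matrix.one_apply_ne (by decide))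
      · exact (hent 1 1).2.trans (Matrix.one_apply_eq _)
    have hγq : map (Int.castRingHom (ZMod q)) γ = (sStar s)⁻¹ := by
      rw [sStar, inv_inv]
      ext a b
      exact (hent a b).1
    obtain ⟨e, he, he'⟩ := (stdSetup (q * (twLevel q R))).exists_moves_subst (inertiaField A) γ
    rw [hγ] at he
    rw [smul_eq_conjHomG hγn hγq]
    refine KumChar.subst ?_ γ (z := (twAct hA hR (toGL s) (Units.mk0 (u i) (hu0 i)) : twField q R A))
      (Eq.trans ?_ (he' (u i)))
    · have := kumChar_toTorsion (N := q ^ 2 * R) (q := q) (n' := twLevel q R) (stdSetup (q * (twLevel q R))) rfl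
        (inertiaField A) (x := u i) ⟨_, hdiv i⟩ rfl
        (fun γ => rescale_mem_Gamma0 dvd_rfl (dvd_twLevel q R) γ)
      rw [← hxD i] at this
      exact this
    · show (((twTate hA hR).act (toGL s) (u i) : twField q R A) : LaurentSeries QBar) = _
      exact congrArg (fun z : twField q R A => (z : LaurentSeries QBar))
        (AlgEquiv.congr_fun ((twAct_moves hA hR (toGL s)).ext he) (u i))
  · -- inertia
    obtain ⟨σ, hσ, hσμ⟩ := exists_inertia_pow
      ((stdSetup (q * (twLevel q R))).isPrimitiveRoot.pow (NeZero.pos _) (mul_comm q (twLevel q R))) hA d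
    have hcx := hc σ hσ hσμ
    simp only [← hD] at hcx
    obtain ⟨G, hG0, hGfix, heq⟩ := exists_conj_root (H := inertiaMu A q) hh0 hhl hhfix hord
      (σ := σ) (fun τ hτ => ⟨mul_mem (mul_mem (inv_mem hσ) hτ.1) hσ, fun μ hμ => by
        rw [AlgEquiv.mul_apply, AlgEquiv.mul_apply,
          hτ.2 (σ μ) (by rw [← map_pow, hμ, map_one])]
        exact σ.symm_apply_apply μ⟩) hcx
    have hGmem := mem_twField_of_mem_diagFixed hA hR (qExpand_mem_diagFixed hA hR hGfix)
    have hG0' : (⟨_, hGmem⟩ : twField q R A) ≠ 0 := fun h0 => hG0 (Subtype.ext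
      (ModularCurve.qExpand_injective (twLevel q R)
        ((congrArg Subtype.val h0).trans (map_zero (qExpand QBar (twLevel q R))).symm)))
    refine ⟨Units.mk0 _ hG0', Units.ext (Subtype.ext ?_)⟩
    show ((twTate hA hR).act (diagElt 1 d) (u i) : LaurentSeries QBar) = _
    rw [act_diag_eq_coeffMap hA hR hσ hσμ (u i)]
    simp only [Units.val_mul, Units.val_pow_eq_pow_val, Units.coe_prod, Units.val_mk0]
    show coeffMap (σ : QBar →+* QBar) (qExpand QBar (twLevel q R) (h i : LaurentSeries QBar)) = _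
    rw [ModularCurve.coeffMap_qExpand]
    have h5 := congrArg (fun z : modularFunctionFieldBar (q ^ 2 * R) =>
      qExpand QBar (twLevel q R) (z : LaurentSeries QBar)) heq
    refine h5.trans ?_
    simp only [MulMemClass.coe_mul, SubmonoidClass.coe_pow, SubmonoidClass.coe_finsetProd,
      map_mul, map_pow, map_prod]
    rfl

end Fermat.Agent.RT.InertiaTW

end
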