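import Fermat.Agent.RT.InertiaTW.Main
import Fermat.Agent.RT.InertiaTW.FunFamilyExists

/-!
# The trace of inertia on twisted newforms, without hypotheses
-/

set_option autoImplicit false

noncomputable section

open CongruenceSubgroup

namespace Fermat.Agent.RT.InertiaTW

/-- Kummer function families exist at every place and every level. -/
theorem familiesExist (q R : ℕ) [Fact q.Prime] [NeZero R] : FamiliesExist q R :=
  @fun _ _ hR _ hA m _ _ _ x hx => exists_funFamily hA hR m x hx

/-- The trace of inertia of a twisted newform. -/
theorem traceInertia (p q R M : ℕ) [Fact p.Prime] [Fact q.Prime] [NeZero R] [NeZero M]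
    (g : CuspForm (Gamma0 M) 2) : TraceInertia p q R M g :=
  traceInertia_of p q R M g (familiesExist q R)

/-- The trace of inertia of a twisted newform at `p = 2`. -/
theorem traceInertiaTwo (q R M : ℕ) [Fact q.Prime] [NeZero R] [NeZero M]
    (g : CuspForm (Gamma0 M) 2) : TwoAdic.Module.TraceInertiaTwo q R M g :=
  traceInertiaTwo_of q R M g (familiesExist q R)

end Fermat.Agent.RT.InertiaTW
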