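import Mathlib
import Fermat.Prelude.Thm_IsAdicComplete_of_module_finite

/-!
# Coefficient rings finite over `ℤ_p`

A complete discrete valuation ring of residue characteristic `p` with finite residue field is
finite over `ℤ_p`; so is the algebra generated by finitely many integral elements, which is free.
-/

set_option autoImplicit false

noncomputable section

open IsLocalRing

namespace Fermat.Agent.RT.InertiaTW

variable {p : ℕ} [Fact p.Prime] {O : Type*} [CommRing O] [IsDomain O] [IsDiscreteValuationRing O]

theorem finite_quotient_span_natCast [Finite (ResidueField O)] [CharZero O] :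
    Finite (O ⧸ Ideal.span {(p : O)}) := by
  obtain ⟨ϖ, hϖ⟩ := IsDiscreteValuationRing.exists_irreducible O
  obtain ⟨n, u, hu⟩ := IsDiscreteValuationRing.eq_unit_mul_pow_irreducible
    (Nat.cast_ne_zero.mpr (Fact.out : p.Prime).ne_zero : (p : O) ≠ 0) hϖ
  have hI : Ideal.span {(p : O)} = maximalIdeal O ^ n := by
    rw [hϖ.maximalIdeal_eq, Ideal.span_singleton_pow, hu,
      Ideal.span_singleton_mul_left_unit u.isUnit]
  rw [hI]
  haveI : Finite (O ⧸ maximalIdeal O) := inferInstanceAs (Finite (ResidueField O))
  exact Ideal.finite_quotient_pow (IsNoetherian.noetherian _) n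

theorem padicInt_hom_injective [CharZero O] (ι : ℤ_[p] →+* O) : Function.Injective ι := by
  refine (injective_iff_map_eq_zero _).2 fun a ha => by_contra fun h0 => ?_
  rw [PadicInt.unitCoeff_spec h0, map_mul, map_pow, map_natCast] at ha
  rcases mul_eq_zero.1 ha with h | h
  · exact ((PadicInt.unitCoeff h0).isUnit.map ι).ne_zero h
  · exact pow_ne_zero _ (Nat.cast_ne_zero.2 (Fact.out : p.Prime).ne_zero) h

/-- A complete discrete valuation ring with finite residue field is finite over `ℤ_p`. -/
theorem moduleFinite_padicInt [IsAdicComplete (maximalIdeal O) O] [Finite (ResidueField O)]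
    [CharZero O] (hp : (p : O) ∈ maximalIdeal O) (ι : ℤ_[p] →+* O) :
    letI := ι.toAlgebra; Module.Finite ℤ_[p] O := by
  letI := ι.toAlgebra
  classical
  have hfin := finite_quotient_span_natCast (p := p) (O := O)
  cases nonempty_fintype (O ⧸ Ideal.span {(p : O)})
  set Q := O ⧸ Ideal.span {(p : O)}
  let g : Q → O := fun x => (Ideal.Quotient.mk_surjective x).choose
  have hg : ∀ x, Ideal.Quotient.mk _ (g x) = x :=
    fun x => (Ideal.Quotient.mk_surjective x).choose_spec
  set I : Ideal ℤ_[p] := maximalIdeal ℤ_[p]
  haveI : IsAdicComplete I (Q → ℤ_[p]) := IsAdicComplete.of_module_finite I _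
  have hsm : I.map (algebraMap ℤ_[p] O) = Ideal.span {(p : O)} := by
    rw [show I = maximalIdeal ℤ_[p] from rfl, PadicInt.maximalIdeal_eq_span_p, Ideal.map_span]
    simp
  haveI : IsHausdorff I O := by
    rw [← IsHausdorff.map_algebraMap_iff (S := O)]
    constructor
    intro x hx
    refine IsHausdorff.haus (inferInstance : IsHausdorff (maximalIdeal O) O) x fun n => ?_
    refine (hx n).mono (Submodule.smul_mono_left (Ideal.pow_right_mono ?_ n))
    rw [hsm, Ideal.span_le, Set.singleton_subset_iff]
    exact hp
  refine Module.Finite.of_surjective (Fintype.linearCombination ℤ_[p] g) ?_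
  refine surjective_of_mkQ_comp_surjective (I := I) fun y => ?_
  obtain ⟨y, rfl⟩ := Submodule.mkQ_surjective _ y
  refine ⟨Pi.single (Ideal.Quotient.mk _ y) 1, ?_⟩
  rw [LinearMap.comp_apply, Fintype.linearCombination_apply_single, one_smul,
    Submodule.mkQ_apply, Submodule.mkQ_apply, Submodule.Quotient.eq, Ideal.smul_top_eq_map,
    Submodule.restrictScalars_mem, hsm, ← Ideal.Quotient.eq]
  exact hg _

/-- Finitely many integral elements generate an algebra which is finite free over `ℤ_p`. -/
theorem adjoin_finite_free [IsAdicComplete (maximalIdeal O) O] [Finite (ResidueField O)]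
    [CharZero O] (hp : (p : O) ∈ maximalIdeal O) (ι : ℤ_[p] →+* O) {K : Type*} [Field K]
    [Algebra O K] (hK : Function.Injective (algebraMap O K)) {s : Set K} (hs : s.Finite)
    (hint : ∀ x ∈ s, IsIntegral O x) :
    letI := ((algebraMap O (Algebra.adjoin O s)).comp ι).toAlgebra
    Module.Finite ℤ_[p] (Algebra.adjoin O s) ∧ Module.Free ℤ_[p] (Algebra.adjoin O s) := by
  letI := ι.toAlgebra
  letI := ((algebraMap O (Algebra.adjoin O s)).comp ι).toAlgebra
  haveI : IsScalarTower ℤ_[p] O (Algebra.adjoin O s) := IsScalarTower.of_algebraMap_eq fun _ => rfl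
  haveI := moduleFinite_padicInt hp ι
  haveI : Module.Finite O (Algebra.adjoin O s) :=
    Module.Finite.of_fg (fg_adjoin_of_finite hs hint)
  haveI : Module.Finite ℤ_[p] (Algebra.adjoin O s) := Module.Finite.trans O _
  refine ⟨inferInstance, ?_⟩
  haveI : Module.IsTorsionFree ℤ_[p] (Algebra.adjoin O s) :=
    Module.isTorsionFree_iff_algebraMap_injective.2 fun a b h =>
      padicInt_hom_injective ι (hK (congrArg Subtype.val h))
  exact Module.free_of_finite_type_torsion_free'

end Fermat.Agent.RT.InertiaTW
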