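import Fermat.Agent.GaloisReps.AtkinConj
import Fermat.Agent.LevelRaising.Transfer

/-!
# The Atkin–Lehner conjugation commutes with `T_ℓ`, `ℓ ∤ N`, on homomorphisms

`(0, -1; N, 0)` conjugates the representatives of `T_ℓ` to integral matrices of determinant `ℓ`
with lower left entry divisible by `N`, and these lie in the standard cosets.
-/

set_option autoImplicit false

noncomputable section

open CongruenceSubgroup
open Matrix.SpecialLinearGroup (mapGL)
open P2MW.S_ModularForm_heckeT_slash_eq_self_of_mem_Gamma0.ModularForm.HeckeSlashInvariance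
open scoped MatrixGroups BigOperators

namespace Fermat.Agent.RT.InertiaTW

open GaloisReps Periods LevelRaising

variable {N : ℕ} [NeZero N]

/-- The conjugated representative. -/
def atkinRepMat (N : ℕ) (B : Matrix (Fin 2) (Fin 2) ℤ) : Matrix (Fin 2) (Fin 2) ℤ :=
  !![B 1 1, 0; -((N : ℤ) * B 0 1), B 0 0]

theorem atkinGL_mul_intGL {B : Matrix (Fin 2) (Fin 2) ℤ} (hlow : B 1 0 = 0) (hB : B.det ≠ 0) :
    atkinGL N * intGL B = intGL (atkinRepMat N B) * atkinGL N := by
  have hB' : (atkinRepMat N B).det ≠ 0 := by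
    rw [Matrix.det_fin_two] at hB
    simp [atkinRepMat, Matrix.det_fin_two_of]
    rw [hlow, mul_zero, sub_zero] at hB
    exact ⟨fun h => hB (by rw [h, mul_zero]), fun h => hB (by rw [h, zero_mul])⟩
  apply Units.ext
  rw [Units.val_mul, Units.val_mul, intGL_val hB, intGL_val hB', coe_atkinGL]
  ext i j
  fin_cases i <;> fin_cases j <;>
    simp [atkinRepMat, Matrix.mul_apply, Fin.sum_univ_two, hlow, mul_comm]

/-- `T_ℓ` commutes with the conjugation by the Atkin–Lehner matrix. -/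
theorem homOp_atkinHom {B : Type} [AddCommGroup B] {ℓ : ℕ} (hℓ : ℓ.Prime) (hℓN : ¬ ℓ ∣ N)
    (φ : Additive (Gamma0 N) →+ B) :
    homOp N B ℓ hℓ (atkinHom N B φ) = atkinHom N B (homOp N B ℓ hℓ φ) := by
  have : NeZero ℓ := ⟨hℓ.ne_zero⟩
  set S := systemT (N := N) hℓ hℓN with hS
  set W := atkinGL N
  have hex : ∀ i : Option (ZMod ℓ), ∃ (u : Gamma0 N) (j : Option (ZMod ℓ)),
      W * heckeRep ℓ i * W⁻¹ = mapGL ℝ (u : SL(2, ℤ)) * heckeRep ℓ j := by
    intro i
    have hlow : tMat ℓ i 1 0 = 0 := by cases i <;> simp [tMat]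
    have hdet : (atkinRepMat N (tMat ℓ i)).det = ℓ := by
      cases i <;> simp [atkinRepMat, tMat, Matrix.det_fin_two_of]
    obtain ⟨u, j, hu⟩ := exists_tMat_coset hℓ hℓN hdet ⟨-(tMat ℓ i 0 1), by simp [atkinRepMat]⟩
    refine ⟨u, j, ?_⟩
    rw [heckeRep_eq_intGL hℓ.ne_zero, heckeRep_eq_intGL hℓ.ne_zero, ← hu, mul_inv_eq_iff_eq_mul]
    exact atkinGL_mul_intGL hlow (by rw [det_tMat]; exact_mod_cast hℓ.ne_zero)
  choose u σ hu using hex
  have hconj : ∀ g : Gamma0 N, W * mapGL ℝ (g : SL(2, ℤ)) * W⁻¹ =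
      mapGL ℝ (atkinConj N g : SL(2, ℤ)) := fun g => by
    rw [mul_inv_eq_iff_eq_mul]; exact atkinGL_mul g
  have hσ : Function.Bijective σ := (Finite.injective_iff_bijective).mp fun i j hij => by
    have hi := hu i
    rw [hij] at hi
    refine S.unique i j (atkinConj N (u i * (u j)⁻¹)) ?_
    show heckeRep ℓ i =
      mapGL ℝ (atkinConj N (u i * (u j)⁻¹) : SL(2, ℤ)) * heckeRep ℓ j
    have e : W * heckeRep ℓ i * W⁻¹ =
        mapGL ℝ ((u i * (u j)⁻¹ : Gamma0 N) : SL(2, ℤ)) * (W * heckeRep ℓ j * W⁻¹) := by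
      rw [Subgroup.coe_mul, map_mul, InvMemClass.coe_inv, map_inv, hi, hu j]
      group
    have h2 := hconj (atkinConj N (u i * (u j)⁻¹))
    rw [atkinConj_atkinConj] at h2
    rw [← h2] at e
    have e' := congrArg (fun x => W⁻¹ * x * W) e
    simp only [mul_assoc, inv_mul_cancel, mul_one, inv_mul_cancel_left] at e'
    exact e'
  refine AddMonoidHom.ext fun y => ?_
  rw [← ofMul_toMul y]
  set γ := Additive.toMul y
  rw [atkinHom_apply, homOp, dif_neg hℓN]
  show S.apply (atkinHom N B φ) (Additive.ofMul γ) = S.apply φ (Additive.ofMul (atkinConj N γ))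
  rw [HeckeSystem.apply_apply, HeckeSystem.apply_apply]
  simp only [atkinHom_apply]
  refine (sum_transfer S (fun i => W * heckeRep ℓ i * W⁻¹) (S.perm γ) (S.perm_bijective γ)
    (fun i => atkinConj N (S.cocycle γ i)) (atkinConj N γ) (fun i => ?_) σ u 1 (by simp)
    (fun i => by rw [one_mul]; exact hu i) φ).trans
    (hσ.sum_comp fun j => φ (Additive.ofMul (S.cocycle (atkinConj N γ) j)))
  have e : heckeRep ℓ i * mapGL ℝ (γ : SL(2, ℤ)) =
      mapGL ℝ (S.cocycle γ i : SL(2, ℤ)) * heckeRep ℓ (S.perm γ i) := S.spec γ i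
  rw [← hconj, ← hconj]
  simp only [mul_assoc, inv_mul_cancel_left]
  rw [← mul_assoc (heckeRep ℓ i), e, mul_assoc]

end Fermat.Agent.RT.InertiaTW
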