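import Fermat.Agent.RT.InertiaTW.Vanishing
import Fermat.Agent.GaloisReps.Results
import Fermat.Agent.GaloisReps.Lattice
import Mathlib.LinearAlgebra.Matrix.ToLin

/-!
# From torsion classes to `p`-adic coefficients

An eigenvector of inertia at `q` in the lattice over a finite free `ℤ_p`-algebra gives families of
torsion classes modulo every `p ^ k`, whose twisted trace is killed by a constant; so the twisted
trace of the vector vanishes.
-/

set_option autoImplicit false
set_option linter.unusedSectionVars false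

noncomputable section

open CongruenceSubgroup AlgebraicCurve ModularCurve
open Fermat.Agent.Carayol Fermat.Agent.Carayol.Omega Fermat.Agent.JacTorsion
open scoped MatrixGroups

namespace Fermat.Agent.RT.InertiaTW

open GaloisReps Arith

variable {q R : ℕ} [Fact q.Prime] [NeZero R] [NeZero (q * twLevel q R)]
  [Fact (q.Coprime (twLevel q R))] {A : ValuationSubring QBar}

/-- The existence of Kummer function families, as used below. -/
def HasFunFamilies (hA : A.LiesOverPrime q) (hR : ¬ q ∣ R) : Prop :=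
  ∀ (m : ℕ) [NeZero m], ¬ q ∣ m → ∀ (r : ℕ)
    (x : Fin r → Pic0.torsion QBar (modularFunctionFieldBar (q ^ 2 * R)) m),
    (∀ i, ∀ σ ∈ A.inertiaSubgroupIn ℚ, (∀ μ : QBar, μ ^ q = 1 → σ μ = μ) →
      σ • (x i : JZero (q ^ 2 * R)) = x i) →
    Nonempty (FunFamily hA hR m x)

set_option maxHeartbeats 1000000 in
/-- **An inertia eigenvector with character away from `χ^{±1}` has no twisted trace.** -/
theorem twistTrace_eq_zero_of_inertia_eigen {p : ℕ} [Fact p.Prime] (hpq : p ≠ q) (hR : ¬ q ∣ R)
    (hES : CongruenceProperty (q ^ 2 * R) p) (hA : A.LiesOverPrime q)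
    (hFF : HasFunFamilies hA hR) {B : Type} [CommRing B] [IsDomain B] [Algebra ℤ_[p] B]
    [Module.Free ℤ_[p] B] [Module.Finite ℤ_[p] B] (chi theta : (ZMod q)ˣ →* B)
    (hsum : ∑ d, chi d * theta d = 0) (hsum' : ∑ d, chi d⁻¹ * theta d = 0)
    (xi : Additive (Gamma0 (q ^ 2 * R)) →+ B) (hxi : xi ∈ Gamma0.ellParHoms (Gamma0 (q ^ 2 * R)) B)
    (heig : ∀ σ ∈ A.inertiaSubgroupIn ℚ, ∀ d : (ZMod q)ˣ,
      (∀ μ : QBar, μ ^ q = 1 → σ μ = μ ^ (d : ZMod q).val) →
        ((modelOfCongruence hES).galIn (algebraMap ℤ_[p] B) σ).mulVec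
            (coord (q ^ 2 * R) B (atkinHom _ B xi)) =
          theta d • coord (q ^ 2 * R) B (atkinHom _ B xi)) :
    twistTrace (n := twLevel q R) (dvd_twLevel q R) chi xi = 0 := by
  classical
  set b := Module.finBasis ℤ_[p] B
  set r := Module.finrank ℤ_[p] B
  set g0 := glueExp (upperComb q) with hg0
  set v := coord (q ^ 2 * R) B (atkinHom (q ^ 2 * R) B xi) with hv
  -- the coordinates of the statement
  have key : ∀ (i : Fin r) (γ : Additive (Gamma (q * twLevel q R))),
      (g0 : ℤ_[p]) * b.coord i (twistTrace (n := twLevel q R) (dvd_twLevel q R) chi xi γ) = 0 := by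
    intro i γ
    refine PadicInt.ext_of_toZModPow.mp fun k => ?_
    rw [map_zero]
    set π : ℤ_[p] →+* ZMod (p ^ k) := PadicInt.toZModPow k
    haveI : NeZero (p ^ k) := ⟨pow_ne_zero k (Fact.out : p.Prime).ne_zero⟩
    have hqk : ¬ q ∣ p ^ k := fun h => hpq
      ((Nat.prime_dvd_prime_iff_eq (Fact.out : q.Prime) Fact.out).1
        ((Fact.out : q.Prime).dvd_of_dvd_pow h)).symm
    let pr : Fin r → B →+ ZMod (p ^ k) := fun l =>
      π.toAddMonoidHom.comp (b.coord l).toAddMonoidHom
    let M : B →+* Matrix (Fin r) (Fin r) (ZMod (p ^ k)) :=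
      π.mapMatrix.comp (Algebra.leftMulMatrix b).toRingHom
    have hpr : ∀ (c a : B) (l : Fin r), pr l (c * a) = ∑ s, M c l s * pr s a := fun c a l => by
      have h := congrFun (Algebra.leftMulMatrix_mulVec_repr b c a) l
      show π (b.repr (c * a) l) = ∑ s, π (Algebra.leftMulMatrix b c l s) * π (b.repr a s)
      rw [← h, Matrix.mulVec, dotProduct, map_sum]
      exact Finset.sum_congr rfl fun s _ => map_mul π _ _
    let xb : Fin r → Gamma0.ellParHoms (Gamma0 (q ^ 2 * R)) (ZMod (p ^ k)) := fun l =>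
      ⟨(pr l).comp xi, comp_mem_ellParHoms (pr l) hxi⟩
    let x : Fin r → Pic0.torsion QBar (modularFunctionFieldBar (q ^ 2 * R)) (p ^ k) := fun l =>
      (torsionEquiv (q ^ 2 * R) (p ^ k)).symm (xb l)
    have hx : ∀ l, (torsionEquiv (q ^ 2 * R) (p ^ k) (x l)).1 = (pr l).comp xi := fun l =>
      congrArg Subtype.val ((torsionEquiv (q ^ 2 * R) (p ^ k)).apply_symm_apply (xb l))
    set E := torsionIso (q ^ 2 * R) p (conjProperty (q ^ 2 * R))
    have hpsi : ∀ l, E.psi k (x l) = fun j => pr l (v j) := fun l => by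
      show coord (q ^ 2 * R) _ (atkinHom (q ^ 2 * R) _ (torsionEquiv (q ^ 2 * R) (p ^ k) (x l)).1) = _
      rw [hx, atkinHom_comp]
      rfl
    -- the action of inertia
    have hact : ∀ σ ∈ A.inertiaSubgroupIn ℚ, ∀ d : (ZMod q)ˣ,
        (∀ μ : QBar, μ ^ q = 1 → σ μ = μ ^ (d : ZMod q).val) → ∀ l,
          σ • (x l : JZero (q ^ 2 * R)) = ∑ s, (M (theta d) l s).val • (x s : JZero (q ^ 2 * R)) := by
      intro σ hσ d hd l
      have hgv : ∀ j, ∑ i, algebraMap ℤ_[p] B ((E.gal σ) j i) * v i = theta d * v j := fun j => by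
        have h := congrFun (heig σ hσ d hd) j
        exact h
      have h1 : E.psi k (galTors k σ (x l)) = E.psi k (∑ s, (M (theta d) l s).val • x s) := by
        funext j
        rw [← E.galLvl_mulVec, hpsi, map_sum, Finset.sum_apply]
        simp only [map_nsmul, hpsi, Pi.smul_apply]
        have h2 := congrArg (pr l) (hgv j)
        rw [map_sum, hpr] at h2
        refine Eq.trans ?_ (h2.trans (Finset.sum_congr rfl fun s _ => by
          rw [nsmul_eq_mul, ZMod.natCast_zmod_val]))
        rw [← E.map_gal, Matrix.mulVec, dotProduct]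
        refine Finset.sum_congr rfl fun i _ => ?_
        show π (E.gal σ j i) * π (b.repr (v i) l) = π (b.repr (algebraMap ℤ_[p] B (E.gal σ j i) * v i) l)
        rw [← Algebra.smul_def, map_smul, Finsupp.smul_apply, smul_eq_mul, map_mul]
      have h3 := congrArg Subtype.val ((E.psi k).injective h1)
      rw [AddSubgroup.val_finsetSum] at h3
      exact h3
    -- fixed by the elements fixing `μ_q`
    have hfixed : ∀ l, ∀ σ ∈ A.inertiaSubgroupIn ℚ, (∀ μ : QBar, μ ^ q = 1 → σ μ = μ) →
        σ • (x l : JZero (q ^ 2 * R)) = x l := by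
      intro l σ hσ hμ
      rw [hact σ hσ 1 (fun μ h => by rw [hμ μ h, Units.val_one, ZMod.val_one, pow_one]) l,
        map_one, map_one, Finset.sum_eq_single l]
      · have h1 : p ^ k • (x l : JZero (q ^ 2 * R)) = 0 := by
          rw [← natCast_zsmul]; exact Pic0.mem_torsion.mp (x l).2
        rw [Matrix.one_apply_eq, ZMod.val_one_eq_one_mod, ← nsmul_eq_mod_nsmul _ h1, one_nsmul]
      · intro s _ hs
        rw [Matrix.one_apply_ne (Ne.symm hs), ZMod.val_zero, zero_nsmul]
      · exact fun h => absurd (Finset.mem_univ _) h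
    obtain ⟨F⟩ := hFF (p ^ k) hqk r x hfixed
    have hvan := glueExp_smul_twistTraceMat_eq_zero hA hR F hqk
      (M.toMonoidHom.comp chi) (M.toMonoidHom.comp theta)
      (fun d u => (Commute.all (theta d) (chi u)).map M) hact
      (by
        show ∑ d, M (chi d) * M (theta d) = 0
        simp only [← map_mul, ← map_sum, hsum, map_zero])
      (by
        show ∑ d, M (chi d⁻¹) * M (theta d) = 0
        simp only [← map_mul, ← map_sum, hsum', map_zero]) i
    -- comparison with the coordinates
    obtain ⟨γ, rfl⟩ := Additive.ofMul.surjective γ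
    have hcomp : pr i (twistTrace (n := twLevel q R) (dvd_twLevel q R) chi xi (Additive.ofMul γ)) =
        twistTraceMat (dvd_twLevel q R) (M.toMonoidHom.comp chi)
          (fun l => (torsionEquiv (q ^ 2 * R) (p ^ k) (x l)).1) i (Additive.ofMul γ) := by
      simp only [twistTrace, twistTraceMat, lowerTr, twistOp, Finset.smul_sum,
        AddMonoidHom.finsetSum_apply, map_sum, hx]
      refine Finset.sum_congr rfl fun s _ => Finset.sum_congr rfl fun u _ => ?_
      simp only [smul_comm (sMinus s) (chi u), AddMonoidHom.smul_apply, smul_eq_mul, hpr]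
      refine Finset.sum_congr rfl fun l _ => ?_
      rw [smul_comm (sMinus s) ((M.toMonoidHom.comp chi) u i l), AddMonoidHom.smul_apply,
        smul_eq_mul]
      rfl
    have h4 := DFunLike.congr_fun hvan (Additive.ofMul γ)
    rw [AddMonoidHom.smul_apply, ← hcomp, nsmul_eq_mul] at h4
    rw [map_mul, map_natCast]
    exact h4
  refine AddMonoidHom.ext fun γ => b.ext_elem fun i => ?_
  rw [AddMonoidHom.zero_apply, map_zero, Finsupp.zero_apply]
  rw [← Module.Basis.coord_apply]
  exact (mul_eq_zero.1 (key i γ)).resolve_left (Nat.cast_ne_zero.2 (glueExp_pos _).ne')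

end Fermat.Agent.RT.InertiaTW

end
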