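import Mathlib

/-!
# Algebra for the endgame of the trace of inertia

A character of `(ℤ/q)ˣ` of `p`-power order with nontrivial square, its descent to an algebraically
closed subfield, orthogonality, and the trace of a plane matrix of determinant one with a given
eigenvector.
-/

set_option autoImplicit false

namespace Fermat.Agent.RT.InertiaTW

theorem dvd_pred_of_char {p q k : ℕ} [hp : Fact p.Prime] [hq : Fact q.Prime]
    (χ : DirichletCharacter ℂ q) (hk : χ ^ p ^ k = 1) (h2 : χ ^ 2 ≠ 1) :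
    p ∣ q - 1 ∧ (p = 2 → 4 ∣ q - 1) := by
  obtain ⟨i, -, hi⟩ := (Nat.dvd_prime_pow hp.out).mp (orderOf_dvd_of_pow_eq_one hk)
  have hcard : orderOf χ ∣ q - 1 := by
    refine orderOf_dvd_of_pow_eq_one (MulChar.ext fun u => ?_)
    rw [MulChar.pow_apply_coe, MulChar.one_apply_coe, ← map_pow, ← Units.val_pow_eq_pow_val,
      ZMod.units_pow_card_sub_one_eq_one, Units.val_one, map_one]
  rw [hi] at hcard
  have hi1 : 1 ≤ i := by
    rcases Nat.eq_zero_or_pos i with rfl | h
    · rw [pow_zero, orderOf_eq_one_iff] at hi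
      rw [hi, one_pow] at h2
      exact absurd rfl h2
    · exact h
  refine ⟨(dvd_pow_self p (by omega)).trans hcard, ?_⟩
  rintro rfl
  have hi2 : 2 ≤ i := by
    by_contra h
    obtain rfl : i = 1 := by omega
    exact h2 (by rw [← orderOf_dvd_iff_pow_eq_one, hi, pow_one])
  exact (pow_dvd_pow 2 hi2).trans hcard

/-- The values of a character are roots of unity, so they lie in any algebraically closed
subfield. -/
theorem exists_char_descent {q : ℕ} [Fact q.Prime] {K : Type*} [Field K] [IsAlgClosed K]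
    [CharZero K] {C : Type*} [Field C] (J : K →+* C) (χ : (ZMod q)ˣ →* C) :
    ∃ χK : (ZMod q)ˣ →* K, ∀ u, J (χK u) = χ u := by
  classical
  haveI : NeZero (q - 1) := ⟨by have := (Fact.out : q.Prime).two_le; omega⟩
  have key : ∀ u, ∃ z : K, J z = χ u := by
    intro u
    obtain ⟨ζ, hζ⟩ := HasEnoughRootsOfUnity.exists_primitiveRoot K (q - 1)
    have hpow : χ u ^ (q - 1) = 1 := by
      rw [← map_pow, ZMod.units_pow_card_sub_one_eq_one, map_one]
    obtain ⟨i, -, hi⟩ := (hζ.map_of_injective (f := J) J.injective).eq_pow_of_pow_eq_one hpow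
    exact ⟨ζ ^ i, by rw [map_pow, hi]⟩
  choose f hf using key
  refine ⟨⟨⟨f, ?_⟩, fun u w => ?_⟩, hf⟩
  · exact J.injective (by rw [hf, map_one, map_one])
  · exact J.injective (by rw [hf, map_mul J, hf, hf, map_mul])

theorem sum_inv_mul_eq_zero {G K : Type*} [Group G] [Fintype G] [CommRing K] [IsDomain K]
    (θ χ : G →* K) (h : ¬ ∀ g, θ g = χ g) : ∑ g, χ g⁻¹ * θ g = 0 := by
  classical
  let ψ : G →* K :=
    { toFun := fun g => χ g⁻¹ * θ g
      map_one' := by simp
      map_mul' := fun a b => by rw [mul_inv_rev, map_mul, map_mul]; ring }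
  refine sum_hom_units_eq_zero ψ fun hψ => h fun g => ?_
  have h1 : χ g⁻¹ * θ g = 1 := DFunLike.congr_fun hψ g
  calc θ g = χ (g * g⁻¹) * θ g := by simp
    _ = χ g * (χ g⁻¹ * θ g) := by rw [map_mul, mul_assoc]
    _ = χ g := by rw [h1, mul_one]

theorem sum_mul_eq_zero {G K : Type*} [Group G] [Fintype G] [CommRing K] [IsDomain K]
    (θ χ : G →* K) (h : ¬ ∀ g, θ g = χ g⁻¹) : ∑ g, χ g * θ g = 0 := by
  classical
  let ψ : G →* K :=
    { toFun := fun g => χ g * θ g
      map_one' := by simp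
      map_mul' := fun a b => by rw [map_mul, map_mul]; ring }
  refine sum_hom_units_eq_zero ψ fun hψ => h fun g => ?_
  have h1 : χ g * θ g = 1 := DFunLike.congr_fun hψ g
  calc θ g = χ (g⁻¹ * g) * θ g := by simp
    _ = χ g⁻¹ * (χ g * θ g) := by rw [map_mul, mul_assoc]
    _ = χ g⁻¹ := by rw [h1, mul_one]

/-- The trace of a matrix of determinant one with eigenvalue `c`. -/
theorem trace_eq_add_inv {K : Type*} [Field K] {X : Matrix (Fin 2) (Fin 2) K} {c : K}
    {v : Fin 2 → K} (hdet : X.det = 1) (hv : X.mulVec v = c • v) (h0 : v ≠ 0) :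
    X.trace = c + c⁻¹ := by
  have hdz : (X - c • (1 : Matrix (Fin 2) (Fin 2) K)).det = 0 := by
    rw [← Matrix.exists_mulVec_eq_zero_iff]
    exact ⟨v, h0, by rw [Matrix.sub_mulVec, hv, Matrix.smul_mulVec, Matrix.one_mulVec, sub_self]⟩
  rw [Matrix.det_fin_two] at hdet hdz
  simp only [Matrix.sub_apply, Matrix.smul_apply, Matrix.one_apply_eq, Fin.isValue,
    Matrix.one_apply_ne (show (0 : Fin 2) ≠ 1 by decide),
    Matrix.one_apply_ne (show (1 : Fin 2) ≠ 0 by decide), smul_eq_mul, mul_one, mul_zero,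
    sub_zero] at hdz
  rw [Matrix.trace_fin_two]
  have hc : c ≠ 0 := by
    rintro rfl
    simp at hdz
    rw [hdz] at hdet
    exact zero_ne_one hdet
  field_simp
  linear_combination hdet - hdz

end Fermat.Agent.RT.InertiaTW
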