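import Fermat.Agent.Carayol.Rational

/-!
# Classes fixed by a set of Galois elements

As over the field fixed by inertia, for any set of Galois elements: a fixed class contains a fixed
divisor, normalised functions with a fixed divisor are fixed, fixed divisors have fixed local
equations, and the orders at valuations of a field of fixed functions are divisible as on the curve.
-/

set_option autoImplicit false
set_option linter.unusedSectionVars false

noncomputable section

open ModularCurve AlgebraicCurve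
open Fermat.Agent.Carayol Fermat.Agent.Arith

namespace Fermat.Agent.RT.InertiaTW

variable {N : ℕ} [NeZero N] {H : Set GQ}

local notation "FN" => modularFunctionFieldBar N

local notation "gal" σ => arithmeticGalois (modularFunctionFieldFull N) σ

/-- A class fixed by the elements of `H` contains a divisor fixed by them. -/
theorem exists_fixed_rep_set {x : JZero N} (hx : ∀ σ ∈ H, σ • x = x) :
    ∃ D : Divisor.degZero (K := QBar) (F := FN), Pic0.mk D = x ∧
      ∀ σ ∈ H, (gal σ) • (D : Divisor QBar FN) = D := by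
  obtain ⟨D₀, rfl⟩ := Pic0.mk_surjective x
  obtain ⟨D, hD, hprin, hfix⟩ := exists_fixed_equiv ((fun σ => gal σ) '' H)
    (Mazur.Eisenstein.placeInf N) (by rintro _ ⟨σ, -, rfl⟩; exact galois_smul_inf σ)
    (D := (D₀ : Divisor QBar FN)) (Divisor.mem_degZero.mp D₀.2) (by
      rintro _ ⟨σ, hσ, rfl⟩
      have h := hx σ hσ
      rw [galois_smul_pic0_def, SemilinearAut.pic0_smul_mk] at h
      have h' := (QuotientAddGroup.eq_iff_sub_mem).mp h
      simpa [AddSubgroup.mem_addSubgroupOf] using h')
  refine ⟨⟨D, Divisor.mem_degZero.mpr hD⟩, (QuotientAddGroup.eq_iff_sub_mem).mpr ?_,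
    fun σ hσ => hfix _ ⟨σ, hσ, rfl⟩⟩
  simpa [AddSubgroup.mem_addSubgroupOf] using hprin

/-- A principal divisor is the divisor of a normalised function. -/
theorem exists_lead_one {E : Divisor QBar FN} (hE : E.IsPrincipal) :
    ∃ f : FN, f ≠ 0 ∧ (f : LaurentSeries QBar).leadingCoeff = 1 ∧ ∀ P, E P = P.ord f := by
  obtain ⟨f, hf0, hf⟩ := hE
  set l := (f : LaurentSeries QBar).leadingCoeff with hl
  have hl0 : l ≠ 0 := HahnSeries.leadingCoeff_ne_zero.mpr fun e => hf0 (Subtype.ext e)
  have hcl : algebraMap QBar FN l⁻¹ ≠ 0 := by simpa using hl0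
  refine ⟨algebraMap QBar FN l⁻¹ * f, mul_ne_zero hcl hf0, ?_, fun P => ?_⟩
  · rw [leadingCoeff_algebraMap_mul, inv_mul_cancel₀ hl0]
  · rw [P.ord_mul hcl hf0, FF.ord_algebraMap, zero_add, hf]

/-- The order of a conjugate. -/
theorem ord_gal_smul (σ : GQ) {D : Divisor QBar FN} {f : FN} {a : ℤ}
    (hf : ∀ P, P.ord f = a * D P) (P : Place QBar FN) :
    P.ord ((gal σ) • f) = a * ((gal σ) • D) P := by
  conv_lhs => rw [← smul_inv_smul (gal σ) P]
  rw [SemilinearAut.ord_smul, hf, SemilinearAut.divisor_smul_apply]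

/-- Normalised functions with equal divisors are equal. -/
theorem eq_of_ord_lead {x y : FN} (hx : x ≠ 0) (hy : y ≠ 0)
    (hxl : (x : LaurentSeries QBar).leadingCoeff = 1)
    (hyl : (y : LaurentSeries QBar).leadingCoeff = 1)
    (h : ∀ P : Place QBar FN, P.ord x = P.ord y) : x = y := by
  obtain ⟨c, hc⟩ := exists_eq_mul_of_ord hx hy h
  exact eq_of_leadingCoeff hc hy (hxl.trans hyl.symm)

theorem gal_smul_ne_zero (σ : GQ) {f : FN} (hf : f ≠ 0) : (gal σ) • f ≠ 0 :=
  (_root_.map_ne_zero (SemilinearAut.toRingAut (gal σ))).mpr hf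

theorem lead_gal_smul (σ : GQ) {f : FN} (hf : (f : LaurentSeries QBar).leadingCoeff = 1) :
    (((gal σ) • f : FN) : LaurentSeries QBar).leadingCoeff = 1 := by
  rw [leadingCoeff_smul, hf, map_one]

/-- A normalised function whose divisor is fixed is fixed. -/
theorem gal_smul_eq_self {σ : GQ} {D : Divisor QBar FN} (hD : ((gal σ) • D) = D) {f : FN}
    (hf0 : f ≠ 0) (hl : (f : LaurentSeries QBar).leadingCoeff = 1) {a : ℤ}
    (hf : ∀ P, P.ord f = a * D P) : (gal σ) • f = f :=
  eq_of_ord_lead (gal_smul_ne_zero σ hf0) hf0 (lead_gal_smul σ hl) hl fun P => by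
    rw [ord_gal_smul σ hf P, hD, hf]

set_option maxHeartbeats 800000 in
/-- A fixed divisor has a fixed local equation at every place. -/
theorem exists_fixed_ord_set {D : Divisor QBar FN} (hfix : ∀ σ ∈ H, (gal σ) • D = D)
    (P : Place QBar FN) :
    ∃ g : FN, g ≠ 0 ∧ (∀ σ ∈ H, (gal σ) • g = g) ∧ P.ord g = - D P := by
  classical
  set P₀ := Mazur.Eisenstein.placeInf N with hP₀
  rcases eq_or_ne P P₀ with rfl | hP
  · have hj : Genus.jB N ≠ 0 := fun h => by
      have := Mazur.Eisenstein.ord_placeInf_jB N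
      rw [h, Place.ord_zero] at this
      omega
    refine ⟨Genus.jB N ^ D P₀, zpow_ne_zero _ hj, fun σ _ => ?_, ?_⟩
    · show SemilinearAut.toRingAut (gal σ) _ = _
      rw [map_zpow₀]
      congr 1
      exact Subtype.ext (coeffMap_jqModC _)
    · rw [Place.ord_zpow, hP₀, Mazur.Eisenstein.ord_placeInf_jB]; ring
  obtain ⟨c, hc⟩ := FF.exists_ell_eq (K := QBar) (F := FN)
  set t : ℕ := (c - Divisor.degree D).toNat + (genusFF QBar FN - Divisor.degree D).toNat + 1
    with ht
  set B : Divisor QBar FN := D + Finsupp.single P₀ (t : ℤ) with hB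
  set B' : Divisor QBar FN := B - Finsupp.single P 1 with hB'
  have hdeg : Divisor.degree B = Divisor.degree D + t := by
    rw [hB, map_add, Divisor.degree_single, FF.deg_eq_one]; simp
  have hdeg' : Divisor.degree B' = Divisor.degree D + t - 1 := by
    rw [hB', map_sub, hdeg, Divisor.degree_single, FF.deg_eq_one]; simp
  have h1 := hc B (by rw [hdeg]; omega)
  have h2 := hc B' (by rw [hdeg']; omega)
  set W := riemannRochSpace B
  have hW : (Module.finrank QBar W : ℤ) = FF.ell QBar B := rfl
  have : FiniteDimensional QBar W := FiniteDimensional.of_finrank_pos (by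
    have : (0 : ℤ) < Module.finrank QBar W := by rw [hW, h1, hdeg]; omega
    exact_mod_cast this)
  have hBfix : ∀ σ ∈ H, (gal σ) • B = B := fun σ hσ => by
    rw [hB, smul_add, hfix σ hσ, SemilinearAut.smul_single, hP₀, galois_smul_inf]
  have hstable : ∀ σ ∈ H, ∀ x ∈ W,
      arithmeticRingAut (modularFunctionFieldFull N) σ x ∈ W := by
    intro σ hσ x hx
    rw [mem_riemannRochSpace_iff] at hx ⊢
    intro v
    rcases eq_or_ne x 0 with rfl | hx0
    · exact Or.inl (map_zero _)
    refine Or.inr ?_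
    have h3 := (hx ((gal σ)⁻¹ • v)).resolve_left hx0
    rw [← hBfix σ hσ, SemilinearAut.divisor_smul_apply]
    conv_rhs => rw [← smul_inv_smul (gal σ) v]
    exact h3.trans (SemilinearAut.ord_smul _ _ x).ge
  obtain ⟨b, hbW, hbli, hbfix⟩ := RT.Mazur.exists_fixed_basis H W hstable
  obtain ⟨i, hi⟩ : ∃ i, b i ∉ riemannRochSpace B' := by
    by_contra! hall
    have : FiniteDimensional QBar (riemannRochSpace B') := by
      refine Submodule.finiteDimensional_of_le (S₂ := W) (FF.riemannRochSpace_mono ?_)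
      rw [hB', sub_le_self_iff]
      exact Finsupp.single_nonneg.mpr zero_le_one
    have h4 : Module.finrank QBar W ≤ Module.finrank QBar (riemannRochSpace B') := by
      have h5 : LinearIndependent QBar fun i => (⟨b i, hall i⟩ : riemannRochSpace B') :=
        LinearIndependent.of_comp (riemannRochSpace B').subtype hbli
      simpa using h5.fintype_card_le_finrank
    have h6 : (Module.finrank QBar W : ℤ) ≤ FF.ell QBar B' := by
      show _ ≤ ((Module.finrank QBar (riemannRochSpace B') : ℕ) : ℤ)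
      exact_mod_cast h4
    rw [hW, h1, h2, hdeg, hdeg'] at h6
    omega
  have hbi0 : b i ≠ 0 := fun h => hi (by rw [h]; exact zero_mem _)
  refine ⟨b i, hbi0, fun σ hσ => hbfix i σ hσ, ?_⟩
  rw [mem_riemannRochSpace_iff] at hi
  push Not at hi
  obtain ⟨v, -, hv⟩ := hi
  have h7 := (mem_riemannRochSpace_iff.mp (hbW i) v).resolve_left hbi0
  rcases eq_or_ne v P with rfl | hvP
  · simp only [hB', hB, Finsupp.sub_apply, Finsupp.add_apply, Finsupp.single_eq_same,
      Finsupp.single_eq_of_ne hP] at hv h7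
    omega
  · simp only [hB', Finsupp.sub_apply, Finsupp.single_eq_of_ne hvP, sub_zero] at hv
    omega

/-- In a field of functions containing local equations of `D`, a function with divisor `m D` has
order divisible by `m` at every valuation trivial on the rational numbers. -/
theorem dvd_log_valuation_of {S : Type*} [Field S] (e : S →+* FN)
    (w : Valuation S (WithZero (Multiplicative ℤ))) (hw : ∀ c : ℚ, c ≠ 0 → w (c : S) = 1)
    {m : ℕ} {D : Divisor QBar FN} {x : S} (hx0 : x ≠ 0)
    (hord : ∀ P : Place QBar FN, P.ord (e x) = (m : ℤ) * D P)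
    (hloc : ∀ P : Place QBar FN, ∃ y : S, y ≠ 0 ∧ P.ord (e y) = - D P) :
    (m : ℤ) ∣ WithZero.log (w x) := by
  classical
  let r : w.valuationSubring →+* FN := e.comp w.valuationSubring.subtype
  have hr : Function.Injective r := e.injective.comp Subtype.val_injective
  let eR : w.valuationSubring ≃+* r.range :=
    RingEquiv.ofBijective r.rangeRestrict
      ⟨fun a b h => hr (congrArg Subtype.val h), r.rangeRestrict_surjective⟩
  let I : Ideal r.range := (IsLocalRing.maximalIdeal w.valuationSubring).map eR.toRingHom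
  have hI : I ≠ ⊤ := by
    intro h
    have h' : (IsLocalRing.maximalIdeal w.valuationSubring) = ⊤ := by
      have := congrArg (Ideal.comap eR.toRingHom) h
      rwa [show I = (IsLocalRing.maximalIdeal w.valuationSubring).map eR.toRingHom from rfl,
        Ideal.comap_map_of_bijective eR.toRingHom eR.bijective, Ideal.comap_top] at this
    exact Ideal.IsPrime.ne_top' h'
  obtain ⟨V, hRV, hIV⟩ := Ideal.image_subset_nonunits_valuationSubring (A := r.range) I hI
  -- a unit of `V` in the subfield is a unit for `w`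
  have hunit : ∀ z : S, z ≠ 0 → e z ∈ V → e z⁻¹ ∈ V → w z = 1 := by
    intro z hz0 h1 h2
    have key : ∀ y : S, y ≠ 0 → e y⁻¹ ∈ V → ¬ w y < 1 := by
      intro y hy0 hy hlt
      have hy' : y ∈ w.valuationSubring := hlt.le
      have hmem : (⟨y, hy'⟩ : w.valuationSubring) ∈ IsLocalRing.maximalIdeal _ := by
        rw [IsLocalRing.mem_maximalIdeal, mem_nonunits_iff]
        intro hu
        obtain ⟨z, hz⟩ := hu.exists_right_inv
        have h3 : w y * w (z : S) = 1 := by
          rw [← map_mul, ← map_one w]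
          exact congrArg w (congrArg Subtype.val hz)
        exact (mul_lt_one_of_nonneg_of_lt_one_left zero_le hlt z.2).ne h3
      have h4 : e y ∈ V.nonunits := hIV ⟨_, Ideal.mem_map_of_mem _ hmem, rfl⟩
      have h5 : V.valuation (e y) < 1 := (V.mem_nonunits_iff).mp h4
      have h6 : V.valuation (e y⁻¹) ≤ 1 := (V.valuation_le_one_iff _).mpr hy
      rw [map_inv₀, map_inv₀, inv_le_one₀ (zero_lt_iff.mpr (by simpa using hy0))] at h6
      exact absurd h5 h6.not_gt
    refine le_antisymm (not_lt.mp fun hgt => ?_) (not_lt.mp (key z hz0 h2))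
    refine key z⁻¹ (inv_ne_zero hz0) (by rwa [inv_inv]) ?_
    rw [map_inv₀]
    exact inv_lt_one_of_one_lt₀ hgt
  have hconst : ∀ a : QBar, algebraMap QBar FN a ∈ V := by
    intro a
    have hk : ∀ c : ℚ, (c : FN) ∈ V := fun c => by
      rcases eq_or_ne c 0 with rfl | hc
      · rw [Rat.cast_zero]; exact zero_mem _
      rw [← map_ratCast e]
      exact hRV ⟨⟨(c : S), (hw c hc).le⟩, rfl⟩
    let κ : ℚ →+* V := (Rat.castHom FN).codRestrict V.toSubring hk
    have hint : IsIntegral V (algebraMap QBar FN a) := by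
      obtain ⟨P, hP, hPa⟩ := Algebra.IsIntegral.isIntegral (R := ℚ) a
      refine ⟨P.map κ, hP.map κ, ?_⟩
      rw [Polynomial.eval₂_map,
        show (algebraMap V FN).comp κ = (algebraMap QBar FN).comp (algebraMap ℚ QBar) from
          RingHom.ext_rat _ _, ← Polynomial.hom_eval₂, hPa, map_zero]
    obtain ⟨y, hy⟩ := IsIntegrallyClosed.isIntegral_iff.mp hint
    exact hy ▸ y.2
  have hex0 : e x ≠ 0 := (map_ne_zero e).mpr hx0
  by_cases htop : V = ⊤
  · rw [hunit x hx0 (htop ▸ ValuationSubring.mem_top _) (htop ▸ ValuationSubring.mem_top _),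
      WithZero.log_one]
    exact dvd_zero _
  set P : Place QBar FN := FF.placeOfValuationSubring V hconst htop
  obtain ⟨y, hy0, hyord⟩ := hloc P
  have hey0 : e y ≠ 0 := (map_ne_zero e).mpr hy0
  have hz0 : x * y ^ m ≠ 0 := mul_ne_zero hx0 (pow_ne_zero _ hy0)
  have hez : P.ord (e (x * y ^ m)) = 0 := by
    rw [map_mul, map_pow, P.ord_mul hex0 (pow_ne_zero _ hey0), JacTorsion.ord_pow,
      hord, hyord]
    ring
  have h1 : w (x * y ^ m) = 1 := hunit _ hz0
    (JacTorsion.mem_of_ord_nonneg P hez.ge)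
    (JacTorsion.mem_of_ord_nonneg P (by rw [map_inv₀, P.ord_inv, hez, neg_zero]))
  have hwy : w y ≠ 0 := w.ne_zero_iff.mpr hy0
  have hwx : w x ≠ 0 := w.ne_zero_iff.mpr hx0
  have h2 := congrArg WithZero.log h1
  rw [map_mul, map_pow, WithZero.log_mul hwx (pow_ne_zero _ hwy), WithZero.log_pow,
    WithZero.log_one, nsmul_eq_mul] at h2
  exact ⟨- WithZero.log (w y), by linear_combination h2⟩

theorem lead_prod_pow {ι : Type*} (s : Finset ι) (g : ι → FN) (c : ι → ℕ)
    (h : ∀ i ∈ s, ((g i : FN) : LaurentSeries QBar).leadingCoeff = 1) :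
    ((∏ i ∈ s, g i ^ c i : FN) : LaurentSeries QBar).leadingCoeff = 1 := by
  have key : ∀ {x y : FN}, (x : LaurentSeries QBar).leadingCoeff = 1 →
      (y : LaurentSeries QBar).leadingCoeff = 1 →
      ((x * y : FN) : LaurentSeries QBar).leadingCoeff = 1 := fun {x y} hx hy => by
    show ((x : LaurentSeries QBar) * (y : LaurentSeries QBar)).leadingCoeff = 1
    rw [HahnSeries.leadingCoeff_mul, hx, hy, one_mul]
  have h1 : ((1 : FN) : LaurentSeries QBar).leadingCoeff = 1 := HahnSeries.leadingCoeff_one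
  have hp : ∀ (x : FN), (x : LaurentSeries QBar).leadingCoeff = 1 → ∀ k : ℕ,
      ((x ^ k : FN) : LaurentSeries QBar).leadingCoeff = 1 := fun x hx k => by
    induction k with
    | zero => rw [pow_zero]; exact h1
    | succ k ih => rw [pow_succ]; exact key ih hx
  classical
  induction s using Finset.induction_on with
  | empty => rw [Finset.prod_empty]; exact h1
  | insert a s ha ih =>
    rw [Finset.prod_insert ha]
    exact key (hp _ (h a (Finset.mem_insert_self a s)) _)
      (ih fun i hi => h i (Finset.mem_insert_of_mem hi))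

theorem ord_prod_pow {ι : Type*} (s : Finset ι) (g : ι → FN) (c : ι → ℕ)
    (hg : ∀ i, g i ≠ 0) (P : Place QBar FN) :
    P.ord (∏ i ∈ s, g i ^ c i) = ∑ i ∈ s, (c i : ℤ) * P.ord (g i) := by
  classical
  induction s using Finset.induction_on with
  | empty =>
    rw [Finset.prod_empty, Finset.sum_empty, ← map_one (algebraMap QBar FN)]
    exact FF.ord_algebraMap P 1
  | insert a s ha ih =>
    rw [Finset.prod_insert ha, Finset.sum_insert ha,
      P.ord_mul (pow_ne_zero _ (hg a)) (Finset.prod_ne_zero_iff.mpr fun i _ => pow_ne_zero _ (hg i)),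
      JacTorsion.ord_pow, ih]

/-- Normalised functions behind a family of fixed classes killed by `m`. -/
theorem exists_lead_family {m r : ℕ} [NeZero m] (x : Fin r → Pic0.torsion QBar FN m)
    (hx : ∀ i, ∀ σ ∈ H, σ • (x i : JZero N) = x i) :
    ∃ (h : Fin r → FN) (D : Fin r → Divisor.degZero (K := QBar) (F := FN)),
      ∀ i, h i ≠ 0 ∧ (h i : LaurentSeries QBar).leadingCoeff = 1 ∧
        Pic0.mk (D i) = (x i : JZero N) ∧
        (∀ σ ∈ H, (gal σ) • (D i : Divisor QBar FN) = D i) ∧
        (∀ σ ∈ H, (gal σ) • h i = h i) ∧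
        ∀ P, P.ord (h i) = (m : ℤ) * (D i : Divisor QBar FN) P := by
  have key : ∀ i, ∃ D : Divisor.degZero (K := QBar) (F := FN),
      Pic0.mk D = (x i : JZero N) ∧ (∀ σ ∈ H, (gal σ) • (D : Divisor QBar FN) = D) ∧
        ∃ h : FN, h ≠ 0 ∧ (h : LaurentSeries QBar).leadingCoeff = 1 ∧
          ∀ P, P.ord h = (m : ℤ) * (D : Divisor QBar FN) P := by
    intro i
    obtain ⟨D, hD, hDfix⟩ := exists_fixed_rep_set (hx i)
    have hm := Pic0.mem_torsion.mp (x i).2
    rw [← hD] at hm
    have hm' := (QuotientAddGroup.eq_zero_iff ((m : ℤ) • D)).mp hm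
    rw [AddSubgroup.mem_addSubgroupOf, AddSubgroup.coe_zsmul] at hm'
    obtain ⟨h, hh0, hhl, hh⟩ := exists_lead_one hm'
    exact ⟨D, hD, hDfix, h, hh0, hhl, fun P => by rw [← hh P, Finsupp.smul_apply, smul_eq_mul]⟩
  choose D hD hDfix h h0 hl hord using key
  exact ⟨h, D, fun i => ⟨h0 i, hl i, hD i, hDfix i,
    fun σ hσ => gal_smul_eq_self (hDfix i σ hσ) (h0 i) (hl i) (hord i), hord i⟩⟩

/-- If `σ` carries the class of `h i` to a combination of the others, the conjugate of `h i` is
that product of the others times the `m`-th power of a fixed function. -/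
theorem exists_conj_root {m r : ℕ} [NeZero m] {h : Fin r → FN}
    {D : Fin r → Divisor.degZero (K := QBar) (F := FN)} (h0 : ∀ i, h i ≠ 0)
    (hl : ∀ i, (h i : LaurentSeries QBar).leadingCoeff = 1)
    (hfix : ∀ i, ∀ τ ∈ H, (gal τ) • h i = h i)
    (hord : ∀ i P, P.ord (h i) = (m : ℤ) * (D i : Divisor QBar FN) P)
    {σ : GQ} (hconj : ∀ τ ∈ H, σ⁻¹ * τ * σ ∈ H) {i : Fin r} {c : Fin r → ℕ}
    (hc : σ • Pic0.mk (D i) = ∑ l, c l • Pic0.mk (D l)) :
    ∃ G : FN, G ≠ 0 ∧ (∀ τ ∈ H, (gal τ) • G = G) ∧
      (gal σ) • h i = G ^ m * ∏ l, h l ^ c l := by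
  classical
  set g := gal σ with hg
  rw [galois_smul_pic0_def, SemilinearAut.pic0_smul_mk] at hc
  have hprin : Divisor.IsPrincipal (g • (D i : Divisor QBar FN) -
      ∑ l, c l • (D l : Divisor QBar FN)) := by
    have hsum : ∑ l, c l • Pic0.mk (D l) = Pic0.mk (∑ l, c l • D l) := by
      let π := QuotientAddGroup.mk' ((Divisor.principal (K := QBar) (F := FN)).addSubgroupOf
        (Divisor.degZero (K := QBar) (F := FN)))
      refine Eq.trans ?_ (map_sum π _ _).symm
      exact Finset.sum_congr rfl fun l _ => (map_nsmul π _ _).symm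
    have h1 := (QuotientAddGroup.eq_iff_sub_mem).mp (hc.trans hsum)
    rw [AddSubgroup.mem_addSubgroupOf, AddSubgroup.coe_sub,
      AddSubmonoidClass.coe_finsetSum] at h1
    simp only [AddSubgroup.coe_nsmul] at h1
    exact h1
  obtain ⟨G, hG0, hGl, hG⟩ := exists_lead_one hprin
  set Pr := ∏ l, h l ^ c l with hPr
  have hPr0 : Pr ≠ 0 := Finset.prod_ne_zero_iff.mpr fun l _ => pow_ne_zero _ (h0 l)
  have heq : g • h i = G ^ m * Pr := by
    refine eq_of_ord_lead (gal_smul_ne_zero σ (h0 i)) (mul_ne_zero (pow_ne_zero _ hG0) hPr0)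
      (lead_gal_smul σ (hl i)) ?_ fun P => ?_
    · show ((G ^ m : FN).1 * Pr.1).leadingCoeff = 1
      rw [HahnSeries.leadingCoeff_mul, lead_prod_pow Finset.univ h c fun l _ => hl l, mul_one]
      simpa using lead_prod_pow {()} (fun _ : Unit => G) (fun _ => m) fun _ _ => hGl
    · rw [ord_gal_smul σ (hord i) P, P.ord_mul (pow_ne_zero _ hG0) hPr0, JacTorsion.ord_pow,
        ord_prod_pow _ _ _ h0, ← hG P]
      simp only [hord, Finsupp.sub_apply, Finsupp.finsetSum_apply, Finsupp.smul_apply,
        nsmul_eq_mul]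
      rw [mul_sub, Finset.mul_sum, hg]
      ring_nf
  refine ⟨G, hG0, fun τ hτ => ?_, heq⟩
  set t := gal τ with ht
  have h1 : t • (g • h i) = g • h i := by
    conv_rhs => rw [← hfix i _ (hconj τ hτ)]
    rw [hg, ht, smul_smul, smul_smul, ← map_mul, ← map_mul]
    congr 2
    group
  have hfix' : t • Pr = Pr := by
    show SemilinearAut.toRingAut t Pr = Pr
    rw [hPr, map_prod]
    exact Finset.prod_congr rfl fun l _ => by
      rw [map_pow]; exact congrArg (· ^ c l) (hfix l τ hτ)
  rw [heq] at h1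
  have h2 : t • (G ^ m * Pr) = (t • G) ^ m * (t • Pr) := by
    show SemilinearAut.toRingAut t (G ^ m * Pr) = _
    rw [map_mul, map_pow]
    rfl
  rw [h2, hfix'] at h1
  have h3 := mul_right_cancel₀ hPr0 h1
  refine eq_of_ord_lead (gal_smul_ne_zero τ hG0) hG0 (lead_gal_smul τ hGl) hGl fun P => ?_
  have h4 := congrArg P.ord h3
  rw [JacTorsion.ord_pow, JacTorsion.ord_pow] at h4
  exact mul_left_cancel₀ (by exact_mod_cast NeZero.ne m) h4

end Fermat.Agent.RT.InertiaTW

end
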