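import Fermat.Agent.RT.InertiaTW.GroupSum
import Fermat.Agent.RT.InertiaTW.LevelAction

/-!
# The twisted trace from level `q²R` to the lower unipotents of level `q n`

A homomorphism on `Γ₀(q²R)` is carried to `Γ(qn)` by `τ ↦ τ/q`, twisted by `χ` and traced.
-/

set_option autoImplicit false

noncomputable section

open CongruenceSubgroup
open scoped MatrixGroups

namespace Fermat.Agent.RT.InertiaTW

/-- The auxiliary order of the marked point, prime to `q`. -/
def twMark (q : ℕ) : ℕ := if q = 7 then 9 else 7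

theorem twMark_eq (q : ℕ) : twMark q = 7 ∨ twMark q = 9 := by
  unfold twMark
  split_ifs <;> simp

/-- The auxiliary level prime to `q`. -/
def twLevel (q R : ℕ) : ℕ := R * twMark q

theorem dvd_twLevel (q R : ℕ) : R ∣ twLevel q R := dvd_mul_right R _

theorem twMark_dvd_twLevel (q R : ℕ) : twMark q ∣ twLevel q R := dvd_mul_left _ R

theorem not_dvd_twLevel {q R : ℕ} (hq : q.Prime) (hR : ¬ q ∣ R) : ¬ q ∣ twLevel q R := by
  intro h
  rcases hq.dvd_mul.1 h with h | h
  · exact hR h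
  unfold twMark at h
  split_ifs at h with h7
  · subst h7; norm_num at h
  · exact h7 ((Nat.prime_dvd_prime_iff_eq hq (by norm_num)).1 h)

theorem coprime_twLevel {q R : ℕ} (hq : q.Prime) (hR : ¬ q ∣ R) : q.Coprime (twLevel q R) :=
  hq.coprime_iff_not_dvd.2 (not_dvd_twLevel hq hR)

instance (q R : ℕ) [NeZero R] : NeZero (twLevel q R) :=
  ⟨mul_ne_zero (NeZero.ne R) (by rcases twMark_eq q with h | h <;> simp [h])⟩

variable {q n R : ℕ} [NeZero (q * n)]

/-- Pullback of a homomorphism on `Γ₀(q²R)` along `τ ↦ τ/q`. -/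
def resHom (hR : R ∣ n) (A : Type*) [AddCommGroup A] :
    (Additive (Gamma0 (q ^ 2 * R)) →+ A) →+ (Additive (Gamma (q * n)) →+ A) where
  toFun ξ := ξ.comp (MonoidHom.toAdditive
    ((rescale q n).codRestrict (Gamma0 (q ^ 2 * R)) (rescale_mem_Gamma0 dvd_rfl hR)))
  map_zero' := rfl
  map_add' _ _ := rfl

theorem resHom_apply (hR : R ∣ n) {A : Type*} [AddCommGroup A]
    (ξ : Additive (Gamma0 (q ^ 2 * R)) →+ A) (γ : Gamma (q * n)) :
    resHom hR A ξ (Additive.ofMul γ) =
      ξ (Additive.ofMul ⟨rescale q n γ, rescale_mem_Gamma0 dvd_rfl hR γ⟩) := rfl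

theorem resHom_comp (hR : R ∣ n) {A B : Type*} [AddCommGroup A] [AddCommGroup B] (g : A →+ B)
    (ξ : Additive (Gamma0 (q ^ 2 * R)) →+ A) : resHom hR B (g.comp ξ) = g.comp (resHom hR A ξ) := rfl

variable [Fact (q.Coprime n)] [Fact q.Prime] {O : Type*} [CommRing O] {A : Type*} [AddCommGroup A]
  [Module O A]

/-- Twist by `χ`, then trace to the lower unipotents. -/
def twistTrace (hR : R ∣ n) (χ : (ZMod q)ˣ →* O) (ξ : Additive (Gamma0 (q ^ 2 * R)) →+ A) :
    Additive (Gamma (q * n)) →+ A :=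
  lowerTr (q := q) (twistOp χ (resHom hR A ξ))

/-- The twisted trace is natural in the coefficients. -/
theorem comp_twistTrace {O' B : Type*} [CommRing O'] [AddCommGroup B] [Module O' B]
    (hR : R ∣ n) (χ : (ZMod q)ˣ →* O) (χ' : (ZMod q)ˣ →* O') (g : A →+ B)
    (hg : ∀ u a, g (χ u • a) = χ' u • g a) (ξ : Additive (Gamma0 (q ^ 2 * R)) →+ A) :
    g.comp (twistTrace hR χ ξ) = twistTrace hR χ' (g.comp ξ) := by
  refine AddMonoidHom.ext fun γ => ?_
  obtain ⟨γ, rfl⟩ := Additive.ofMul.surjective γ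
  simp only [twistTrace, lowerTr, twistOp, Finset.smul_sum, AddMonoidHom.comp_apply,
    AddMonoidHom.finset_sum_apply, map_sum]
  refine Finset.sum_congr rfl fun s _ => Finset.sum_congr rfl fun u _ => ?_
  simp only [smul_comm (sMinus s) (χ u), smul_comm (sMinus s) (χ' u), AddMonoidHom.smul_apply, hg,
    smul_apply_eq, resHom_comp, AddMonoidHom.comp_apply]

/-- Twist and trace by a family of integer matrices modulo `m`. -/
def twistTraceMat {m r : ℕ} (hR : R ∣ n) (X : (ZMod q)ˣ →* Matrix (Fin r) (Fin r) (ZMod m))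
    (ξ : Fin r → Additive (Gamma0 (q ^ 2 * R)) →+ ZMod m) (i : Fin r) :
    Additive (Gamma (q * n)) →+ ZMod m :=
  lowerTr (q := q) (∑ u : (ZMod q)ˣ, ∑ l, X u i l • (sPlus (u : ZMod q) • resHom hR (ZMod m) (ξ l)))

/-- `(s, φ) ↦ (sᵀ)⁻¹ φ`: substitution by an element of `SL₂` as seen on homomorphisms. -/
def sStar (s : SL(2, ZMod q)) : SL(2, ZMod q) := (Matrix.SpecialLinearGroup.transpose s)⁻¹

end Fermat.Agent.RT.InertiaTW
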