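import Fermat.Agent.RT.InertiaTW.KummerChar
import Fermat.Agent.RT.InertiaTW.TwistTrace
import Fermat.Agent.Carayol.Omega.CuspInst
import Fermat.Agent.Carayol.Omega.Level
import Fermat.Agent.Carayol.Inertial
import Fermat.Agent.Carayol.Glue

/-!
# The Kummer functions of a family of torsion classes in the field of level `q n`

The data needed from the functions attached to classes on `X₀(q²R)` killed by `m` and fixed by
the inertia elements fixing the `q`-th roots of unity.
-/

set_option autoImplicit false

noncomputable section

open CongruenceSubgroup AlgebraicCurve Matrix.SpecialLinearGroup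
open Fermat.Agent.Carayol Fermat.Agent.Carayol.Omega Fermat.Agent.JacTorsion Fermat.Agent.Arith
open scoped MatrixGroups Classical

namespace Fermat.Agent.RT.InertiaTW

/-- The standard embedding and root of unity. -/
def stdSetup (N : ℕ) [NeZero N] : Setup N QBar where
  ι := ιQ
  ζ := ((isPrimitiveRoot_zetaC N).isIntegral (NeZero.pos N)).tower_top (A := ℚ) |>.isAlgebraic |>
    mem_range_ιQ |>.choose
  map_ζ := ((isPrimitiveRoot_zetaC N).isIntegral (NeZero.pos N)).tower_top (A := ℚ) |>.isAlgebraic |>
    mem_range_ιQ |>.choose_spec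

variable {q R : ℕ} [Fact q.Prime] [NeZero R] [NeZero (q * twLevel q R)]

/-- The field of level `q n` over the field fixed by inertia. -/
abbrev twField (q R : ℕ) [NeZero (q * twLevel q R)] (A : ValuationSubring QBar) :=
  (stdSetup (q * twLevel q R)).field (inertiaField A)

variable {A : ValuationSubring QBar}

/-- The constants inside the field of level `n`, read in a general context. -/
@[reducible] def fieldAlgebra {n : ℕ} [NeZero n] {K : Type*} [Field K] [CharZero K] (E : Setup n K)
    (k : Type*) [Field k] [Algebra k K] : Algebra k (E.field k) := SubalgebraClass.toAlgebra _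

instance : Algebra (inertiaField A) (twField q R A) := fieldAlgebra _ _

/-- The level structure on the field of level `q n`. -/
def twTate (hA : A.LiesOverPrime q) (hR : ¬ q ∣ R) :
    TateLevel (inertiaField A) (twField q R A) :=
  (stdSetup (q * twLevel q R)).tateLevel (inertiaField A) (coprime_twLevel Fact.out hR) Fact.out
    (twMark q) (twMark_eq q) (twMark_dvd_twLevel q R)
    (exists_aut_inertiaField hA Fact.out (not_dvd_twLevel Fact.out hR)
      (stdSetup (q * twLevel q R)).isPrimitiveRoot)

/-- `g` acting on the units of the field of level `q n`. -/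
def twAct (hA : A.LiesOverPrime q) (hR : ¬ q ∣ R) (g : GL (Fin 2) (ZMod q)) :
    (twField q R A)ˣ →* (twField q R A)ˣ :=
  Units.map ((twTate hA hR).act g).toRingEquiv.toRingHom.toMonoidHom

variable [Fact (q.Coprime (twLevel q R))]

/-- Kummer functions of the classes `x i` in the field of level `q n`: their divisors are divisible
by `m`, the diagonal matrices of determinant one fix them, substitution by `SL₂` conjugates their
monodromy, and `diag(1, d)` acts on them as the inertia elements moving `μ_q` by `d`. -/
structure FunFamily (hA : A.LiesOverPrime q) (hR : ¬ q ∣ R) (m : ℕ) [NeZero m] {r : ℕ}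
    (x : Fin r → Pic0.torsion QBar (ModularCurve.modularFunctionFieldBar (q ^ 2 * R)) m) where
  /-- The functions. -/
  f : Fin r → (twField q R A)ˣ
  places : ∀ i, Places (inertiaField A) m (f i)
  diag : ∀ i (a : (ZMod q)ˣ), twAct hA hR (diagElt a a⁻¹) (f i) = f i
  kum : ∀ i (s : SL(2, ZMod q)),
    KumChar (stdSetup (q * twLevel q R)) (inertiaField A) m (twAct hA hR (toGL s) (f i) : twField q R A)
      (sStar s • resHom (dvd_twLevel q R) (ZMod m) (torsionEquiv (q ^ 2 * R) m (x i)).1)
  galois : ∀ i (d : (ZMod q)ˣ) (c : Fin r → ℕ),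
    (∀ σ ∈ A.inertiaSubgroupIn ℚ, (∀ μ : QBar, μ ^ q = 1 → σ μ = μ ^ (d : ZMod q).val) →
      σ • (x i : ModularCurve.JZero (q ^ 2 * R)) = ∑ l, c l • (x l : ModularCurve.JZero (q ^ 2 * R))) →
    ∃ γ : (twField q R A)ˣ, twAct hA hR (diagElt 1 d) (f i) = γ ^ m * ∏ l, f l ^ c l

end Fermat.Agent.RT.InertiaTW
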