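import Fermat.Agent.RT.InertiaTW.Divisible
import Fermat.Agent.RT.Assembly.Tame
import Mathlib.LinearAlgebra.Eigenspace.Triangularizable

/-!
# A common eigenvector of residually unipotent inertia at `q ≡ 1 (mod p)`

If inertia at `q` acts on a plane over `R` residually unipotently with determinant one, then it has
a common eigenvector over `K`, whose eigencharacter factors through the action on `μ_q`. At `p = 2`
this needs `q ≡ 1 (mod 4)`: otherwise an order four character of the tame group can occur.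
-/

set_option autoImplicit false

noncomputable section

open IsLocalRing Polynomial

namespace Fermat.Agent.RT.InertiaTW

open Fermat.Agent.Arith Fermat.Agent.RT.Assembly

theorem sub_one_pow_prime_pow_mem {S : Type*} [CommRing S] {p : ℕ} (x : S) (k : ℕ) :
    x ^ p ^ k - 1 ∈ (Ideal.span {(p : S)} ⊔ Ideal.span {x - 1}) ^ (k + 1) := by
  set a : Ideal S := Ideal.span {(p : S)} ⊔ Ideal.span {x - 1}
  induction k with
  | zero =>
    simpa using Ideal.mem_sup_right (Ideal.mem_span_singleton_self (x - 1))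
  | succ k ih =>
    rw [pow_succ p, pow_mul, ← geom_sum_mul, pow_succ' a]
    refine Ideal.mul_mem_mul ?_ ih
    have : ∑ i ∈ Finset.range p, (x ^ p ^ k) ^ i = (p : S) +
        ∑ i ∈ Finset.range p, ((x ^ p ^ k) ^ i - 1) := by simp
    rw [this]
    refine add_mem (Ideal.mem_sup_left (Ideal.mem_span_singleton_self _))
      (sum_mem fun i _ => Ideal.mem_sup_right (Ideal.mem_span_singleton.mpr ?_))
    rw [← pow_mul]
    exact sub_one_dvd_pow_sub_one x _

/-- A unipotent element in a ring where `p` is nilpotent has `p`-power order. -/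
theorem exists_pow_prime_pow_eq_one {B : Type*} [Ring B] {p n m : ℕ} {Y : B}
    (hp : (p : B) ^ n = 0) (hY : (Y - 1) ^ m = 0) : ∃ k, Y ^ p ^ k = 1 := by
  refine ⟨n + m, ?_⟩
  have h1 := Ideal.pow_le_pow_right (by omega : n + m ≤ n + m + 1)
    (sub_one_pow_prime_pow_mem (p := p) (X : ℤ[X]) (n + m))
  have h2 := Ideal.sup_pow_add_le_pow_sup_pow h1
  rw [Ideal.span_singleton_pow, Ideal.span_singleton_pow] at h2
  obtain ⟨a, ha, b, hb, hab⟩ := Submodule.mem_sup.mp h2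
  obtain ⟨a, rfl⟩ := Ideal.mem_span_singleton.mp ha
  obtain ⟨b, rfl⟩ := Ideal.mem_span_singleton.mp hb
  have := congrArg (Polynomial.aeval Y) hab
  simp [hp, hY] at this
  exact sub_eq_zero.mp this.symm

/-- Commuting two by two matrices over an algebraically closed field have a common eigenvector. -/
theorem exists_common_eigenvector {K : Type*} [Field K] [IsAlgClosed K]
    (s : Set (Matrix (Fin 2) (Fin 2) K)) (hs : ∀ X ∈ s, ∀ Y ∈ s, Commute X Y) :
    ∃ v : Fin 2 → K, v ≠ 0 ∧ ∀ X ∈ s, ∃ c : K, X.mulVec v = c • v := by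
  by_cases hall : ∀ X ∈ s, ∃ c : K, X = c • 1
  · refine ⟨![1, 0], fun h => by simpa using congrFun h 0, fun X hX => ?_⟩
    obtain ⟨c, rfl⟩ := hall X hX
    exact ⟨c, by rw [Matrix.smul_mulVec, Matrix.one_mulVec]⟩
  push Not at hall
  obtain ⟨Y, hY, hne⟩ := hall
  obtain ⟨c, hc⟩ := Module.End.exists_eigenvalue (Matrix.toLin' Y)
  obtain ⟨v, hv⟩ := hc.exists_hasEigenvector
  have hv' : Y.mulVec v = c • v := by simpa using hv.apply_eq_smul
  refine ⟨v, hv.2, fun X hX => ?_⟩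
  -- otherwise `v` and `X v` span and `Y` is scalar
  by_contra hno
  push Not at hno
  have hli : LinearIndependent K ![v, X.mulVec v] := by
    rw [LinearIndependent.pair_iff]
    intro a b hab
    by_cases hb : b = 0
    · subst hb
      rw [zero_smul, add_zero, smul_eq_zero] at hab
      exact ⟨hab.resolve_right hv.2, rfl⟩
    · refine absurd ?_ (hno (-(b⁻¹ * a)))
      have := eq_neg_of_add_eq_zero_right hab
      rw [neg_smul, mul_smul, ← smul_neg, ← this, inv_smul_smul₀ hb]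
  refine hne c (Matrix.toLin'.injective ((basisOfLinearIndependentOfCardEqFinrank hli
    (by simp)).ext fun i => ?_))
  have hXv : Y.mulVec (X.mulVec v) = c • X.mulVec v := by
    rw [Matrix.mulVec_mulVec, ← (hs X hX Y hY).eq, ← Matrix.mulVec_mulVec, hv', Matrix.mulVec_smul]
  rw [coe_basisOfLinearIndependentOfCardEqFinrank, Matrix.toLin'_apply, Matrix.toLin'_apply,
    Matrix.smul_mulVec, Matrix.one_mulVec]
  fin_cases i
  · exact hv'
  · exact hXv

theorem mapMatrix_mk_eq_one_iff {S : Type*} [CommRing S] (I : Ideal S)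
    (X : Matrix (Fin 2) (Fin 2) S) :
    (Ideal.Quotient.mk I).mapMatrix X = 1 ↔ ∀ i j, (X - 1) i j ∈ I := by
  rw [← sub_eq_zero, ← map_one (Ideal.Quotient.mk I).mapMatrix, ← map_sub, RingHom.mapMatrix_apply,
    ← Matrix.ext_iff]
  simp only [Matrix.map_apply, Matrix.zero_apply, Ideal.Quotient.eq_zero_iff_mem]

variable {R : Type} [CommRing R] [IsDomain R] [IsDiscreteValuationRing R] [CharZero R]
  {K : Type*} [Field K] [Algebra R K] (hinj : Function.Injective (algebraMap R K))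
  {A : ValuationSubring QBar} {q p : ℕ} (hA : A.LiesOverPrime q) (hq : q.Prime)
  (hp : p.Prime) (hp4 : p = 2 → 4 ∣ q - 1) (hpq : p ∣ q - 1) (hpR : (p : R) ∈ maximalIdeal R)
  (ρ : GQ →* Matrix (Fin 2) (Fin 2) R)
  (hcont : ∀ n : ℕ, ∃ L : IntermediateField ℚ QBar, FiniteDimensional ℚ L ∧
    ∀ σ : GQ, (∀ x ∈ L, σ x = x) → ∀ i j, (ρ σ - 1) i j ∈ maximalIdeal R ^ n)
  (hdet : ∀ σ ∈ A.inertiaSubgroupIn ℚ, (ρ σ).det = 1)
  (htr : ∀ σ ∈ A.inertiaSubgroupIn ℚ, (ρ σ).trace - 2 ∈ maximalIdeal R)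

include hp hpR hdet htr in
omit [CharZero R] in
theorem exists_pow_eq_one_mod {σ : GQ} (hσ : σ ∈ A.inertiaSubgroupIn ℚ) (n : ℕ) :
    ∃ k, (Ideal.Quotient.mk (maximalIdeal R ^ n)).mapMatrix (ρ σ) ^ p ^ k = 1 := by
  refine exists_pow_prime_pow_eq_one (n := n) (m := 2 * n) ?_ ?_
  · rw [← map_natCast (Matrix.scalar (Fin 2) : R ⧸ maximalIdeal R ^ n →+* _),
      ← map_natCast (Ideal.Quotient.mk (maximalIdeal R ^ n)), ← map_pow, ← map_pow,
      Ideal.Quotient.eq_zero_iff_mem.mpr (Ideal.pow_mem_pow hpR n), map_zero]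
  · have hdet := hdet σ hσ
    rw [Matrix.det_fin_two] at hdet
    have e : (ρ σ - 1) ^ 2 = ((ρ σ).trace - 2) • ρ σ := by
      rw [sq]
      ext i j
      fin_cases i <;> fin_cases j <;>
        simp [Matrix.mul_apply, Fin.sum_univ_two, Matrix.trace_fin_two] <;>
        first
          | linear_combination -hdet
          | ring
    rw [← map_one (Ideal.Quotient.mk (maximalIdeal R ^ n)).mapMatrix, ← map_sub, ← map_pow,
      pow_mul, e, _root_.smul_pow, RingHom.mapMatrix_apply]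
    ext i j
    rw [Matrix.map_apply, Matrix.smul_apply, smul_eq_mul, Matrix.zero_apply,
      Ideal.Quotient.eq_zero_iff_mem]
    exact Ideal.mul_mem_right _ _ (Ideal.pow_mem_pow (htr σ hσ) n)

omit [IsDomain R] [CharZero R] [IsDiscreteValuationRing R] in
theorem eq_of_forall_mk_eq [IsDomain R] [IsDiscreteValuationRing R] {X Y : Matrix (Fin 2) (Fin 2) R}
    (h : ∀ n : ℕ, (Ideal.Quotient.mk (maximalIdeal R ^ n)).mapMatrix X =
      (Ideal.Quotient.mk (maximalIdeal R ^ n)).mapMatrix Y) : X = Y := by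
  ext i j
  refine sub_eq_zero.mp ?_
  have hmem : X i j - Y i j ∈ ⨅ n : ℕ, maximalIdeal R ^ n := Submodule.mem_iInf _ |>.mpr fun n =>
    (Ideal.Quotient.mk_eq_mk_iff_sub_mem _ _).mp (congrFun (congrFun (h n) i) j)
  rwa [Ideal.iInf_pow_eq_bot_of_isLocalRing _ (maximalIdeal.isMaximal R).ne_top,
    Ideal.mem_bot] at hmem

include hA hq hp hpq hpR hcont hdet htr in
omit [CharZero R] in
theorem eq_one_of_tameTrivial' {ν : GQ} (hν : ν ∈ A.inertiaSubgroupIn ℚ)
    (htriv : TameTrivial A ν) : ρ ν = 1 := by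
  refine eq_of_forall_mk_eq fun n => ?_
  obtain ⟨k, hk⟩ := exists_pow_eq_one_mod hp hpR ρ hdet htr hν n
  obtain ⟨L, hL, hL'⟩ := hcont n
  rw [map_one]
  refine Assembly.eq_one_of_tameTrivial ((Ideal.Quotient.mk _).mapMatrix.toMonoidHom.comp ρ)
    ⟨L, hL, fun σ hσ => ?_⟩ hA hq hν htriv (n := p ^ k) (fun h => ?_) hk
  · exact (mapMatrix_mk_eq_one_iff _ _).mpr (hL' σ hσ)
  · have := (Nat.prime_dvd_prime_iff_eq hq hp).mp (hq.dvd_of_dvd_pow h)
    subst this
    have := hq.two_le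
    have := Nat.le_of_dvd (by omega) hpq
    omega

include hA hq hp hpq hpR hcont hdet htr in
omit [CharZero R] in
theorem commute_inertia {σ τ : GQ} (hσ : σ ∈ A.inertiaSubgroupIn ℚ)
    (hτ : τ ∈ A.inertiaSubgroupIn ℚ) : Commute (ρ σ) (ρ τ) := by
  have h := eq_one_of_tameTrivial' hA hq hp hpq hpR ρ hcont hdet htr
    (mul_mem (mul_mem (mul_mem hσ hτ) (inv_mem hσ)) (inv_mem hτ))
    (fun z hz => EC.Rep.res_commutator_apply_div_self hσ hτ hz)
  show ρ σ * ρ τ = ρ τ * ρ σ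
  rw [← map_mul, ← map_mul, show σ * τ = σ * τ * σ⁻¹ * τ⁻¹ * (τ * σ) by group, map_mul, h, one_mul]

include hA hq hp hpq hpR hcont hdet htr in
omit [CharZero R] in
theorem rho_conj_frobenius {φ σ : GQ} (hφ : A.IsFrobeniusAt φ q)
    (hσ : σ ∈ A.inertiaSubgroupIn ℚ) : ρ (φ * σ * φ⁻¹) = ρ σ ^ q := by
  obtain ⟨h1, h2⟩ := tameTrivial_frobenius_conj hφ hσ
  have h := eq_one_of_tameTrivial' hA hq hp hpq hpR ρ hcont hdet htr h1 h2
  conv_lhs => rw [show φ * σ * φ⁻¹ = φ * σ * φ⁻¹ * (σ ^ q)⁻¹ * σ ^ q by group]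
  rw [map_mul, h, one_mul, map_pow]

include hinj hA hq hp hp4 hpq hpR hcont hdet htr in
/-- The eigenvector, and the eigenvalues of `p`-power order factoring through `μ_q`. -/
theorem exists_inertia_eigen [IsAlgClosed K] :
    ∃ (v : Fin 2 → K) (θ : (ZMod q)ˣ →* K), v ≠ 0 ∧
      ∀ σ ∈ A.inertiaSubgroupIn ℚ, ∀ a : (ZMod q)ˣ,
        (∀ μ : QBar, μ ^ q = 1 → σ μ = μ ^ (a : ZMod q).val) →
          ((ρ σ).map (algebraMap R K)).mulVec v = θ a • v := by
  have : Fact q.Prime := ⟨hq⟩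
  have : Fact p.Prime := ⟨hp⟩
  obtain ⟨ϖ, hirr⟩ := IsDiscreteValuationRing.exists_irreducible R
  have hm : maximalIdeal R = Ideal.span {ϖ} := hirr.maximalIdeal_eq
  have hϖ : ϖ ∈ maximalIdeal R := hm ▸ Ideal.mem_span_singleton_self ϖ
  have hmem : ∀ {n : ℕ} {a : R}, a ∈ maximalIdeal R ^ n → ϖ ^ n ∣ a := fun {n a} h =>
    Ideal.mem_span_singleton.mp (by rwa [← Ideal.span_singleton_pow, ← hm])
  let ρK : GQ →* Matrix (Fin 2) (Fin 2) K := ((algebraMap R K).mapMatrix).toMonoidHom.comp ρ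
  obtain ⟨v, hv, hev⟩ := exists_common_eigenvector (ρK '' (A.inertiaSubgroupIn ℚ : Set GQ)) (by
    rintro _ ⟨σ, hσ, rfl⟩ _ ⟨τ, hτ, rfl⟩
    exact (commute_inertia hA hq hp hpq hpR ρ hcont hdet htr hσ hτ).map
      ((algebraMap R K).mapMatrix : Matrix (Fin 2) (Fin 2) R →+* _))
  choose! e he using fun σ (hσ : σ ∈ A.inertiaSubgroupIn ℚ) => hev _ ⟨σ, hσ, rfl⟩
  replace he : ∀ σ ∈ A.inertiaSubgroupIn ℚ, (ρK σ).mulVec v = e σ • v := he
  have heq : ∀ {σ : GQ} {c : K}, σ ∈ A.inertiaSubgroupIn ℚ → (ρK σ).mulVec v = c • v → e σ = c :=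
    fun {σ c} hσ h => smul_left_injective K hv ((he σ hσ).symm.trans h)
  have hemul : ∀ σ ∈ A.inertiaSubgroupIn ℚ, ∀ τ ∈ A.inertiaSubgroupIn ℚ,
      e (σ * τ) = e σ * e τ := fun σ hσ τ hτ => heq (mul_mem hσ hτ) (by
    rw [map_mul, ← Matrix.mulVec_mulVec, he τ hτ, Matrix.mulVec_smul, he σ hσ, smul_smul, mul_comm])
  have he1 : e 1 = 1 := heq (one_mem _) (by rw [map_one, Matrix.one_mulVec, one_smul])
  have hepow : ∀ σ ∈ A.inertiaSubgroupIn ℚ, ∀ j : ℕ, e (σ ^ j) = e σ ^ j := by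
    intro σ hσ j
    induction j with
    | zero => rw [pow_zero, pow_zero, he1]
    | succ j ih => rw [pow_succ, pow_succ, hemul _ (pow_mem hσ j) _ hσ, ih]
  have hint : ∀ σ ∈ A.inertiaSubgroupIn ℚ, IsIntegral R (e σ) := fun σ hσ =>
    isIntegral_of_mulVec (ρ σ) hv (he σ hσ)
  have hdiv : ∀ σ ∈ A.inertiaSubgroupIn ℚ, ∀ n : ℕ, ∃ k : ℕ,
      DivPow ϖ n (e σ ^ p ^ k - 1) := fun σ hσ n => by
    obtain ⟨k, hk⟩ := exists_pow_eq_one_mod hp hpR ρ hdet htr hσ n
    refine ⟨k, divPow_of_mulVec hinj hirr.ne_zero (ρ (σ ^ p ^ k)) (fun i j => hmem ?_) hv ?_⟩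
    · rw [← map_pow, ← map_pow] at hk
      exact (mapMatrix_mk_eq_one_iff _ _).mp hk i j
    · rw [← hepow σ hσ]
      exact he _ (pow_mem hσ _)
  -- the eigenvalues have order dividing the `p`-part of `q - 1`
  obtain ⟨φ, hφ⟩ := exists_isFrobeniusAt hA hq
  have hroot : ∀ (X : Matrix (Fin 2) (Fin 2) K) (c : K), X.mulVec v = c • v →
      c ^ 2 - X.trace * c + X.det = 0 := fun X c h => by
    have h0 : (X - c • 1).det = 0 := Matrix.exists_mulVec_eq_zero_iff.mp ⟨v, hv, by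
      rw [Matrix.sub_mulVec, h, Matrix.smul_mulVec, Matrix.one_mulVec, sub_self]⟩
    rw [Matrix.det_fin_two] at h0
    simp at h0
    rw [Matrix.trace_fin_two, Matrix.det_fin_two]
    linear_combination h0
  have hdetK : ∀ σ ∈ A.inertiaSubgroupIn ℚ, (ρK σ).det = 1 := fun σ hσ => by
    rw [← map_one (algebraMap R K), ← hdet σ hσ, RingHom.map_det]
    rfl
  obtain ⟨a, u, hu, hqau⟩ := Nat.exists_eq_pow_mul_and_not_dvd
    (show q - 1 ≠ 0 by have := hq.two_le; omega) p hp.ne_one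
  have horder : ∀ σ ∈ A.inertiaSubgroupIn ℚ, e σ ^ p ^ a = 1 := by
    intro σ hσ
    set c := e σ
    have h1 := hroot _ _ (he σ hσ)
    have hconj : φ * σ * φ⁻¹ ∈ A.inertiaSubgroupIn ℚ := by
      simpa using mul_mem (tameTrivial_frobenius_conj hφ hσ).1 (pow_mem hσ q)
    have h2 := hroot (ρK (φ * σ * φ⁻¹)) (c ^ q) (by
      show ((ρ (φ * σ * φ⁻¹)).map (algebraMap R K)).mulVec v = _
      rw [rho_conj_frobenius hA hq hp hpq hpR ρ hcont hdet htr hφ hσ, ← map_pow ρ,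
        ← hepow σ hσ]
      exact he _ (pow_mem hσ q))
    rw [hdetK σ hσ] at h1
    rw [hdetK _ hconj, map_mul, map_mul, Matrix.trace_mul_comm, ← mul_assoc, ← map_mul,
      inv_mul_cancel, map_one, one_mul] at h2
    have hc0 : c ≠ 0 := fun h => by simp [show e σ = 0 from h] at h1
    have h3 : (c ^ q - c) * (c ^ q * c - 1) = 0 := by linear_combination c * h2 - c ^ q * h1
    have hq1 : q - 1 + 1 = q := Nat.sub_add_cancel hq.one_le
    have hqm : c ^ (q - 1) = 1 := by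
      rcases mul_eq_zero.mp h3 with h | h
      · refine mul_right_cancel₀ hc0 ?_
        rw [← pow_succ, hq1, one_mul]
        exact sub_eq_zero.mp h
      · -- `(q + 1) / 2` is prime to `p`, so `c ^ 2 = 1`, and `q - 1` is even
        obtain ⟨k, hk⟩ : 2 ∣ q - 1 := by
          rcases hq.eq_two_or_odd with h2 | h2
          · subst h2; exact absurd (Nat.le_of_dvd one_pos hpq) (by have := hp.two_le; omega)
          · omega
        have hr : (c ^ 2) ^ (k + 1) = 1 := by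
          rw [← pow_mul, show 2 * (k + 1) = q + 1 by omega, pow_succ]
          exact sub_eq_zero.mp h
        have hnd : ¬ p ∣ k + 1 := fun hd => by
          rcases eq_or_ne p 2 with rfl | hp2
          · obtain ⟨t, ht⟩ := hp4 rfl
            omega
          · have h1 : p ∣ 2 * (k + 1) := hd.mul_left 2
            have h3 := Nat.dvd_sub h1 hpq
            rw [show 2 * (k + 1) - (q - 1) = 2 by omega] at h3
            exact hp2 ((Nat.prime_dvd_prime_iff_eq hp Nat.prime_two).mp h3)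
        have : c ^ 2 - 1 = 0 :=
          eq_zero_of_forall_divPow hinj hϖ (((hint σ hσ).pow 2).sub isIntegral_one) fun n => by
            obtain ⟨j, hj⟩ := hdiv σ hσ n
            refine DivPow.of_coprime ((hint σ hσ).pow 2) hr
              (Nat.Coprime.pow_left j ((Nat.Prime.coprime_iff_not_dvd hp).mpr hnd)) ?_
            rw [pow_right_comm]
            exact hj.pow_sub_one ((hint σ hσ).pow _) 2
        rw [show q - 1 = 2 * k from hk, pow_mul, sub_eq_zero.mp this, one_pow]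
    refine sub_eq_zero.mp (eq_zero_of_forall_divPow hinj hϖ (((hint σ hσ).pow _).sub isIntegral_one)
      fun n => ?_)
    obtain ⟨k, hk⟩ := hdiv σ hσ n
    refine DivPow.of_coprime ((hint σ hσ).pow _) (r := u) (by rw [← pow_mul, ← hqau, hqm])
      (Nat.Coprime.pow_left k ((Nat.Prime.coprime_iff_not_dvd hp).mpr hu)) ?_
    rw [pow_right_comm]
    exact hk.pow_sub_one ((hint σ hσ).pow _) _
  -- finite level
  obtain ⟨n₀, hn₀⟩ := eq_one_of_divPow_sub_one (K := K) hinj hϖ hp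
    (Nat.cast_ne_zero.mpr hp.ne_zero) a
  obtain ⟨L, hL, hL'⟩ := hcont n₀
  have hefix : ∀ σ ∈ A.inertiaSubgroupIn ℚ, (∀ x ∈ L, σ x = x) → e σ = 1 := fun σ hσ hfix =>
    hn₀ _ (horder σ hσ) (divPow_of_mulVec hinj hirr.ne_zero (ρ σ)
      (fun i j => hmem (hL' σ hfix i j)) hv (he σ hσ))
  -- factor through the action on `μ_q`
  obtain ⟨σ₀, a₀, π, m, hσ₀, hμ₀, ha₀, hπ, hπord, hπσ, hπσp⟩ :=
    exists_inertia_uniformiser hp hA hq hpq
  have hgen : ∀ x : (ZMod q)ˣ, x ∈ Subgroup.zpowers a₀ := fun x => by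
    have : Subgroup.zpowers a₀ = ⊤ := Subgroup.eq_top_of_card_eq _ (by
      rw [Nat.card_zpowers, ha₀, Nat.card_eq_fintype_card, ZMod.card_units])
    exact this ▸ Subgroup.mem_top x
  have he0 : e σ₀ ^ (q - 1) = 1 := by rw [hqau, pow_mul, horder σ₀ hσ₀, one_pow]
  let c₀ : Kˣ := (IsUnit.of_pow_eq_one he0 (by have := hq.two_le; omega)).unit
  have hc₀ : orderOf c₀ ∣ orderOf a₀ := by
    rw [ha₀]
    exact orderOf_dvd_of_pow_eq_one (Units.ext (by simp [c₀, he0]))
  let θ : (ZMod q)ˣ →* K := (Units.coeHom K).comp (monoidHomOfForallMemZpowers hgen hc₀)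
  have hθ₀ : θ a₀ = e σ₀ := by
    simp [θ, c₀, monoidHomOfForallMemZpowers_apply_gen]
  refine ⟨v, θ, hv, fun σ hσ b hb => (he σ hσ).trans (congrArg (· • v) ?_)⟩
  -- the quotient of `e` by `θ` kills inertia
  obtain ⟨ζ, hζ⟩ := HasEnoughRootsOfUnity.exists_primitiveRoot QBar q
  have hex : ∀ g : GQ, ∃ x : (ZMod q)ˣ, g ζ = ζ ^ (x : ZMod q).val := fun g => by
    obtain ⟨i, hi, h⟩ := hζ.eq_pow_of_pow_eq_one (show g ζ ^ q = 1 by
      rw [← map_pow, hζ.pow_eq_one, map_one])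
    have hi0 : i ≠ 0 := fun h0 => hζ.ne_one hq.one_lt (g.injective (by rw [← h, h0, pow_zero, map_one]))
    refine ⟨ZMod.unitOfCoprime i (((Nat.Prime.coprime_iff_not_dvd hq).mpr fun hd =>
      absurd (Nat.le_of_dvd (Nat.pos_of_ne_zero hi0) hd) (by omega)).symm), ?_⟩
    rw [ZMod.coe_unitOfCoprime, ZMod.val_natCast, Nat.mod_eq_of_lt hi, h]
  choose aOf haOf using hex
  have huniq : ∀ g : GQ, ∀ x : (ZMod q)ˣ, g ζ = ζ ^ (x : ZMod q).val → aOf g = x := fun g x h =>
    Units.ext (ZMod.val_injective q (hζ.pow_inj (ZMod.val_lt _) (ZMod.val_lt _)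
      ((haOf g).symm.trans h)))
  have hamul : ∀ g h : GQ, aOf (g * h) = aOf g * aOf h := fun g h => huniq _ _ (by
    rw [AlgEquiv.mul_apply, haOf h, map_pow, haOf g, ← pow_mul, Units.val_mul, ZMod.val_mul,
      pow_eq_pow_mod _ hζ.pow_eq_one])
  rw [← huniq σ b (hb ζ hζ.pow_eq_one)]
  by_contra hne
  let d : GQ → K := fun g => e g * θ (aOf g)⁻¹
  have hθinv : ∀ x, θ x * θ x⁻¹ = 1 := fun x => by rw [← map_mul, mul_inv_cancel, map_one]
  have hθa : ∀ x, θ x ^ p ^ a = 1 := fun x => by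
    obtain ⟨j, rfl⟩ := Subgroup.mem_zpowers_iff.mp (hgen x)
    have : monoidHomOfForallMemZpowers hgen hc₀ a₀ ^ p ^ a = 1 := Units.ext (by
      rw [Units.val_pow_eq_pow_val, Units.val_one, monoidHomOfForallMemZpowers_apply_gen]
      exact horder σ₀ hσ₀)
    show ((monoidHomOfForallMemZpowers hgen hc₀ (a₀ ^ j) : Kˣ) : K) ^ p ^ a = 1
    rw [← Units.val_pow_eq_pow_val, map_zpow, ← zpow_natCast, ← zpow_mul, mul_comm, zpow_mul,
      zpow_natCast, this, one_zpow, Units.val_one]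
  have hdmul : ∀ g ∈ A.inertiaSubgroupIn ℚ, ∀ h ∈ A.inertiaSubgroupIn ℚ, d (g * h) = d g * d h :=
    fun g hg h hh => by
      simp only [d, hamul, hemul g hg h hh, mul_inv_rev, map_mul]
      ring
  have hdp : ∀ g ∈ A.inertiaSubgroupIn ℚ, d g ^ p ^ a = 1 := fun g hg => by
    simp only [d, mul_pow, horder g hg, hθa, mul_one]
  have hd0 : d σ₀ = 1 := by
    simp only [d, huniq σ₀ a₀ (hμ₀ ζ hζ.pow_eq_one)]
    rw [← hθ₀, hθinv]
  have hdσ : d σ ≠ 1 := fun h => hne (by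
    have := congrArg (· * θ (aOf σ)) h
    simp only [d, mul_assoc, one_mul] at this
    rwa [← map_mul θ, inv_mul_cancel, map_one, mul_one] at this)
  -- descend to exponent `p`
  have hex2 : ∃ i, (∀ g ∈ A.inertiaSubgroupIn ℚ, d g ^ p ^ (i + 1) = 1) ∧
      ∃ g ∈ A.inertiaSubgroupIn ℚ, d g ^ p ^ i ≠ 1 := by
    by_contra hno
    push Not at hno
    have : ∀ k, k ≤ a → ∀ g ∈ A.inertiaSubgroupIn ℚ, d g ^ p ^ (a - k) = 1 := fun k => by
      induction k with
      | zero => exact fun _ g hg => hdp g hg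
      | succ k ih =>
        intro hk g hg
        refine hno (a - (k + 1)) (fun g' hg' => ?_) g hg
        rw [show a - (k + 1) + 1 = a - k by omega]
        exact ih (by omega) g' hg'
    exact hdσ (by simpa using this a le_rfl σ hσ)
  obtain ⟨i, hi1, g₁, hg₁, hg₁'⟩ := hex2
  have hω : IsPrimitiveRoot (d g₁ ^ p ^ i) p := by
    refine (IsPrimitiveRoot.iff_def _ _).mpr ⟨by rw [← pow_mul, ← pow_succ, hi1 g₁ hg₁], fun l hl => ?_⟩
    by_contra hpl
    exact hg₁' (by
      have h1 : (d g₁ ^ p ^ i) ^ Nat.gcd p l = 1 := pow_gcd_eq_one.mpr ⟨by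
        rw [← pow_mul, ← pow_succ, hi1 g₁ hg₁], hl⟩
      rwa [(Nat.Prime.coprime_iff_not_dvd hp).mpr hpl, pow_one] at h1)
  have : NeZero p := ⟨hp.ne_zero⟩
  classical
  let f : GQ → ZMod p := fun g => if h : g ∈ A.inertiaSubgroupIn ℚ then
    ((hω.eq_pow_of_pow_eq_one (show (d g ^ p ^ i) ^ p = 1 by
      rw [← pow_mul, ← pow_succ, hi1 g h])).choose : ZMod p) else 0
  have hf : ∀ g ∈ A.inertiaSubgroupIn ℚ, (d g₁ ^ p ^ i) ^ (f g).val = d g ^ p ^ i := fun g hg => by
    simp only [f, dif_pos hg, ZMod.val_natCast]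
    obtain ⟨hlt, h⟩ := (hω.eq_pow_of_pow_eq_one (show (d g ^ p ^ i) ^ p = 1 by
      rw [← pow_mul, ← pow_succ, hi1 g hg])).choose_spec
    rw [Nat.mod_eq_of_lt hlt]
    exact h
  have hfeq : ∀ g ∈ A.inertiaSubgroupIn ℚ, ∀ x : ZMod p,
      (d g₁ ^ p ^ i) ^ x.val = d g ^ p ^ i → f g = x := fun g hg x hx =>
    ZMod.val_injective p (hω.pow_inj (ZMod.val_lt _) (ZMod.val_lt _) ((hf g hg).trans hx.symm))
  have := eq_zero_of_apply_eq_zero hp hA hq (fun h => by
      subst h; have := hq.two_le; have := Nat.le_of_dvd (by omega) hpq; omega) f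
    (fun g hg h hh => hfeq _ (mul_mem hg hh) _ (by
      rw [ZMod.val_add, ← pow_eq_pow_mod _ hω.pow_eq_one, pow_add, hf g hg, hf h hh, hdmul g hg h hh]
      exact (mul_pow _ _ _).symm))
    ⟨L ⊔ IntermediateField.adjoin ℚ {ζ}, by
      have := IntermediateField.adjoin.finiteDimensional (K := ℚ) (x := ζ)
        (hζ.isIntegral hq.pos).tower_top
      infer_instance, fun g hg => by
      by_cases hgI : g ∈ A.inertiaSubgroupIn ℚ
      · refine hfeq g hgI 0 ?_
        have h1 : e g = 1 := hefix g hgI fun x hx => hg x (le_sup_left (a := L) hx)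
        have h2 : aOf g = 1 := huniq g 1 (by
          rw [hg ζ (le_sup_right (b := IntermediateField.adjoin ℚ {ζ})
            (IntermediateField.mem_adjoin_simple_self ℚ ζ)), Units.val_one, ZMod.val_one, pow_one])
        simp [d, h1, h2]
      · simp [f, hgI]⟩
    hσ₀ hπ hπord hπσ hπσp (hfeq σ₀ hσ₀ 0 (by simp [hd0])) g₁ hg₁
  have h := hf g₁ hg₁
  rw [this, ZMod.val_zero, pow_zero] at h
  exact hg₁' h.symm

end Fermat.Agent.RT.InertiaTW
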