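import Fermat.Agent.GaloisReps.Lattice
import Fermat.Agent.GaloisReps.Attach
import Fermat.Agent.RT.InertiaTW.Quadratic
import Fermat.Agent.Arith.Frobenius
import Mathlib.LinearAlgebra.Matrix.Charpoly.Coeff
import Mathlib.RingTheory.Localization.Integer

/-!
# The isotypic part of the model at a system of eigenvalues

On the vectors of the model on which the good Hecke operators act through the traces of a plane
representation `ρ`, every Galois element is killed by the characteristic polynomial of its image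
under `ρ`. If the image of `ρ` spans the matrices, the Galois action on this space therefore
extends to an action of the matrices, and a linear map killing all translates of a line is zero.
-/

set_option autoImplicit false

noncomputable section

open Matrix
open scoped Pointwise

namespace Fermat.Agent.RT.InertiaTW

open GaloisReps (AbsGal HeckeGaloisModel matIn)

variable {N p : ℕ} [NeZero N] [Fact p.Prime] (D : HeckeGaloisModel N p) (S : Finset ℕ)

/-- The vectors on which `T_ℓ` is `a ℓ` for all primes `ℓ ∉ S`. -/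
def isoSpace (R : Type*) [CommRing R] (a : ℕ → R) : Submodule R (Fin D.d → R) where
  carrier := {v | ∀ (ℓ : ℕ) (hℓ : ℓ.Prime), ℓ ∉ S →
    (matIn D.hecke R (HeckeDuality.heckeOp N 2 ℓ hℓ)).mulVec v = a ℓ • v}
  add_mem' hv hw ℓ hℓ hS := by rw [Matrix.mulVec_add, hv ℓ hℓ hS, hw ℓ hℓ hS, smul_add]
  zero_mem' ℓ hℓ hS := by rw [Matrix.mulVec_zero, smul_zero]
  smul_mem' c v hv ℓ hℓ hS := by rw [Matrix.mulVec_smul, hv ℓ hℓ hS, smul_comm]

theorem mem_isoSpace {R : Type*} [CommRing R] {a : ℕ → R} {v : Fin D.d → R} :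
    v ∈ isoSpace D S R a ↔ ∀ (ℓ : ℕ) (hℓ : ℓ.Prime), ℓ ∉ S →
      (matIn D.hecke R (HeckeDuality.heckeOp N 2 ℓ hℓ)).mulVec v = a ℓ • v := Iff.rfl

theorem galIn_mem_isoSpace {R : Type} [CommRing R] (ι : ℤ_[p] →+* R) {a : ℕ → R} (σ : AbsGal)
    {v : Fin D.d → R} (hv : v ∈ isoSpace D S R a) :
    (D.galIn ι σ).mulVec v ∈ isoSpace D S R a := by
  intro ℓ hℓ hS
  have h := congrArg (fun M : Matrix (Fin D.d) (Fin D.d) ℤ_[p] => M.map ι)
    (D.gal_comm σ (HeckeDuality.heckeOp N 2 ℓ hℓ))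
  simp only [Matrix.map_mul, D.matIn_map] at h
  rw [Matrix.mulVec_mulVec, HeckeGaloisModel.galIn_apply, ← h, ← Matrix.mulVec_mulVec, hv ℓ hℓ hS,
    Matrix.mulVec_smul]

section Integral

variable {B : Type} [CommRing B] (ι : ℤ_[p] →+* B) (ρ : AbsGal →* Matrix (Fin 2) (Fin 2) B)
  (a : ℕ → B)

/-- Two linear recursions with the same characteristic polynomial. -/
theorem pow_eq_combination {d : ℕ} {G : Matrix (Fin d) (Fin d) B} {v : Fin d → B} {t l : B}
    (hG : G *ᵥ (G *ᵥ v) = t • (G *ᵥ v) - l • v) {M : Matrix (Fin 2) (Fin 2) B}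
    (hM : M * M = t • M - l • (1 : Matrix (Fin 2) (Fin 2) B)) (i : ℕ) :
    ∃ c e : B, M ^ i = c • M + e • (1 : Matrix (Fin 2) (Fin 2) B) ∧
      G ^ i *ᵥ v = c • (G *ᵥ v) + e • v := by
  induction i with
  | zero => exact ⟨0, 1, by simp, by simp⟩
  | succ i ih =>
    obtain ⟨c, e, h1, h2⟩ := ih
    refine ⟨c * t + e, -(c * l), ?_, ?_⟩
    · rw [pow_succ', h1, mul_add, mul_smul_comm, mul_smul_comm, hM, mul_one]
      module
    · rw [pow_succ', ← Matrix.mulVec_mulVec, h2, Matrix.mulVec_add, Matrix.mulVec_smul,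
        Matrix.mulVec_smul, hG]
      module

/-- Powers inherit the quadratic relation. -/
theorem pow_quadratic_apply {d : ℕ} {G : Matrix (Fin d) (Fin d) B} {v : Fin d → B}
    {M : Matrix (Fin 2) (Fin 2) B}
    (hG : G *ᵥ (G *ᵥ v) - M.trace • (G *ᵥ v) + M.det • v = 0) (i : ℕ) :
    G ^ i *ᵥ (G ^ i *ᵥ v) - (M ^ i).trace • (G ^ i *ᵥ v) + (M ^ i).det • v = 0 := by
  have hG' : G *ᵥ (G *ᵥ v) = M.trace • (G *ᵥ v) - M.det • v := by
    rw [sub_add_eq_add_sub, sub_eq_zero] at hG
    exact eq_sub_of_add_eq hG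
  have hM : M * M = M.trace • M - M.det • (1 : Matrix (Fin 2) (Fin 2) B) := by
    ext i j
    fin_cases i <;> fin_cases j <;>
      simp [Matrix.mul_apply, Fin.sum_univ_two, Matrix.trace_fin_two, Matrix.det_fin_two] <;> ring
  obtain ⟨c, e, h1, h2⟩ := pow_eq_combination hG' hM i
  have htr : (M ^ i).trace = c * M.trace + e * 2 := by
    rw [h1]; simp [Matrix.trace_fin_two]
  have hdet : (M ^ i).det = c ^ 2 * M.det + c * e * M.trace + e ^ 2 := by
    rw [h1]; simp [Matrix.trace_fin_two, Matrix.det_fin_two]; ring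
  have h3 : G *ᵥ (G ^ i *ᵥ v) = G ^ i *ᵥ (G *ᵥ v) := by
    rw [Matrix.mulVec_mulVec, Matrix.mulVec_mulVec, (Commute.self_pow G i).eq]
  conv_lhs => rw [h2, Matrix.mulVec_add, Matrix.mulVec_smul, Matrix.mulVec_smul, ← h3, h2,
    Matrix.mulVec_add, Matrix.mulVec_smul, Matrix.mulVec_smul, hG', htr, hdet]
  module

variable (hsep : ∀ x : B, (∀ n : ℕ, (p : B) ^ n ∣ x) → x = 0)
  (hρ : ∀ n : ℕ, ∃ L : IntermediateField ℚ (AlgebraicClosure ℚ), FiniteDimensional ℚ L ∧
    ∀ σ : AbsGal, (∀ x ∈ L, σ x = x) → ∀ i j, (p : B) ^ n ∣ (ρ σ - 1) i j)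
  (hfrob : ∀ ℓ : ℕ, ℓ.Prime → ℓ ∉ S → ∀ A : ValuationSubring (AlgebraicClosure ℚ),
    A.LiesOverPrime ℓ → ∀ σ : AbsGal, A.IsFrobeniusAt σ ℓ →
      (ρ σ).trace = a ℓ ∧ (ρ σ).det = (ℓ : B))

include hfrob in
/-- The relation at a Frobenius element. -/
theorem galIn_quadratic_frobenius {ℓ : ℕ} (hℓ : ℓ.Prime) (hℓS : ℓ ∉ S) (hℓN : ¬ ℓ ∣ N * p)
    {A : ValuationSubring (AlgebraicClosure ℚ)} (hA : A.LiesOverPrime ℓ) {σ : AbsGal}
    (hσ : A.IsFrobeniusAt σ ℓ) {v : Fin D.d → B} (hv : v ∈ isoSpace D S B a) :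
    D.galIn ι σ *ᵥ (D.galIn ι σ *ᵥ v) - (ρ σ).trace • (D.galIn ι σ *ᵥ v) + (ρ σ).det • v
      = 0 := by
  obtain ⟨htr, hdet⟩ := hfrob ℓ hℓ hℓS A hA σ hσ
  have h := congrArg (fun M : Matrix (Fin D.d) (Fin D.d) ℤ_[p] => (M.map ι).mulVec v)
    (D.gal_frobenius ℓ hℓ hℓN A hA σ hσ)
  simp only [Matrix.map_add ι (map_add ι), Matrix.map_sub ι (map_sub ι), Matrix.map_mul,
    D.matIn_map, Matrix.map_zero ι (map_zero ι), Matrix.zero_mulVec] at h
  rw [Matrix.add_mulVec, Matrix.sub_mulVec, ← Matrix.mulVec_mulVec, ← Matrix.mulVec_mulVec] at h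
  have hv' := galIn_mem_isoSpace D S ι σ hv ℓ hℓ hℓS
  rw [HeckeGaloisModel.galIn_apply] at hv' ⊢
  rw [hv'] at h
  have e : (((ℓ : ℤ_[p]) • (1 : Matrix (Fin D.d) (Fin D.d) ℤ_[p])).map ι).mulVec v =
      (ℓ : B) • v := by
    rw [← Matrix.one_mulVec v, ← Matrix.smul_mulVec, Matrix.one_mulVec]
    congr 1
    ext i j
    by_cases hij : i = j <;> simp [hij]
  rw [e] at h
  rw [htr, hdet]
  exact h

include hsep hρ hfrob in
/-- Galois elements satisfy the characteristic polynomials of `ρ` on the isotypic vectors. -/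
theorem galIn_quadratic {v : Fin D.d → B} (hv : v ∈ isoSpace D S B a) (g : AbsGal) :
    D.galIn ι g *ᵥ (D.galIn ι g *ᵥ v) - (ρ g).trace • (D.galIn ι g *ᵥ v) + (ρ g).det • v
      = 0 := by
  funext j
  refine hsep _ fun n => ?_
  obtain ⟨L₁, hL₁, hL₁'⟩ := D.gal_continuous n
  obtain ⟨L₂, hL₂, hL₂'⟩ := hρ n
  obtain ⟨ℓ, hℓ, hℓS, A, hA, σ, hσ, i, hgi⟩ := GaloisReps.frobeniusDensity (L₁ ⊔ L₂)
    inferInstance g (S ∪ (N * p).primeFactors)
  rw [Finset.mem_union, not_or] at hℓS
  have hℓN : ¬ ℓ ∣ N * p := fun h => hℓS.2 (Nat.mem_primeFactors.mpr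
    ⟨hℓ, h, mul_ne_zero (NeZero.ne N) (Fact.out : p.Prime).ne_zero⟩)
  have hh : ∀ x ∈ L₁ ⊔ L₂, (g⁻¹ * σ ^ i) x = x := GaloisReps.inv_mul_fixes hgi
  set π : B →+* B ⧸ Ideal.span {(p : B) ^ n} := Ideal.Quotient.mk _ with hπ
  have hgal : (D.galIn ι g).map π = (D.galIn ι σ ^ i).map π := by
    have hone : (D.galIn ι (g⁻¹ * σ ^ i)).map π = 1 := by
      obtain ⟨M, hM⟩ := D.exists_congr_one
        (hL₁' _ fun x hx => hh x (le_sup_left (b := L₂) hx))
      have hpn : π ((p : B) ^ n) = 0 :=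
        Ideal.Quotient.eq_zero_iff_mem.mpr (Ideal.mem_span_singleton_self _)
      rw [HeckeGaloisModel.galIn_apply, hM]
      ext r c
      rw [map_pow, map_natCast] at hpn
      rcases eq_or_ne r c with rfl | hrc
      · simp [hpn]
      · simp [Matrix.one_apply_ne hrc, hpn]
    rw [← map_pow (D.galIn ι), show σ ^ i = g * (g⁻¹ * σ ^ i) by group, map_mul (D.galIn ι),
      Matrix.map_mul, hone, mul_one]
  have hrho : (ρ g).map π = (ρ σ ^ i).map π := by
    have hone : (ρ (g⁻¹ * σ ^ i)).map π = 1 := by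
      ext r c
      have h := hL₂' _ (fun x hx => hh x (le_sup_right (a := L₁) hx)) r c
      rw [← Ideal.mem_span_singleton, ← Ideal.Quotient.eq_zero_iff_mem, Matrix.sub_apply,
        map_sub, sub_eq_zero] at h
      rw [Matrix.map_apply, hπ, h, Matrix.one_apply, Matrix.one_apply, apply_ite (Ideal.Quotient.mk _),
        map_one, map_zero]
    rw [← map_pow ρ, show σ ^ i = g * (g⁻¹ * σ ^ i) by group, map_mul ρ, Matrix.map_mul, hone,
      mul_one]
  have h := pow_quadratic_apply (galIn_quadratic_frobenius D S ι ρ a hfrob hℓ hℓS.1 hℓN hA hσ hv) i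
  have h' := congrArg π (congrFun h j)
  rw [← Ideal.mem_span_singleton, ← Ideal.Quotient.eq_zero_iff_mem, ← hπ]
  simp only [Pi.add_apply, Pi.sub_apply, Pi.smul_apply, Pi.zero_apply, smul_eq_mul, map_add,
    map_sub, map_mul, map_zero, RingHom.map_mulVec, RingHom.map_det, RingHom.mapMatrix_apply,
    AddMonoidHom.map_trace π, Function.comp_def] at h' ⊢
  rw [hgal, hrho]
  exact h'

end Integral

section Field

variable {B : Type} [CommRing B] [IsDomain B] {K : Type} [Field K] [Algebra B K]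
  (hinj : Function.Injective (algebraMap B K)) (ι : ℤ_[p] →+* B)
  (ρ : AbsGal →* Matrix (Fin 2) (Fin 2) B) (a : ℕ → B)

/-- The Galois action on the isotypic space over a field containing the coefficients. -/
def isoAction : AbsGal →* Module.End K (isoSpace D S K fun ℓ => algebraMap B K (a ℓ)) where
  toFun σ := (D.galIn ((algebraMap B K).comp ι) σ).mulVecLin.restrict fun _ hv =>
    galIn_mem_isoSpace D S _ σ hv
  map_one' := by
    ext v
    simp [LinearMap.restrict_apply]
  map_mul' σ τ := by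
    ext v
    show ((D.galIn _ (σ * τ)) *ᵥ (v : Fin D.d → K)) _ = (D.galIn _ σ *ᵥ (D.galIn _ τ *ᵥ (v : Fin D.d → K))) _
    rw [map_mul, Matrix.mulVec_mulVec]

omit [IsDomain B] in
theorem coe_isoAction (σ : AbsGal) (v : isoSpace D S K fun ℓ => algebraMap B K (a ℓ)) :
    (isoAction D S ι a σ v : Fin D.d → K) =
      D.galIn ((algebraMap B K).comp ι) σ *ᵥ (v : Fin D.d → K) := rfl

variable (hsep : ∀ x : B, (∀ n : ℕ, (p : B) ^ n ∣ x) → x = 0)
  (hρ : ∀ n : ℕ, ∃ L : IntermediateField ℚ (AlgebraicClosure ℚ), FiniteDimensional ℚ L ∧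
    ∀ σ : AbsGal, (∀ x ∈ L, σ x = x) → ∀ i j, (p : B) ^ n ∣ (ρ σ - 1) i j)
  (hfrob : ∀ ℓ : ℕ, ℓ.Prime → ℓ ∉ S → ∀ A : ValuationSubring (AlgebraicClosure ℚ),
    A.LiesOverPrime ℓ → ∀ σ : AbsGal, A.IsFrobeniusAt σ ℓ →
      (ρ σ).trace = a ℓ ∧ (ρ σ).det = (ℓ : B))

/-- The representation read in the field. -/
def fieldRep : AbsGal →* Matrix (Fin 2) (Fin 2) K :=
  (algebraMap B K).mapMatrix.toMonoidHom.comp ρ

omit [IsDomain B] in
theorem fieldRep_apply (σ : AbsGal) :
    (fieldRep (K := K) ρ σ) = (ρ σ).map (algebraMap B K) := rfl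

include hinj hsep hρ hfrob in
theorem isoAction_quadratic (g : AbsGal) :
    isoAction (K := K) D S ι a g * isoAction (K := K) D S ι a g
        - (fieldRep (K := K) ρ g).trace • isoAction (K := K) D S ι a g +
      (fieldRep (K := K) ρ g).det • (1 : Module.End K (isoSpace D S K fun ℓ => algebraMap B K (a ℓ)))
      = 0 := by
  classical
  set f := algebraMap B K with hf
  set F := FractionRing B
  let : Algebra F K := (IsFractionRing.lift hinj).toAlgebra
  have : IsScalarTower B F K := IsScalarTower.of_algebraMap_eq fun x =>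
    (IsFractionRing.lift_algebraMap hinj x).symm
  have hBF : Function.Injective (algebraMap B F) := IsFractionRing.injective B F
  have hφmul : ∀ (φ : K →ₗ[F] F) (b : B) (x : K), φ (f b * x) = algebraMap B F b * φ x := by
    intro φ b x
    rw [hf, IsScalarTower.algebraMap_apply B F K, ← Algebra.smul_def, map_smul, smul_eq_mul]
  have hφvec : ∀ (φ : K →ₗ[F] F) (M : Matrix (Fin D.d) (Fin D.d) B) (x : Fin D.d → K),
      (fun i => φ ((M.map f *ᵥ x) i)) = M.map (algebraMap B F) *ᵥ fun i => φ (x i) := by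
    intro φ M x
    funext i
    simp only [Matrix.mulVec, dotProduct, map_sum, Matrix.map_apply, hφmul]
  refine LinearMap.ext fun v => Subtype.ext ?_
  set G := D.galIn ι g
  have hgal : D.galIn (f.comp ι) g = G.map f := by
    ext i j; simp [G]
  simp only [LinearMap.add_apply, LinearMap.sub_apply, LinearMap.smul_apply, Module.End.mul_apply,
    Module.End.one_apply, LinearMap.zero_apply, Submodule.coe_add, AddSubgroupClass.coe_sub,
    SetLike.val_smul, ZeroMemClass.coe_zero, coe_isoAction, ← hf, hgal, fieldRep_apply]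
  rw [show ((ρ g).map f).trace = f (ρ g).trace from (AddMonoidHom.map_trace f.toAddMonoidHom _).symm,
    show ((ρ g).map f).det = f (ρ g).det from (RingHom.map_det f _).symm]
  funext i
  set b := Module.Free.chooseBasis F K
  refine b.repr.injective (Finsupp.ext fun k => ?_)
  set φ : K →ₗ[F] F := (Finsupp.lapply k).comp b.repr.toLinearMap
  show φ _ = φ _
  rw [Pi.zero_apply, map_zero]
  -- the coordinate is an isotypic vector over the fraction field; clear denominators
  obtain ⟨s, hs⟩ := IsLocalization.exist_integer_multiples (nonZeroDivisors B) Finset.univ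
    fun j => φ ((v : Fin D.d → K) j)
  choose w hw using fun j => hs j (Finset.mem_univ j)
  have hw' : (fun j => algebraMap B F (w j)) =
      algebraMap B F (s : B) • fun j => φ ((v : Fin D.d → K) j) := funext fun j => by
    rw [show algebraMap B F (w j) = (s : B) • φ ((v : Fin D.d → K) j) from hw j, Algebra.smul_def]
    rfl
  have hwmem : w ∈ isoSpace D S B a := by
    intro ℓ hℓ hℓS
    funext r
    refine hBF ?_
    have e := congrArg (fun x : Fin D.d → K => fun j => φ (x j)) (v.2 ℓ hℓ hℓS)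
    have hM : matIn D.hecke K (HeckeDuality.heckeOp N 2 ℓ hℓ) =
        (matIn D.hecke B (HeckeDuality.heckeOp N 2 ℓ hℓ)).map f := by
      ext; simp
    simp only [Pi.smul_apply, smul_eq_mul, ← hf, hφmul, hM, hφvec] at e
    rw [RingHom.map_mulVec, Function.comp_def, hw', Matrix.mulVec_smul, e]
    simp only [Pi.smul_apply, smul_eq_mul, map_mul, congrFun hw' r]
    ring
  have h := congrArg (algebraMap B F) (congrFun (galIn_quadratic D S ι ρ a hsep hρ hfrob hwmem g) i)
  simp only [Pi.add_apply, Pi.sub_apply, Pi.smul_apply, Pi.zero_apply, smul_eq_mul, map_add,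
    map_sub, map_mul, map_zero, RingHom.map_mulVec, Function.comp_def, hw', Matrix.mulVec_smul,
    congrFun hw' i] at h
  simp only [Pi.add_apply, Pi.sub_apply, Pi.smul_apply, smul_eq_mul, map_add, map_sub, hφmul]
  have e1 := congrFun (hφvec φ G (G.map f *ᵥ (v : Fin D.d → K))) i
  rw [hφvec] at e1
  rw [e1, congrFun (hφvec φ G (v : Fin D.d → K)) i]
  refine mul_left_cancel₀ ((map_ne_zero_iff _ hBF).mpr (nonZeroDivisors.coe_ne_zero s)) ?_
  have key : ∀ (c : F) (y : Fin D.d → F), G.map (algebraMap B F) *ᵥ (fun x => c * y x) =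
      c • (G.map (algebraMap B F) *ᵥ y) := fun c y => Matrix.mulVec_smul _ c y
  rw [key, Pi.smul_apply, smul_eq_mul] at h
  linear_combination h

omit [IsDomain B] in
/-- A spanning set of integral matrices spans over the field. -/
theorem span_map_eq_top {T : Set (Matrix (Fin 2) (Fin 2) B)} (h : Submodule.span B T = ⊤) :
    Submodule.span K ((fun X : Matrix (Fin 2) (Fin 2) B => X.map (algebraMap B K)) '' T) = ⊤ := by
  set W := Submodule.span K ((fun X : Matrix (Fin 2) (Fin 2) B => X.map (algebraMap B K)) '' T)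
  have hB : ∀ X : Matrix (Fin 2) (Fin 2) B, X.map (algebraMap B K) ∈ W := fun X => by
    have hX : X ∈ Submodule.span B T := h ▸ Submodule.mem_top
    induction hX using Submodule.span_induction with
    | mem X hX => exact Submodule.subset_span ⟨X, hX, rfl⟩
    | zero => rw [Matrix.map_zero _ (map_zero _)]; exact zero_mem _
    | add X Y _ _ hX hY => rw [Matrix.map_add _ (map_add _)]; exact add_mem hX hY
    | smul c X _ hX =>
      rw [show (c • X).map (algebraMap B K) = algebraMap B K c • X.map (algebraMap B K) by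
        ext; simp]
      exact W.smul_mem _ hX
  refine top_le_iff.mp fun X _ => ?_
  rw [Matrix.matrix_eq_sum_single X]
  refine Submodule.sum_mem _ fun i _ => Submodule.sum_mem _ fun j _ => ?_
  rw [show Matrix.single i j (X i j) = X i j • (Matrix.single i j (1 : B)).map (algebraMap B K) by
    ext r c
    rw [Matrix.smul_apply, Matrix.map_apply, smul_eq_mul, Matrix.single_apply, Matrix.single_apply]
    split_ifs <;> simp]
  exact W.smul_mem _ (hB _)

omit [IsDomain B] in
theorem span_fieldRep_eq_top (h : Submodule.span B (Set.range ρ) = ⊤) :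
    Submodule.span K (Set.range (fieldRep (K := K) ρ)) = ⊤ := by
  rw [← span_map_eq_top (K := K) h, ← Set.range_comp]
  rfl

set_option maxHeartbeats 800000 in
include hinj hsep hρ hfrob in
/-- The Galois action on the isotypic space extends to the matrices. -/
theorem exists_algHom_isoSpace [CharZero K]
    (hspan : Submodule.span K (Set.range (fieldRep (K := K) ρ)) = ⊤) :
    ∃ Φ : Matrix (Fin 2) (Fin 2) K →ₐ[K]
        Module.End K (isoSpace D S K fun ℓ => algebraMap B K (a ℓ)),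
      ∀ g, Φ (fieldRep ρ g) = isoAction D S ι a g :=
  @exists_algHom_of_quadratic K _ _ AbsGal _ (Module.End K (isoSpace D S K fun ℓ => algebraMap B K (a ℓ)))
    Module.End.instRing (Module.End.instAlgebra K K _) (fieldRep (K := K) ρ)
    (isoAction (K := K) D S ι a)
    (isoAction_quadratic D S hinj ι ρ a hsep hρ hfrob) hspan

end Field

/-- A linear map killing all translates of the matrices `u ⊗ e` is zero. -/
theorem eq_zero_of_translates {G : Type*} [Group G] {K : Type*} [Field K]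
    {ρ : G →* Matrix (Fin 2) (Fin 2) K} (hspan : Submodule.span K (Set.range ρ) = ⊤)
    {W X : Type*} [AddCommGroup W] [Module K W] [AddCommGroup X] [Module K X]
    (Φ : Matrix (Fin 2) (Fin 2) K →ₐ[K] Module.End K W) {r : G →* Module.End K W}
    (hΦ : ∀ g, Φ (ρ g) = r g) {u : Fin 2 → K} (hu : u ≠ 0) (T : W →ₗ[K] X)
    (h : ∀ (τ : G) (e : Fin 2 → K) (w : W), T (r τ (Φ (vecMulVec u e) w)) = 0) : T = 0 := by
  refine LinearMap.ext fun w => ?_
  rw [LinearMap.zero_apply]
  obtain ⟨k, hk⟩ := Function.ne_iff.mp hu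
  have hT : ∀ (M : Matrix (Fin 2) (Fin 2) K) (e : Fin 2 → K),
      T (Φ (M * vecMulVec u e) w) = 0 := by
    intro M e
    have hM : M ∈ Submodule.span K (Set.range ρ) := hspan ▸ Submodule.mem_top
    induction hM using Submodule.span_induction with
    | mem M hM =>
      obtain ⟨τ, rfl⟩ := hM
      rw [map_mul, hΦ]
      exact h τ e w
    | zero => rw [zero_mul, map_zero, LinearMap.zero_apply, map_zero]
    | add A A' _ _ hA hA' =>
      rw [add_mul, map_add, LinearMap.add_apply, map_add, hA, hA', add_zero]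
    | smul c A _ hA =>
      rw [smul_mul_assoc, map_smul, LinearMap.smul_apply, map_smul, hA, smul_zero]
  have hone : (1 : Matrix (Fin 2) (Fin 2) K) = ∑ j : Fin 2,
      vecMulVec (Pi.single j (1 : K)) (Pi.single k ((u k)⁻¹)) * vecMulVec u (Pi.single j 1) := by
    refine Eq.trans ?_ (Finset.sum_congr rfl fun j _ => (Matrix.vecMulVec_mul_vecMulVec _ _ _ _).symm)
    rw [single_dotProduct, inv_mul_cancel₀ hk]
    ext r c
    fin_cases r <;> fin_cases c <;> simp [Matrix.vecMulVec, Fin.sum_univ_two]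
  rw [show w = Φ 1 w by rw [map_one, Module.End.one_apply], hone, map_sum, LinearMap.sum_apply,
    map_sum]
  exact Finset.sum_eq_zero fun j _ => hT _ _

section Conjugate

open Fermat.Agent.Arith (mem_inertia_smul_iff liesOverPrime_smul_iff)

/-- The translate of an eigenvector of inertia at `A` is one at `τ • A`, with the same character. -/
theorem mulVec_eigen_smul {K : Type*} [Field K] {ρ : AbsGal →* Matrix (Fin 2) (Fin 2) K} {q : ℕ}
    {A : ValuationSubring (AlgebraicClosure ℚ)} {θ : (ZMod q)ˣ → K} {v : Fin 2 → K}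
    (hv : ∀ σ ∈ A.inertiaSubgroupIn ℚ, ∀ a : (ZMod q)ˣ,
      (∀ μ : AlgebraicClosure ℚ, μ ^ q = 1 → σ μ = μ ^ (a : ZMod q).val) → ρ σ *ᵥ v = θ a • v)
    (τ : AbsGal) :
    ∀ σ ∈ (τ • A).inertiaSubgroupIn ℚ, ∀ a : (ZMod q)ˣ,
      (∀ μ : AlgebraicClosure ℚ, μ ^ q = 1 → σ μ = μ ^ (a : ZMod q).val) →
        ρ σ *ᵥ (ρ τ *ᵥ v) = θ a • (ρ τ *ᵥ v) := by
  intro σ hσ a ha
  have hmem : τ⁻¹ * σ * τ ∈ A.inertiaSubgroupIn ℚ := by
    refine (mem_inertia_smul_iff (g := τ)).mp ?_
    rwa [show τ * (τ⁻¹ * σ * τ) * τ⁻¹ = σ by group]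
  have key := hv _ hmem a fun μ hμ => by
    have hτμ : (τ μ) ^ q = 1 := by rw [← map_pow, hμ, map_one]
    rw [AlgEquiv.mul_apply, AlgEquiv.mul_apply, ha _ hτμ, map_pow, ← AlgEquiv.mul_apply,
      inv_mul_cancel, AlgEquiv.one_apply]
  rw [Matrix.mulVec_mulVec, ← map_mul, show σ * τ = τ * (τ⁻¹ * σ * τ) by group, map_mul,
    ← Matrix.mulVec_mulVec, key, Matrix.mulVec_smul]

theorem liesOverPrime_translate {q : ℕ} {A : ValuationSubring (AlgebraicClosure ℚ)}
    (hA : A.LiesOverPrime q) (τ : AbsGal) : (τ • A).LiesOverPrime q :=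
  liesOverPrime_smul_iff.mpr hA

end Conjugate

end Fermat.Agent.RT.InertiaTW

end
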