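import Fermat.Agent.RT.InertiaTW.PeriodClass
import Fermat.Agent.RT.InertiaTW.AtkinHecke
import Fermat.Agent.RT.GammaH.Twist
import Fermat.Agent.RT.GammaH.NebHecke
import Fermat.Agent.HeckeDuality.Coeff
import Fermat.Agent.Periods.Injective

/-!
# A period homomorphism of level `q²R` with nonzero twisted trace

For a form `f` of level `q R` with nebentypus `χ⁻²`, the periods of the twist of `f` by `χ` form
a homomorphism on `Γ₀(q²R)` with the eigenvalues of the twist and with nonzero twisted trace.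
-/

set_option autoImplicit false

noncomputable section

open UpperHalfPlane hiding I
open CongruenceSubgroup
open ModularCurve ModularCurve.Period
open Fermat.Agent.Periods
open Fermat.Agent.RT.GammaH (IsNeb HasCoeff transl val_transl nebWeight seqOp)
open scoped MatrixGroups ModularForm

namespace Fermat.Agent.RT.InertiaTW

variable {q : ℕ}

theorem slash_transl_congr [NeZero q] {M L : ℕ} {ε : DirichletCharacter ℂ L} {f : ℍ → ℂ}
    (hf : IsNeb M ε f) {x y : ℤ} (hxy : (q : ℤ) ∣ y - x) :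
    f ∣[(2 : ℤ)] transl q y = f ∣[(2 : ℤ)] transl q x := by
  obtain ⟨k, hk⟩ := hxy
  have hT := ModularGroup.coe_T_zpow k
  have hg : f ∣[(2 : ℤ)] (ModularGroup.T ^ k) = f := by
    rw [hf.neb _ (Newforms.mem_gamma0_iff_dvd.2 (by simp [hT])), hT]
    simp
  have hmat : Matrix.SpecialLinearGroup.mapGL ℝ (ModularGroup.T ^ k) * transl q x = transl q y := by
    generalize ModularGroup.T ^ k = g at hT ⊢
    refine Units.ext ?_
    rw [Units.val_mul, val_transl, val_transl]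
    have hq : (q : ℝ) ≠ 0 := Nat.cast_ne_zero.2 (NeZero.ne q)
    have hy : (y : ℝ) = x + q * k := by
      have : y = x + q * k := by linear_combination hk
      exact_mod_cast this
    ext i j
    fin_cases i <;> fin_cases j <;>
      simp [Matrix.mul_apply, Fin.sum_univ_two, hT, hy]
    field_simp
  rw [← hmat, SlashAction.slash_mul]
  congr 1

theorem exists_int_dvd_cast [Fact q.Prime] {n : ℕ} (hn : ¬ q ∣ n) (x : ZMod q) :
    ∃ y : ℤ, (n : ℤ) ∣ y ∧ (y : ZMod q) = x := by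
  refine ⟨(n : ℤ) * (((n : ZMod q)⁻¹ * x).val : ℤ), dvd_mul_right _ _, ?_⟩
  have h0 : (n : ZMod q) ≠ 0 := fun h => hn ((ZMod.natCast_eq_zero_iff _ _).1 h)
  push_cast
  rw [ZMod.natCast_zmod_val, mul_inv_cancel_left₀ h0]

/-- The twisted eigenvalue relation in coefficients. -/
theorem twist_seqOp {χ : DirichletCharacter ℂ q} {ℓ : ℕ} (hℓ0 : 0 < ℓ) (hℓ : IsUnit (ℓ : ZMod q))
    {a : ℕ → ℂ}
    {c : ℂ} (n : ℕ) (h : seqOp (nebWeight (χ⁻¹ ^ 2)) ℓ a n = χ⁻¹ (ℓ : ZMod q) * c * a n) :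
    χ ((n * ℓ : ℕ) : ZMod q) * a (n * ℓ) +
        (if ℓ ∣ n then (ℓ : ℂ) * (χ ((n / ℓ : ℕ) : ZMod q) * a (n / ℓ)) else 0) =
      c * (χ (n : ZMod q) * a n) := by
  have hinv : χ (ℓ : ZMod q) * χ⁻¹ (ℓ : ZMod q) = 1 := by
    rw [← MulChar.mul_apply, mul_inv_cancel, MulChar.one_apply hℓ]
  simp only [seqOp, nebWeight, MulChar.pow_apply' _ two_ne_zero] at h
  rw [Nat.cast_mul, map_mul]
  split_ifs with hd
  · rw [if_pos hd] at h
    obtain ⟨m, rfl⟩ := hd
    rw [Nat.mul_div_cancel_left _ hℓ0] at h ⊢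
    rw [Nat.cast_mul, map_mul]
    linear_combination χ (ℓ : ZMod q) * χ (ℓ : ZMod q) * χ (m : ZMod q) * h +
      (χ (ℓ : ZMod q) * χ (m : ZMod q) * c * a (ℓ * m) -
        (χ (ℓ : ZMod q) * χ⁻¹ (ℓ : ZMod q) + 1) * χ (m : ZMod q) * ℓ * a m) * hinv
  · rw [if_neg hd] at h
    linear_combination χ (ℓ : ZMod q) * χ (n : ZMod q) * h + χ (n : ZMod q) * c * a n * hinv

/-- The periods of the twist: eigen, with nonzero twisted trace. -/
theorem exists_twistTrace_ne_zero [Fact q.Prime] {R : ℕ} [NeZero R] (hR : ¬ q ∣ R)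
    [Fact (q.Coprime (twLevel q R))] (χ : DirichletCharacter ℂ q) (hχ : χ ^ 2 ≠ 1)
    (χ' : (ZMod q)ˣ →* ℂ) (hχ' : ∀ u : (ZMod q)ˣ, χ' u = χ u) {f : ℍ → ℂ} {a : ℕ → ℂ}
    (hf : IsNeb (q * R) (χ⁻¹ ^ 2) f) (ha : HasCoeff f a) (hf0 : f ≠ 0) (b : ℕ → ℂ)
    {S : Set ℕ} (hS : ∀ ℓ : ℕ, ℓ.Prime → ℓ ∣ q * R → ℓ ∈ S)
    (hb : ∀ ℓ : ℕ, ℓ.Prime → ℓ ∉ S → ∀ n,
      seqOp (nebWeight (χ⁻¹ ^ 2)) ℓ a n = χ⁻¹ (ℓ : ZMod q) * b ℓ * a n) :
    ∃ ξ ∈ Gamma0.ellParHoms (Gamma0 (q ^ 2 * R)) ℂ,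
      (∀ (ℓ : ℕ) (hℓ : ℓ.Prime), ℓ ∉ S →
        GaloisReps.homOp (q ^ 2 * R) ℂ ℓ hℓ (GaloisReps.atkinHom _ ℂ ξ) =
          b ℓ • GaloisReps.atkinHom _ ℂ ξ) ∧
      twistTrace (n := twLevel q R) (dvd_twLevel q R) χ' ξ ≠ 0 := by
  classical
  have hq : q.Prime := Fact.out
  have hχ1 : χ ≠ 1 := fun h => hχ (by simp [h])
  obtain ⟨F, hF, hFc, hFeq⟩ := GammaH.exists_twist_prime (v := q) (dvd_mul_right q R) dvd_rfl
    (dvd_mul_right q R) hf ha hχ1
  rw [DirichletCharacter.changeLevel_self, inv_pow, inv_mul_cancel,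
    show q * R * q = q ^ 2 * R by ring] at hF
  have hqN : q ∣ q ^ 2 * R := dvd_mul_of_dvd_left (dvd_pow_self q two_ne_zero) R
  have hFΓ : ∀ γ ∈ Gamma0 (q ^ 2 * R), F ∣[(2 : ℤ)] γ = F := fun γ hγ => by
    have hu : IsUnit ((γ 1 1 : ℤ) : ZMod q) := by
      rw [← map_intCast (ZMod.castHom hqN (ZMod q))]
      exact (DeligneSerre.isUnit_lowerRight hγ).map _
    rw [hF.neb γ hγ, MulChar.one_apply hu, one_smul]
  let G : CuspForm (Gamma0 (q ^ 2 * R)) 2 :=
    DeligneSerre.mkCuspForm (Gamma0 (q ^ 2 * R)) 2 F hFΓ hF.cusp.1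
      fun γ => by simpa [SlashAction.slash_one] using (hF.cusp.slash_SL γ).2 1
  have hG : ⇑G = F := rfl
  have hξ : periodMap (q ^ 2 * R) G ∈ Gamma0.ellParHoms (Gamma0 (q ^ 2 * R)) ℂ :=
    Gamma0.isParabolicHom_iff_mem_ellParHoms.1
      ((mem_parabolicHoms_iff (R := ℂ)).1 (periodMap_mem_parabolicHoms G))
  refine ⟨_, hξ, fun ℓ hℓ hℓS => ?_, ?_⟩
  · -- eigen
    have hℓq : ¬ ℓ ∣ q := fun h => hℓS (hS ℓ hℓ (dvd_mul_of_dvd_left h R))
    have hℓN : ¬ ℓ ∣ q ^ 2 * R := fun h => (hℓ.dvd_mul.1 h).elim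
      (fun h => hℓq (hℓ.dvd_of_dvd_pow h)) (fun h => hℓS (hS ℓ hℓ (dvd_mul_of_dvd_right h q)))
    have hu : IsUnit (ℓ : ZMod q) :=
      (ZMod.isUnit_iff_coprime _ _).2 (hℓ.coprime_iff_not_dvd.2 hℓq)
    have hT : CuspForm.heckeTLin 2 hℓ hℓN G = b ℓ • G := by
      refine HeckeDuality.ext_coeff fun n => ?_
      rw [HeckeDuality.coeff_heckeTLin, FunLike.coe_smul, hG,
        (hF.smul (b ℓ)).qCoeff_eq hqN (hFc.smul (b ℓ)), hF.qCoeff_eq hqN hFc,
        hF.qCoeff_eq hqN hFc]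
      have e : (ℓ : ℂ) ^ ((2 : ℤ) - 1) = ℓ := by norm_num
      rw [e]
      exact twist_seqOp hℓ.pos hu n (hb ℓ hℓ hℓS n)
    have hop : GaloisReps.homOp (q ^ 2 * R) ℂ ℓ hℓ (periodMap (q ^ 2 * R) G) =
        b ℓ • periodMap (q ^ 2 * R) G := by
      rw [GaloisReps.homOp, dif_neg hℓN]
      show homT hℓ hℓN ℂ (periodMap (q ^ 2 * R) G) = _
      rw [← periodMap_heckeTLin, hT, ← periodMapLin_apply, map_smul, periodMapLin_apply]
    rw [homOp_atkinHom hℓ hℓN, hop]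
    rfl
  · -- the twisted trace
    set n := twLevel q R
    have hRn : R ∣ n := dvd_twLevel q R
    have hqn : ¬ q ∣ n := not_dvd_twLevel hq hR
    have hLM : q ∣ q * R := dvd_mul_right q R
    obtain ⟨Ff, hFf⟩ := exists_primitive_neb hLM hf
    choose y hy hyx using exists_int_dvd_cast hqn
    set Φ := classHom (n := n) hRn (dvd_mul_of_dvd_left dvd_rfl R) hf
    set κ : ℂ := (gaussSum χ⁻¹ ZMod.stdAddChar)⁻¹
    have hκ : κ ≠ 0 := inv_ne_zero (gaussSum_ne_zero_of_nontrivial (by simp [NeZero.ne q])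
      (inv_ne_one.2 hχ1) (ZMod.isPrimitive_stdAddChar q))
    let FF : ℍ → ℂ := ∑ x : ZMod q, (κ * χ⁻¹ x) • fun w => Ff (transl q (y x) • w)
    have hsl : ∀ x : ZMod q, f ∣[(2 : ℤ)] transl q (y x) = f ∣[(2 : ℤ)] transl q x.val := fun x =>
      slash_transl_congr hf ((ZMod.intCast_eq_intCast_iff_dvd_sub _ _ q).1 (by simp [hyx]))
    have hFF : IsPrimitive ⇑G FF := by
      rw [hG, hFeq, GammaH.translSum, ← Finset.sum_congr rfl fun x _ =>
        congrArg ((κ * χ⁻¹ x) • ·) (hsl x)]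
      intro τ
      have := HasDerivAt.sum (u := Finset.univ) fun (x : ZMod q) _ =>
        ((hFf.comp_smul (GammaH.det_transl_pos q (y x))).const_smul (κ * χ⁻¹ x)) τ
      simpa [FF, Finset.sum_fn, Function.comp_def] using this
    -- the pullback
    have hres : resHom hRn ℂ (periodMap (q ^ 2 * R) G) =
        ∑ x : ZMod q, (κ * χ⁻¹ x) • ((sPlus (-x)) • Φ) := by
      refine AddMonoidHom.ext fun γ => ?_
      obtain ⟨γ, rfl⟩ := Additive.ofMul.surjective γ
      rw [resHom_apply, periodMap_eq hFF _ (shrinkR q • UpperHalfPlane.I),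
        AddMonoidHom.finsetSum_apply]
      simp only [FF, Finset.sum_apply, ← Finset.sum_sub_distrib, Pi.smul_apply, smul_eq_mul,
        ← mul_sub, AddMonoidHom.smul_apply]
      refine Finset.sum_congr rfl fun x _ => congrArg _ ?_
      have e : ∀ u : ℍ, (rescale q n γ) • shrinkR q • u = shrinkR q • (γ : SL(2, ℤ)) • u :=
        fun u => by
          show Matrix.SpecialLinearGroup.mapGL ℝ (rescale q n γ) • shrinkR q • u =
            shrinkR q • Matrix.SpecialLinearGroup.mapGL ℝ (γ : SL(2, ℤ)) • u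
          rw [← mul_smul, ← shrinkR_mul_rescale, mul_smul]
      rw [e, classHom_transl hRn _ hf hFf (hy x), hyx]
    -- reindex by units
    have hres' : resHom hRn ℂ (periodMap (q ^ 2 * R) G) =
        (κ * χ⁻¹ (-1)) • ∑ w : (ZMod q)ˣ, χ' w⁻¹ • (sPlus (w : ZMod q) • Φ) := by
      rw [hres, Finset.smul_sum]
      refine (Finset.sum_of_injOn (fun w : (ZMod q)ˣ => -(w : ZMod q)) ?_ ?_ ?_ ?_).symm
      · exact fun u _ v _ h => Units.ext (neg_injective h)
      · exact fun u _ => Finset.mem_coe.2 (Finset.mem_univ _)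
      · intro x _ hx
        have : x = 0 := by
          by_contra h0
          exact hx ⟨Units.mk0 (-x) (neg_ne_zero.2 h0), Finset.mem_coe.2 (Finset.mem_univ _), by simp⟩
        simp [this, MulChar.map_zero]
      · intro w _
        rw [smul_smul, neg_neg, hχ', mul_assoc, Units.val_inv_eq_inv_val, ← MulChar.inv_apply',
          ← map_mul, neg_one_mul]
    have hsum : ∑ u : (ZMod q)ˣ, χ' u = 0 := sum_hom_units_eq_zero χ' fun h => hχ1
      (MulChar.ext fun u => by rw [← hχ', h, MonoidHom.one_apply, MulChar.one_apply_coe])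
    have hsum2 : ∑ u : (ZMod q)ˣ, (χ' ^ 2) u = 0 := sum_hom_units_eq_zero _ fun h => hχ
      (MulChar.ext fun u => by
        rw [MulChar.pow_apply_coe, ← hχ', MulChar.one_apply_coe]
        exact DFunLike.congr_fun h u)
    have hU : ∀ s : ZMod q, (sMinus s) • Φ = Φ := fun s => by
      rw [smul_classHom hRn dvd_rfl hf (s := sMinus s)
        (by simp [Matrix.SpecialLinearGroup.SL2_inv_expl, coe_sMinus])]
      simp [Matrix.SpecialLinearGroup.SL2_inv_expl, coe_sMinus, Φ]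
    have hD : ∀ u : (ZMod q)ˣ, (sDiag u) • Φ = (χ' ^ 2) u • Φ := fun u => by
      rw [smul_classHom hRn dvd_rfl hf (s := sDiag u)
        (by simp [Matrix.SpecialLinearGroup.SL2_inv_expl, coe_sDiag, -Units.val_inv_eq_inv_val])]
      congr 1
      have e : (sDiag u)⁻¹ 1 1 = ((u⁻¹ : (ZMod q)ˣ) : ZMod q) := by
        simp [Matrix.SpecialLinearGroup.SL2_inv_expl, coe_sDiag, -Units.val_inv_eq_inv_val]
      rw [e, ZMod.castHom_self, RingHom.id_apply, MulChar.pow_apply' _ two_ne_zero,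
        MulChar.inv_apply', MonoidHom.pow_apply, hχ', ← Units.val_inv_eq_inv_val, inv_inv]
    have hlin : ∀ (k : ℂ) (X : Additive (Gamma (q * n)) →+ ℂ),
        lowerTr (q := q) (twistOp χ' (k • X)) = k • lowerTr (q := q) (twistOp χ' X) := fun k X => by
      simp only [lowerTr, twistOp, Finset.smul_sum, smul_comm _ k]
    have hΦ : Φ ≠ 0 := classHom_ne_zero hRn _ hf hf0
    rw [twistTrace, hres', hlin, lowerTr_twistOp_twistOp χ' hsum hsum2 hU hD,
      ← Int.cast_smul_eq_zsmul ℂ, smul_smul, smul_smul]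
    refine smul_ne_zero (mul_ne_zero (mul_ne_zero (mul_ne_zero hκ ?_) ?_) ?_) hΦ
    · exact ((isUnit_one.neg).map (χ⁻¹ : DirichletCharacter ℂ q)).ne_zero
    · rw [hχ']
      exact ((-1 : (ZMod q)ˣ).isUnit.map χ).ne_zero
    · rw [Int.cast_ne_zero]
      have := hq.two_le
      exact mul_ne_zero (by omega) (by omega)

end Fermat.Agent.RT.InertiaTW
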