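import Mathlib

/-!
# Linear equations with coefficients in a subfield

A functional with coefficients in `K` killing the `K`-solutions of the equations
`ops i v = b i v` (integer matrices, `b` with values in `K`) kills their solutions over every
field extension of `K`.
-/

set_option autoImplicit false

namespace Fermat.Agent.RT.InertiaTW

open Matrix

variable {K C : Type*} [Field K] [Field C] {κ : Type*} {d : ℕ}

/-- A functional on `Kᵈ`, extended to `Cᵈ` along `σ`. -/
def extendFunctional (σ : K →+* C) (lam : (Fin d → K) →ₗ[K] K) : (Fin d → C) →ₗ[C] C :=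
  ∑ k, σ (lam (Pi.single k 1)) • LinearMap.proj k

theorem extendFunctional_apply (σ : K →+* C) (lam : (Fin d → K) →ₗ[K] K) (v : Fin d → C) :
    extendFunctional σ lam v = ∑ k, σ (lam (Pi.single k 1)) * v k := by
  simp [extendFunctional]

theorem extendFunctional_map (σ : K →+* C) (lam : (Fin d → K) →ₗ[K] K) (v : Fin d → K) :
    extendFunctional σ lam (fun k => σ (v k)) = σ (lam v) := by
  conv_rhs => rw [pi_eq_sum_univ' v]
  simp [extendFunctional_apply, map_sum, mul_comm]

/-- If `lam` kills every `K`-solution then its extension kills every `C`-solution. -/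
theorem extendFunctional_eq_zero (σ : K →+* C) (ops : κ → Matrix (Fin d) (Fin d) ℤ) (b : κ → K)
    (lam : (Fin d → K) →ₗ[K] K)
    (h : ∀ v : Fin d → K, (∀ i, ((ops i).map (Int.cast : ℤ → K)) *ᵥ v = b i • v) → lam v = 0)
    {v : Fin d → C} (hv : ∀ i, ((ops i).map (Int.cast : ℤ → C)) *ᵥ v = σ (b i) • v) :
    extendFunctional σ lam v = 0 := by
  letI : Algebra K C := σ.toAlgebra
  rw [← Module.forall_dual_apply_eq_zero_iff K]
  intro φ
  have hu : ∀ i, ((ops i).map (Int.cast : ℤ → K)) *ᵥ (fun k => φ (v k)) =
      b i • fun k => φ (v k) := by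
    intro i
    funext r
    have := congrArg φ (congrFun (hv i) r)
    simp only [mulVec, dotProduct, map_apply, map_sum, Pi.smul_apply, smul_eq_mul] at this ⊢
    have e : σ (b i) * v r = b i • v r := (Algebra.smul_def (b i) (v r)).symm
    rw [e, map_smul, smul_eq_mul] at this
    rw [← this]
    refine Finset.sum_congr rfl fun k _ => ?_
    rw [← zsmul_eq_mul, ← map_zsmul, zsmul_eq_mul]
  have h0 := h _ hu
  rw [pi_eq_sum_univ' (fun k => φ (v k))] at h0
  simp only [map_sum, map_smul, smul_eq_mul] at h0
  rw [extendFunctional_apply, map_sum, ← h0]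
  refine Finset.sum_congr rfl fun k _ => ?_
  rw [show σ (lam (Pi.single k 1)) * v k = lam (Pi.single k 1) • v k from
    (Algebra.smul_def _ (v k)).symm, map_smul, smul_eq_mul, mul_comm]

/-- A `C`-solution not killed by the extension gives a `K`-solution not killed by `lam`. -/
theorem exists_solution_of_extend_ne_zero (σ : K →+* C) (ops : κ → Matrix (Fin d) (Fin d) ℤ)
    (b : κ → K) (lam : (Fin d → K) →ₗ[K] K) {v : Fin d → C}
    (hv : ∀ i, ((ops i).map (Int.cast : ℤ → C)) *ᵥ v = σ (b i) • v)
    (hne : extendFunctional σ lam v ≠ 0) :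
    ∃ w : Fin d → K, (∀ i, ((ops i).map (Int.cast : ℤ → K)) *ᵥ w = b i • w) ∧ lam w ≠ 0 := by
  by_contra h
  push Not at h
  exact hne (extendFunctional_eq_zero σ ops b lam h hv)

end Fermat.Agent.RT.InertiaTW
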