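import Fermat.Agent.GaloisReps.AtkinConj
import Fermat.Agent.RT.InertiaTW.TwistTrace

/-!
# Vectors of the model as homomorphisms, linearly and naturally in the coefficients

`vecHom N B v` is the monodromy whose Atkin–Lehner conjugate has coordinates `v`.
-/

set_option autoImplicit false

noncomputable section

open CongruenceSubgroup
open Fermat.Agent.GaloisReps
open scoped MatrixGroups

namespace Fermat.Agent.RT.InertiaTW

variable (N : ℕ) [NeZero N] (B : Type) [CommRing B]

/-- The monodromy of a vector of the model. -/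
def vecHom : (Fin (2 * Gamma0.genus N) → B) →ₗ[B] (Additive (Gamma0 N) →+ B) where
  toFun v := atkinHom N B (∑ j, v j • (Int.castAddHom B).comp (dualHom N j))
  map_add' v w := by simp [add_smul, Finset.sum_add_distrib]
  map_smul' c v := by
    refine AddMonoidHom.ext fun g => ?_
    obtain ⟨g, rfl⟩ := Additive.ofMul.surjective g
    simp [atkinHom_apply, Finset.mul_sum, Finset.smul_sum, mul_assoc]

variable {N B}

theorem sum_dualHom_eq {φ : Additive (Gamma0 N) →+ B} (hφ : φ ∈ Gamma0.ellParHoms (Gamma0 N) B) :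
    ∑ j, coord N B φ j • (Int.castAddHom B).comp (dualHom N j) = φ := by
  conv_rhs => rw [eq_sum_dualHom hφ]
  refine Finset.sum_congr rfl fun j _ => AddMonoidHom.ext fun g => ?_
  simp only [AddMonoidHom.smul_apply, AddMonoidHom.comp_apply, Int.coe_castAddHom,
    zmultiplesHom_apply, smul_eq_mul, zsmul_eq_mul]
  ring

theorem sum_dualHom_mem (v : Fin (2 * Gamma0.genus N) → B) :
    ∑ j, v j • (Int.castAddHom B).comp (dualHom N j) ∈ Gamma0.ellParHoms (Gamma0 N) B :=
  sum_mem fun j _ γ hγ => by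
    rw [AddMonoidHom.smul_apply, AddMonoidHom.comp_apply, dualHom_mem j γ hγ, map_zero, smul_zero]

theorem coord_sum_dualHom (v : Fin (2 * Gamma0.genus N) → B) :
    coord N B (∑ j, v j • (Int.castAddHom B).comp (dualHom N j)) = v := by
  classical
  funext i
  rw [map_sum, Finset.sum_apply, Finset.sum_eq_single i]
  · rw [coord_apply _ i, AddMonoidHom.smul_apply, AddMonoidHom.comp_apply, ← coord_apply, coord_dualHom,
      Pi.single_eq_same]
    simp
  · intro j _ hji
    rw [coord_apply _ i, AddMonoidHom.smul_apply, AddMonoidHom.comp_apply, ← coord_apply, coord_dualHom,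
      Pi.single_eq_of_ne hji.symm, map_zero, smul_zero]
  · exact fun h => absurd (Finset.mem_univ i) h

theorem vecHom_mem (v : Fin (2 * Gamma0.genus N) → B) :
    vecHom N B v ∈ Gamma0.ellParHoms (Gamma0 N) B :=
  atkinHom_mem (sum_dualHom_mem v)

theorem coord_atkinHom_vecHom (v : Fin (2 * Gamma0.genus N) → B) :
    coord N B (atkinHom N B (vecHom N B v)) = v := by
  show coord N B (atkinHom N B (atkinHom N B _)) = v
  rw [atkinHom_atkinHom, coord_sum_dualHom]

theorem vecHom_coord {ξ : Additive (Gamma0 N) →+ B} (hξ : ξ ∈ Gamma0.ellParHoms (Gamma0 N) B) :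
    vecHom N B (coord N B (atkinHom N B ξ)) = ξ := by
  show atkinHom N B _ = ξ
  rw [sum_dualHom_eq (atkinHom_mem hξ), atkinHom_atkinHom]

theorem comp_vecHom {B' : Type} [CommRing B'] (f : B →+* B') (v : Fin (2 * Gamma0.genus N) → B) :
    f.toAddMonoidHom.comp (vecHom N B v) = vecHom N B' (f ∘ v) := by
  refine AddMonoidHom.ext fun g => ?_
  obtain ⟨g, rfl⟩ := Additive.ofMul.surjective g
  simp [vecHom, atkinHom_apply]

section Twist

variable {q n R : ℕ} [NeZero (q * n)] [Fact (q.Coprime n)] [Fact q.Prime] [NeZero (q ^ 2 * R)]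

theorem twistTrace_add {O : Type*} [CommRing O] {A : Type*} [AddCommGroup A] [Module O A]
    (hR : R ∣ n) (χ : (ZMod q)ˣ →* O) (ξ η : Additive (Gamma0 (q ^ 2 * R)) →+ A) :
    twistTrace hR χ (ξ + η) = twistTrace hR χ ξ + twistTrace hR χ η := by
  simp [twistTrace, twistOp, lowerTr, smul_add, Finset.sum_add_distrib, map_add]

theorem twistTrace_smul {O : Type*} [CommRing O] {A : Type*} [AddCommGroup A] [Module O A]
    (hR : R ∣ n) (χ : (ZMod q)ˣ →* O) (c : O) (ξ : Additive (Gamma0 (q ^ 2 * R)) →+ A) :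
    twistTrace hR χ (c • ξ) = c • twistTrace hR χ ξ := by
  have e : resHom (n := n) hR A (c • ξ) = c • resHom hR A ξ := rfl
  simp only [twistTrace, twistOp, lowerTr, e, Finset.smul_sum, smul_comm _ c]

/-- The value at `γ` of the twisted trace of a vector, as a linear form. -/
def traceForm (hR : R ∣ n) (χ : (ZMod q)ˣ →* B) (γ : Gamma (q * n)) :
    (Fin (2 * Gamma0.genus (q ^ 2 * R)) → B) →ₗ[B] B where
  toFun v := twistTrace hR χ (vecHom (q ^ 2 * R) B v) (Additive.ofMul γ)
  map_add' v w := by rw [map_add, twistTrace_add, AddMonoidHom.add_apply]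
  map_smul' c v := by rw [map_smul, twistTrace_smul, AddMonoidHom.smul_apply, RingHom.id_apply]

theorem map_traceForm {B' : Type} [CommRing B'] (hR : R ∣ n) (f : B →+* B')
    (χ : (ZMod q)ˣ →* B) (χ' : (ZMod q)ˣ →* B') (hχ : ∀ u, f (χ u) = χ' u) (γ : Gamma (q * n))
    (v : Fin (2 * Gamma0.genus (q ^ 2 * R)) → B) :
    f (traceForm hR χ γ v) = traceForm hR χ' γ (f ∘ v) := by
  show f (twistTrace hR χ _ _) = twistTrace hR χ' (vecHom _ B' (f ∘ v)) _
  rw [← comp_vecHom, ← comp_twistTrace hR χ χ' f.toAddMonoidHom (fun u a => by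
    simp [hχ])]
  rfl

end Twist

end Fermat.Agent.RT.InertiaTW
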