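import Fermat.Agent.RT.InertiaTW.Statement
import Fermat.Agent.RT.InertiaTW.EigenVanishing
import Fermat.Agent.RT.InertiaTW.Isotypic
import Fermat.Agent.RT.InertiaTW.VecHom
import Fermat.Agent.RT.InertiaTW.Inertia
import Fermat.Agent.RT.InertiaTW.FiniteCoeff
import Fermat.Agent.RT.InertiaTW.Transfer
import Fermat.Agent.RT.InertiaTW.Periods
import Fermat.Agent.RT.InertiaTW.Endgame
import Fermat.Agent.Arith.TraceSpan
import Fermat.Agent.Arith.Frobenius
import Fermat.Agent.GaloisReps.PadicHom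
import Fermat.Agent.GaloisReps.Results
import Fermat.Agent.TwoAdic.Module.Inputs

/-!
# The trace of inertia at `q` of a twisted newform

If the eigencharacter of inertia is neither `χ` nor `χ⁻¹` then the twisted trace kills the isotypic
vectors that are translates of the eigenline, hence the whole isotypic space of `g`; but the periods
of the twist are not killed.
-/

set_option autoImplicit false

noncomputable section

open Matrix CongruenceSubgroup IsLocalRing
open scoped Pointwise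
open Fermat.Agent.GaloisReps (AbsGal HeckeGaloisModel CongruenceProperty modelOfCongruence coord
  atkinHom matIn opMat)
open Fermat.Agent.RT.GammaH (IsNeb HasCoeff seqOp nebWeight)

namespace Fermat.Agent.RT.InertiaTW

variable {p q R : ℕ} [Fact p.Prime] [Fact q.Prime] [NeZero R] [NeZero (q * twLevel q R)]
  [Fact (q.Coprime (twLevel q R))] [NeZero (q ^ 2 * R)]

section Eigen

variable {O : Type} [CommRing O] [IsDomain O] [IsDiscreteValuationRing O]
  [IsAdicComplete (maximalIdeal O) O] [Finite (ResidueField O)] [CharZero O]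
  {K : Type} [Field K] [Algebra O K]

/-- An inertia eigenvector over a field algebraic over the coefficients has no twisted trace. -/
theorem traceForm_eq_zero_of_eigen [Algebra.IsAlgebraic O K]
    (hinj : Function.Injective (algebraMap O K)) (hpO : (p : O) ∈ maximalIdeal O)
    (ι : ℤ_[p] →+* O) (hpq : p ≠ q) (hR : ¬ q ∣ R) (hES : CongruenceProperty (q ^ 2 * R) p)
    {A : ValuationSubring (AlgebraicClosure ℚ)} (hA : A.LiesOverPrime q)
    (hFF : HasFunFamilies hA hR) (χ θ : (ZMod q)ˣ →* K) (hsum : ∑ d, χ d * θ d = 0)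
    (hsum' : ∑ d, χ d⁻¹ * θ d = 0) (x : Fin (2 * Gamma0.genus (q ^ 2 * R)) → K)
    (heig : ∀ σ ∈ A.inertiaSubgroupIn ℚ, ∀ d : (ZMod q)ˣ,
      (∀ μ : AlgebraicClosure ℚ, μ ^ q = 1 → σ μ = μ ^ (d : ZMod q).val) →
        ((modelOfCongruence hES).galIn ((algebraMap O K).comp ι) σ).mulVec x = θ d • x)
    (γ : Gamma (q * twLevel q R)) :
    traceForm (n := twLevel q R) (dvd_twLevel q R) χ γ x = 0 := by
  classical
  obtain ⟨y, hy, hint⟩ := Algebra.IsAlgebraic.exists_integral_multiples O (Finset.univ.image x)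
  set s : Set K := Set.range (y • x) ∪ (Set.range χ ∪ Set.range θ)
  have hs : s.Finite :=
    (Set.finite_range _).union ((Set.finite_range _).union (Set.finite_range _))
  have hroot : ∀ (ψ : (ZMod q)ˣ →* K) (u : (ZMod q)ˣ), IsIntegral O (ψ u) := fun ψ u =>
    IsIntegral.of_pow (Fintype.card_pos (α := (ZMod q)ˣ)) (by
      rw [← map_pow, pow_card_eq_one, map_one]; exact isIntegral_one)
  have hsint : ∀ z ∈ s, IsIntegral O z := by
    rintro z (⟨i, rfl⟩ | ⟨u, rfl⟩ | ⟨u, rfl⟩)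
    · exact hint _ (Finset.mem_image_of_mem _ (Finset.mem_univ i))
    · exact hroot χ u
    · exact hroot θ u
  set B := Algebra.adjoin O s
  let : Algebra ℤ_[p] B := ((algebraMap O B).comp ι).toAlgebra
  obtain ⟨hfin, hfree⟩ := adjoin_finite_free hpO ι hinj hs hsint
  have := hfin
  have := hfree
  set v : B →+* K := B.val.toRingHom
  have hv : Function.Injective v := fun a b h => Subtype.ext h
  have hmem : ∀ z ∈ s, z ∈ B := fun z hz => Algebra.subset_adjoin hz
  let χB : (ZMod q)ˣ →* B := χ.codRestrict B fun u => hmem _ (Or.inr (Or.inl ⟨u, rfl⟩))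
  let θB : (ZMod q)ˣ →* B := θ.codRestrict B fun u => hmem _ (Or.inr (Or.inr ⟨u, rfl⟩))
  let xB : Fin (2 * Gamma0.genus (q ^ 2 * R)) → B := fun i => ⟨(y • x) i, hmem _ (Or.inl ⟨i, rfl⟩)⟩
  have hxB : v ∘ xB = algebraMap O K y • x := by
    funext i
    exact Algebra.smul_def y (x i)
  have h0 : twistTrace (n := twLevel q R) (dvd_twLevel q R) χB (vecHom _ B xB) = 0 := by
    refine twistTrace_eq_zero_of_inertia_eigen hpq hR hES hA hFF χB θB
      (hv (by simpa [map_sum, v, χB, θB] using hsum))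
      (hv (by simpa [map_sum, v, χB, θB] using hsum')) _ (vecHom_mem xB) fun σ hσ d hd => ?_
    rw [coord_atkinHom_vecHom]
    funext i
    refine hv ?_
    have e1 : v (((modelOfCongruence hES).galIn (algebraMap ℤ_[p] B) σ *ᵥ xB) i) =
        ((modelOfCongruence hES).galIn ((algebraMap O K).comp ι) σ *ᵥ (v ∘ xB)) i := by
      exact (congrFun (funext fun k => RingHom.map_mulVec v
        ((modelOfCongruence hES).galIn (algebraMap ℤ_[p] B) σ) xB k) i).trans rfl
    have e2 : (modelOfCongruence hES).galIn ((algebraMap O K).comp ι) σ *ᵥ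
        (algebraMap O K y • x) = θ d • (algebraMap O K y • x) := by
      exact (Matrix.mulVec_smul _ _ _).trans ((congrArg (algebraMap O K y • ·) (heig σ hσ d hd)).trans
        (funext fun k => mul_left_comm _ _ _))
    refine e1.trans ((congrArg (fun z => ((modelOfCongruence hES).galIn
      ((algebraMap O K).comp ι) σ *ᵥ z) i) hxB).trans ((congrFun e2 i).trans ?_))
    exact ((map_mul v (θB d) (xB i)).trans (congrArg (θ d * ·) (congrFun hxB i))).symm
  have h1 := map_traceForm (n := twLevel q R) (dvd_twLevel q R) v χB χ (fun _ => rfl) γ xB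
  have h2 : traceForm (n := twLevel q R) (dvd_twLevel q R) χB γ xB = 0 := by
    show twistTrace (n := twLevel q R) (dvd_twLevel q R) χB (vecHom _ B xB) _ = 0
    rw [h0, AddMonoidHom.zero_apply]
  rw [h2, map_zero, hxB, map_smul, smul_eq_mul] at h1
  exact (mul_eq_zero.mp h1.symm).resolve_left ((map_ne_zero_iff _ hinj).mpr hy)

end Eigen

set_option maxHeartbeats 1000000 in
/-- The trace of inertia, for any `p ≠ q` and any character of square not one. -/
theorem trace_inertia_of {M : ℕ} [NeZero M] {g : CuspForm (Gamma0 M) 2} (hpq : p ≠ q)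
    (hR : ¬ q ∣ R) (hES : CongruenceProperty (q ^ 2 * R) p)
    (hFF : ∀ {A' : ValuationSubring (AlgebraicClosure ℚ)} (hA' : A'.LiesOverPrime q),
      HasFunFamilies hA' hR)
    (χ : DirichletCharacter ℂ q)
    (hχ : χ ^ 2 ≠ 1) (hk : ∃ k : ℕ, χ ^ p ^ k = 1) {f : UpperHalfPlane → ℂ} {c : ℕ → ℂ}
    (hf : IsNeb (q * R) (χ⁻¹ ^ 2) f) (hc : HasCoeff f c) (hf0 : f ≠ 0) (S : Finset ℕ)
    (hS : ∀ v : ℕ, v.Prime → v ∣ q * R * p → v ∈ S)
    (hseq : ∀ ℓ : ℕ, ℓ.Prime → ℓ ∉ S → ∀ n : ℕ,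
      seqOp (nebWeight (χ⁻¹ ^ 2)) ℓ c n =
        χ⁻¹ (ℓ : ZMod q) * ModularFormClass.qCoeff g ℓ * c n)
    {O : Type} [CommRing O] [IsDomain O] [IsDiscreteValuationRing O]
    [IsAdicComplete (maximalIdeal O) O] [Finite (ResidueField O)] [CharZero O]
    (hpO : (p : O) ∈ maximalIdeal O) (j : O →+* ℂ) (hj : Function.Injective j)
    (ρ : GaloisRepAdic O) (habs : ρ.residual.IsAbsolutelyIrreducible)
    (hfrob : ∀ ℓ : ℕ, ℓ.Prime → ℓ ∉ S → ∀ A : ValuationSubring (AlgebraicClosure ℚ),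
      A.LiesOverPrime ℓ → ∀ σ : AbsGal, A.IsFrobeniusAt σ ℓ →
        j (ρ.trace σ) = ModularFormClass.qCoeff g ℓ ∧ LinearMap.det (ρ.ρ σ) = (ℓ : O))
    {A : ValuationSubring (AlgebraicClosure ℚ)} (hA : A.LiesOverPrime q)
    (hin : ∀ σ ∈ A.inertiaSubgroupIn ℚ,
      LinearMap.det (ρ.ρ σ) = 1 ∧ ρ.trace σ - 2 ∈ maximalIdeal O)
    {σ : AbsGal} (hσ : σ ∈ A.inertiaSubgroupIn ℚ) (u : (ZMod q)ˣ)
    (hu : ∀ μ : AlgebraicClosure ℚ, μ ^ q = 1 → σ μ = μ ^ (u : ZMod q).val) :
    j (ρ.trace σ) = χ (u : ZMod q) + χ⁻¹ (u : ZMod q) := by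
  classical
  have hq : q.Prime := Fact.out
  obtain ⟨ι⟩ := GaloisReps.exists_padicHom O hpO
  -- the field of coefficients
  set F := FractionRing O
  let : Algebra F ℂ := (IsFractionRing.lift hj).toAlgebra
  set K := AlgebraicClosure F
  let J : K →+* ℂ := (IsAlgClosed.lift (M := ℂ) (S := K) (R := F)).toRingHom
  have hJ : ∀ x : O, J (algebraMap O K x) = j x := fun x => by
    rw [IsScalarTower.algebraMap_apply O F K]
    exact ((IsAlgClosed.lift (M := ℂ) (S := K) (R := F)).commutes _).trans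
      (IsFractionRing.lift_algebraMap hj x)
  have hinj : Function.Injective (algebraMap O K) := fun x y h =>
    hj (by rw [← hJ, ← hJ, h])
  have : Algebra.IsAlgebraic O K :=
    (IsFractionRing.comap_isAlgebraic_iff (A := O) (K := F) (C := K)).mpr inferInstance
  -- matrices
  let b := Module.finBasisOfFinrankEq O ρ.V ρ.finrank_eq
  set r := Deform.matOf ρ b
  have htr : ∀ τ, (r τ).trace = ρ.trace τ := fun τ =>
    (LinearMap.trace_eq_matrix_trace O b (ρ.ρ τ)).symm
  have hdet : ∀ τ, (r τ).det = LinearMap.det (ρ.ρ τ) := fun τ =>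
    LinearMap.det_toMatrix b (ρ.ρ τ)
  obtain ⟨k, hk⟩ := hk
  obtain ⟨hpq1, hp4⟩ := dvd_pred_of_char χ hk hχ
  obtain ⟨v, θ, hv0, hv⟩ := exists_inertia_eigen (K := K) hinj hA hq Fact.out hp4 hpq1 hpO r
    (fun n => by
      obtain ⟨L, hL, hL'⟩ := Deform.isCont_matOf ρ b n
      exact ⟨L, hL, fun τ hτ i k => by rw [Matrix.sub_apply]; exact hL' τ hτ i k⟩)
    (fun τ hτ => (hdet τ).trans (hin τ hτ).1) (fun τ hτ => by rw [htr]; exact (hin τ hτ).2)
  let χ' : (ZMod q)ˣ →* ℂ := (Units.coeHom ℂ).comp χ.toUnitHom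
  have hχ' : ∀ d : (ZMod q)ˣ, χ' d = χ d := fun d => MulChar.coe_toUnitHom χ d
  obtain ⟨χK, hχK'⟩ := exists_char_descent J χ'
  have hχK : ∀ d : (ZMod q)ˣ, J (χK d) = χ d := fun d => (hχK' d).trans (hχ' d)
  -- the two good cases
  have hgood : ((∀ d, θ d = χK d) ∨ ∀ d, θ d = χK d⁻¹) →
      j (ρ.trace σ) = χ (u : ZMod q) + χ⁻¹ (u : ZMod q) := by
    intro h
    have hd1 : ((r σ).map (algebraMap O K)).det = 1 := by
      rw [← RingHom.mapMatrix_apply, ← RingHom.map_det, hdet, (hin σ hσ).1, map_one]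
    have ht := trace_eq_add_inv hd1 (hv σ hσ u hu) hv0
    rw [show ((r σ).map (algebraMap O K)).trace = algebraMap O K (r σ).trace from
      (AddMonoidHom.map_trace (algebraMap O K).toAddMonoidHom _).symm, htr] at ht
    have ht' := congrArg J ht
    rw [hJ, map_add, map_inv₀] at ht'
    rw [ht', MulChar.inv_apply', ← Units.val_inv_eq_inv_val, map_units_inv]
    rcases h with h | h
    · rw [h, hχK]
    · rw [h, hχK, map_units_inv, inv_inv, add_comm]
  by_cases hcase : (∀ d, θ d = χK d) ∨ ∀ d, θ d = χK d⁻¹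
  · exact hgood hcase
  exfalso
  push Not at hcase
  have hsum' : ∑ d, χK d⁻¹ * θ d = 0 := sum_inv_mul_eq_zero θ χK (not_forall.mpr hcase.1)
  have hsum : ∑ d, χK d * θ d = 0 := sum_mul_eq_zero θ χK (not_forall.mpr hcase.2)
  -- the eigenvalues
  have hex : ∀ ℓ : ℕ, ℓ.Prime → ℓ ∉ S → ∃ x : O, j x = ModularFormClass.qCoeff g ℓ := by
    intro ℓ hℓ hℓS
    obtain ⟨Aℓ, hAℓ⟩ := Arith.exists_liesOverPrime hℓ
    obtain ⟨φ, hφ⟩ := Arith.exists_isFrobeniusAt hAℓ hℓ
    exact ⟨_, (hfrob ℓ hℓ hℓS Aℓ hAℓ φ hφ).1⟩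
  choose! a ha using hex
  set D := modelOfCongruence hES
  have hsep : ∀ x : O, (∀ n : ℕ, (p : O) ^ n ∣ x) → x = 0 := fun x h =>
    GaloisReps.HeckeGaloisModel.eq_zero_of_forall_pow_dvd hpO h
  have hρ : ∀ n : ℕ, ∃ L : IntermediateField ℚ (AlgebraicClosure ℚ), FiniteDimensional ℚ L ∧
      ∀ τ : AbsGal, (∀ x ∈ L, τ x = x) → ∀ i k, (p : O) ^ n ∣ (r τ - 1) i k := by
    intro n
    obtain ⟨ϖ, hϖ⟩ := IsDiscreteValuationRing.exists_irreducible O
    obtain ⟨e, w, he⟩ := IsDiscreteValuationRing.eq_unit_mul_pow_irreducible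
      (Nat.cast_ne_zero.mpr (Fact.out : p.Prime).ne_zero : (p : O) ≠ 0) hϖ
    obtain ⟨L, hL, hL'⟩ := Deform.isCont_matOf ρ b (e * n)
    refine ⟨L, hL, fun τ hτ i k => ?_⟩
    have h := hL' τ hτ i k
    rw [hϖ.maximalIdeal_eq, Ideal.span_singleton_pow, Ideal.mem_span_singleton] at h
    rw [Matrix.sub_apply, he, mul_pow, ← pow_mul]
    exact (IsUnit.mul_left_dvd (w.isUnit.pow n)).mpr h
  have hfrob' : ∀ ℓ : ℕ, ℓ.Prime → ℓ ∉ S → ∀ A : ValuationSubring (AlgebraicClosure ℚ),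
      A.LiesOverPrime ℓ → ∀ τ : AbsGal, A.IsFrobeniusAt τ ℓ →
        (r τ).trace = a ℓ ∧ (r τ).det = (ℓ : O) := fun ℓ hℓ hℓS Aℓ hAℓ τ hτ => by
    obtain ⟨h1, h2⟩ := hfrob ℓ hℓ hℓS Aℓ hAℓ τ hτ
    exact ⟨hj (by rw [htr, h1, ha ℓ hℓ hℓS]), (hdet τ).trans h2⟩
  have hspan : Submodule.span O (Set.range r) = ⊤ := Arith.span_matOf_eq_top ρ habs b
  have hspanK := span_fieldRep_eq_top (K := K) r hspan
  obtain ⟨Φ, hΦ⟩ := exists_algHom_isoSpace D S hinj ι r a hsep hρ hfrob' hspanK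
  -- a complex vector not killed
  obtain ⟨ξ, hξ, heig, hne⟩ := exists_twistTrace_ne_zero hR χ hχ χ' hχ' hf hc hf0
    (fun ℓ => ModularFormClass.qCoeff g ℓ) (S := (S : Set ℕ))
    (fun ℓ hℓ hd => hS ℓ hℓ (dvd_mul_of_dvd_left hd p)) hseq
  obtain ⟨γ, hγ⟩ : ∃ γ, twistTrace (n := twLevel q R) (dvd_twLevel q R) χ' ξ
      (Additive.ofMul γ) ≠ 0 := by
    by_contra h
    push Not at h
    exact hne (AddMonoidHom.ext fun x => h x.toMul)
  set lam := traceForm (n := twLevel q R) (dvd_twLevel q R) χK γ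
  set wC := coord (q ^ 2 * R) ℂ (atkinHom (q ^ 2 * R) ℂ ξ)
  have hlamC : extendFunctional J lam wC =
      twistTrace (n := twLevel q R) (dvd_twLevel q R) χ' ξ (Additive.ofMul γ) := by
    rw [← show traceForm (n := twLevel q R) (dvd_twLevel q R) χ' γ wC = _ from
      congrArg (fun η => twistTrace (n := twLevel q R) (dvd_twLevel q R) χ' η (Additive.ofMul γ))
        (vecHom_coord hξ), extendFunctional_apply, LinearMap.pi_apply_eq_sum_univ (traceForm _ χ' γ)]
    refine Finset.sum_congr rfl fun k _ => ?_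
    rw [map_traceForm (n := twLevel q R) (dvd_twLevel q R) J χK χ'
      (fun d => (hχK d).trans (hχ' d).symm), smul_eq_mul, mul_comm]
    congr 2
    funext i
    by_cases hik : k = i <;> simp [hik, eq_comm]
  obtain ⟨w, hw, hlam⟩ := exists_solution_of_extend_ne_zero J
    (fun i : {ℓ : ℕ // ℓ.Prime ∧ ℓ ∉ S} => opMat (q ^ 2 * R) i.1 i.2.1)
    (fun i => algebraMap O K (a i.1)) lam (v := wC) (fun i => by
      have h := congrArg (coord (q ^ 2 * R) ℂ) (heig i.1 i.2.1 i.2.2)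
      rw [GaloisReps.coord_homOp i.1 i.2.1 (GaloisReps.atkinHom_mem hξ)] at h
      refine h.trans ?_
      rw [hJ, ha i.1 i.2.1 i.2.2]
      funext k
      simp [GaloisReps.coord_apply, wC]) (hlamC ▸ hγ)
  have hwmem : w ∈ isoSpace D S K fun ℓ => algebraMap O K (a ℓ) := fun ℓ hℓ hℓS => by
    rw [show matIn D.hecke K (HeckeDuality.heckeOp (q ^ 2 * R) 2 ℓ hℓ) = (opMat (q ^ 2 * R) ℓ hℓ).map Int.cast by
      rw [← GaloisReps.latticeMat_heckeOp ℓ hℓ]
      rfl]
    exact hw ⟨ℓ, hℓ, hℓS⟩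
  -- the functional kills the isotypic space
  let lam' : (Fin D.d → K) →ₗ[K] K := lam
  have hT : lam'.comp (Submodule.subtype _) = (0 : isoSpace D S K
      (fun ℓ => algebraMap O K (a ℓ)) →ₗ[K] K) := by
    refine eq_zero_of_translates hspanK Φ hΦ hv0 _ fun τ e w₀ => ?_
    refine traceForm_eq_zero_of_eigen hinj hpO ι hpq hR hES (liesOverPrime_translate hA τ)
      (hFF _) χK θ hsum hsum' _ (fun σ' hσ' d hd => ?_) γ
    have hev := mulVec_eigen_smul (ρ := fieldRep (K := K) r) (θ := fun x => θ x) hv τ σ' hσ' d hd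
    have key : isoAction (K := K) D S ι a σ' (isoAction D S ι a τ (Φ (vecMulVec v e) w₀)) =
        θ d • isoAction (K := K) D S ι a τ (Φ (vecMulVec v e) w₀) := by
      simp only [← hΦ, ← Module.End.mul_apply, ← map_mul]
      rw [Matrix.mul_vecMulVec, Matrix.mul_vecMulVec, hev, ← Matrix.mul_vecMulVec,
        Matrix.smul_vecMulVec, ← LinearMap.smul_apply, ← map_smul, Matrix.mul_vecMulVec]
    exact congrArg Subtype.val key
  exact hlam (LinearMap.congr_fun hT ⟨w, hwmem⟩)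

section Statements

variable (p' q' R' M' : ℕ) [Fact p'.Prime] [Fact q'.Prime] [NeZero R'] [NeZero M']
  (g : CuspForm (Gamma0 M') 2)

/-- Kummer function families exist at every place and every level. -/
def FamiliesExist (q R : ℕ) [Fact q.Prime] [NeZero R] : Prop :=
  ∀ [NeZero (q * twLevel q R)] [Fact (q.Coprime (twLevel q R))] (hR : ¬ q ∣ R)
    {A : ValuationSubring (AlgebraicClosure ℚ)} (hA : A.LiesOverPrime q), HasFunFamilies hA hR

theorem traceInertia_of (hFF : FamiliesExist q' R') : TraceInertia p' q' R' M' g := by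
  intro hp2 hpq hR hM hg hES χ hχ hk f a hf ha hf0 S hS hseq O _ _ _ _ _ _ hpO j hj ρ habs hfrob
    A hA hin σ hσ u hu
  have := NeZero.mk (mul_ne_zero (pow_ne_zero 2 (Fact.out : q'.Prime).ne_zero) (NeZero.ne R'))
  have : NeZero (q' * twLevel q' R') :=
    ⟨mul_ne_zero (Fact.out : q'.Prime).ne_zero (NeZero.ne _)⟩
  have : Fact (q'.Coprime (twLevel q' R')) := ⟨coprime_twLevel Fact.out hR⟩
  refine trace_inertia_of hpq hR hES (fun hA' => hFF hR hA') χ (fun h2 => hχ ?_) hk hf ha hf0 S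
    hS hseq hpO j hj ρ habs hfrob hA hin hσ u hu
  obtain ⟨k, hk⟩ := hk
  have hp : Nat.Coprime 2 (p' ^ k) := Nat.Coprime.pow_right k
    ((Nat.coprime_primes Nat.prime_two Fact.out).mpr (Ne.symm hp2))
  exact orderOf_eq_one_iff.mp (Nat.eq_one_of_dvd_coprimes hp (orderOf_dvd_of_pow_eq_one h2)
    (orderOf_dvd_of_pow_eq_one hk))

theorem traceInertiaTwo_of (hFF : FamiliesExist q' R') :
    TwoAdic.Module.TraceInertiaTwo q' R' M' g := by
  intro hq2 hR hM hg hES χ hχ hk f a hf ha hf0 S hS hseq O _ _ _ _ _ _ h2O j hj ρ habs hfrob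
    A hA hin σ hσ u hu
  have := NeZero.mk (mul_ne_zero (pow_ne_zero 2 (Fact.out : q'.Prime).ne_zero) (NeZero.ne R'))
  have : NeZero (q' * twLevel q' R') :=
    ⟨mul_ne_zero (Fact.out : q'.Prime).ne_zero (NeZero.ne _)⟩
  have : Fact (q'.Coprime (twLevel q' R')) := ⟨coprime_twLevel Fact.out hR⟩
  exact trace_inertia_of (Ne.symm hq2) hR hES (fun hA' => hFF hR hA') χ hχ hk hf ha hf0 S
    hS hseq (by simpa using h2O) j hj ρ habs hfrob hA hin hσ u hu

end Statements

end Fermat.Agent.RT.InertiaTW
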