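import Fermat.Agent.RT.InertiaTW.TwistTrace
import Fermat.Agent.RT.GammaH.Coeff
import Fermat.Agent.Periods.Congruence.Injective

/-!
# The periods of `f (τ/q)` on `Γ(qn)`

For a form `f` of level `q R` with nebentypus of modulus `q`, the periods of `τ ↦ f (τ/q)` on
`Γ(qn)`, `R ∣ n`, are nonzero, fixed by the lower unipotent matrices and an eigenvector of the
diagonal matrices; translating `f` by `y/q` translates them by `u⁺(-y)`.
-/

set_option autoImplicit false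

noncomputable section

open UpperHalfPlane hiding I
open CongruenceSubgroup
open Fermat.Agent.Periods
open Fermat.Agent.Periods.Congruence (per per_eq exists_primitive per_injective)
open Fermat.Agent.RT.GammaH (IsNeb transl val_transl)
open Fermat.Agent.Newforms (ratGL IsCuspFn)
open scoped MatrixGroups ModularForm

namespace Fermat.Agent.RT.InertiaTW

variable (q : ℕ) [NeZero q]

/-- `diag(1, q)`, rationally. -/
def shrinkQ : GL (Fin 2) ℚ :=
  Matrix.GeneralLinearGroup.mkOfDetNeZero !![1, 0; 0, (q : ℚ)] (by simp [NeZero.ne q])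

/-- `τ ↦ τ / q`. -/
def shrinkR : GL (Fin 2) ℝ := ratGL (shrinkQ q)

theorem val_shrinkR : (shrinkR q : Matrix (Fin 2) (Fin 2) ℝ) = !![1, 0; 0, (q : ℝ)] := by
  ext i j
  fin_cases i <;> fin_cases j <;>
    simp [shrinkR, shrinkQ, ratGL, Matrix.GeneralLinearGroup.map_apply,
      Matrix.GeneralLinearGroup.mkOfDetNeZero]

theorem det_shrinkR_pos : 0 < (shrinkR q).det.val := by
  rw [Matrix.GeneralLinearGroup.val_det_apply, val_shrinkR, Matrix.det_fin_two_of]
  simp [Nat.pos_of_ne_zero (NeZero.ne q)]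

variable {q}

/-- Conjugation by `diag(1, q)` of an integral matrix with upper right entry divisible by `q`. -/
theorem exists_shrink_mul {R : ℕ} {l : SL(2, ℤ)} (h01 : (q : ℤ) ∣ l 0 1) (hc : (R : ℤ) ∣ l 1 0) :
    ∃ L ∈ Gamma0 (q * R), shrinkR q * Matrix.SpecialLinearGroup.mapGL ℝ l =
      Matrix.SpecialLinearGroup.mapGL ℝ L * shrinkR q ∧ (L 1 1 : ℤ) = l 1 1 := by
  obtain ⟨b, hb⟩ := h01
  have hdet : (!![l 0 0, b; l 1 0 * (q : ℤ), l 1 1] : Matrix (Fin 2) (Fin 2) ℤ).det = 1 := by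
    have h := l.det_coe
    rw [Matrix.det_fin_two, hb] at h
    rw [Matrix.det_fin_two_of]
    linear_combination h
  let L : SL(2, ℤ) := ⟨_, hdet⟩
  have hL : (L : Matrix (Fin 2) (Fin 2) ℤ) = !![l 0 0, b; l 1 0 * (q : ℤ), l 1 1] := rfl
  refine ⟨L, ?_, ?_, rfl⟩
  · rw [Newforms.mem_gamma0_iff_dvd]
    obtain ⟨c, hc⟩ := hc
    exact ⟨c, by rw [hL]; simp [hc]; ring⟩
  · refine Units.ext ?_
    rw [Units.val_mul, Units.val_mul, val_shrinkR]
    have hbR : ((l 0 1 : ℤ) : ℝ) = q * b := by rw [hb]; push_cast; ring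
    ext i j
    fin_cases i <;> fin_cases j <;>
      simp [Matrix.mul_apply, Fin.sum_univ_two, hL, hbR, mul_comm]

theorem shrinkR_mul_rescale {n : ℕ} [NeZero (q * n)] (γ : Gamma (q * n)) :
    shrinkR q * Matrix.SpecialLinearGroup.mapGL ℝ (γ : SL(2, ℤ)) =
      Matrix.SpecialLinearGroup.mapGL ℝ (rescale q n γ) * shrinkR q := by
  refine Units.ext ?_
  rw [Units.val_mul, Units.val_mul, val_shrinkR]
  have hbR : (((γ : SL(2, ℤ)) 0 1 : ℤ) : ℝ) =
      (((γ : SL(2, ℤ)) 0 1 / (q : ℤ) : ℤ) : ℝ) * q := by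
    exact_mod_cast (upper_div_mul γ).symm
  ext i j
  fin_cases i <;> fin_cases j <;>
    simp [Matrix.mul_apply, Fin.sum_univ_two, coe_rescale, hbR, mul_comm]

theorem shrinkR_mul_T_zpow (y : ℤ) :
    shrinkR q * Matrix.SpecialLinearGroup.mapGL ℝ (ModularGroup.T ^ y) =
      transl q y * shrinkR q := by
  have hT := ModularGroup.coe_T_zpow y
  generalize ModularGroup.T ^ y = g at hT ⊢
  refine Units.ext ?_
  rw [Units.val_mul, Units.val_mul, val_shrinkR, val_transl]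
  have hq : (q : ℝ) ≠ 0 := Nat.cast_ne_zero.2 (NeZero.ne q)
  ext i j
  fin_cases i <;> fin_cases j <;>
    simp [Matrix.mul_apply, Fin.sum_univ_two, hT, hq]

variable {n R L : ℕ} [NeZero R] [NeZero (q * n)] {ε : DirichletCharacter ℂ L} {f : ℍ → ℂ}

omit [NeZero R] in
theorem shrink_slash_gamma (hR : R ∣ n) (hL : L ∣ q * R) (hf : IsNeb (q * R) ε f)
    {γ : SL(2, ℤ)} (hγ : γ ∈ Gamma (q * n)) :
    (f ∣[(2 : ℤ)] shrinkR q) ∣[(2 : ℤ)] γ = f ∣[(2 : ℤ)] shrinkR q := by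
  rw [ModularForm.SL_slash, ← SlashAction.slash_mul]
  show f ∣[(2 : ℤ)] (shrinkR q * Matrix.SpecialLinearGroup.mapGL ℝ γ) = _
  rw [shrinkR_mul_rescale ⟨γ, hγ⟩, SlashAction.slash_mul]
  congr 1
  exact hf.gamma1 hL (rescale_mem_Gamma1 hR _)

/-- `f (τ / q)` as a cusp form on `Γ(qn)`. -/
def shrinkForm (hR : R ∣ n) (hL : L ∣ q * R) (hf : IsNeb (q * R) ε f) :
    CuspForm (Gamma (q * n)) 2 :=
  DeligneSerre.mkCuspForm (Gamma (q * n)) 2 (f ∣[(2 : ℤ)] shrinkR q)
    (fun _ h => shrink_slash_gamma hR hL hf h) (hf.cusp.slash (shrinkQ q)).1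
    fun γ => by
      simpa [SlashAction.slash_one, shrinkR] using ((hf.cusp.slash (shrinkQ q)).slash_SL γ).2 1

/-- The periods of `f (τ / q)` on `Γ(qn)`. -/
def classHom (hR : R ∣ n) (hL : L ∣ q * R) (hf : IsNeb (q * R) ε f) :
    Additive (Gamma (q * n)) →+ ℂ :=
  per (shrinkForm hR hL hf)

theorem exists_primitive_neb (hL : L ∣ q * R) (hf : IsNeb (q * R) ε f) :
    ∃ F : ℍ → ℂ, IsPrimitive f F := by
  obtain ⟨F, hF, -⟩ := exists_primitive (Γ := Gamma1 (q * R)) (M := q * R)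
    (fun γ hγ => (Gamma1_mem _ _).2 ⟨(Gamma_mem.1 hγ).1, (Gamma_mem.1 hγ).2.2.2,
      (Gamma_mem.1 hγ).2.2.1⟩) (hf.toForm hL)
  exact ⟨F, hF⟩

omit [NeZero R] in
theorem classHom_apply (hR : R ∣ n) (hL : L ∣ q * R) (hf : IsNeb (q * R) ε f) {F : ℍ → ℂ}
    (hF : IsPrimitive f F) (γ : Gamma (q * n)) (w : ℍ) :
    classHom hR hL hf (Additive.ofMul γ) =
      F (shrinkR q • (γ : SL(2, ℤ)) • w) - F (shrinkR q • w) :=
  per_eq (f := shrinkForm hR hL hf) (hF.comp_smul (det_shrinkR_pos q)) γ w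

omit [NeZero R] in
theorem classHom_ne_zero (hR : R ∣ n) (hL : L ∣ q * R) (hf : IsNeb (q * R) ε f) (hf0 : f ≠ 0) :
    classHom hR hL hf ≠ 0 := by
  intro h
  have h1 := congrArg DFunLike.coe (per_injective (f := shrinkForm hR hL hf) le_rfl h)
  refine hf0 ?_
  have h2 : f ∣[(2 : ℤ)] shrinkR q = 0 := h1
  have := congrArg (fun g => g ∣[(2 : ℤ)] (shrinkR q)⁻¹) h2
  simpa [← SlashAction.slash_mul] using this

variable [Fact q.Prime] [Fact (q.Coprime n)]

/-- An element whose lift has upper right entry divisible by `q` acts by the nebentypus. -/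
theorem smul_classHom (hR : R ∣ n) (hL : L ∣ q) (hf : IsNeb (q * R) ε f) {s : SL(2, ZMod q)}
    (hs : (s⁻¹ : SL(2, ZMod q)) 0 1 = 0) :
    s • classHom hR (dvd_mul_of_dvd_left hL R) hf =
      ε (ZMod.castHom hL (ZMod L) ((s⁻¹ : SL(2, ZMod q)) 1 1)) •
        classHom hR (dvd_mul_of_dvd_left hL R) hf := by
  have hentry : ∀ i j, ((liftSL (n := n) s⁻¹ i j : ℤ) : ZMod q) = (s⁻¹ : SL(2, ZMod q)) i j :=
    fun i j => by
      conv_rhs => rw [← map_liftSL (n := n) s⁻¹]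
      rfl
  have h01 : (q : ℤ) ∣ liftSL (n := n) s⁻¹ 0 1 :=
    (ZMod.intCast_zmod_eq_zero_iff_dvd _ q).1 ((hentry 0 1).trans hs)
  have hc : (R : ℤ) ∣ liftSL (n := n) s⁻¹ 1 0 := (Int.natCast_dvd_natCast.2 hR).trans
    (entry_mem_Gamma (liftSL_mem (n := n) s⁻¹)).2.2.1
  obtain ⟨l', hl', hmul, h11⟩ := exists_shrink_mul (R := R) h01 hc
  set l := liftSL (n := n) s⁻¹
  obtain ⟨F, hF⟩ := exists_primitive_neb (dvd_mul_of_dvd_left hL R) hf
  have hd : ((l' 1 1 : ℤ) : ZMod L) = ZMod.castHom hL (ZMod L) ((s⁻¹ : SL(2, ZMod q)) 1 1) := by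
    rw [h11, ← hentry, map_intCast]
  have h1 : IsPrimitive (ε ((l' 1 1 : ℤ) : ZMod L) • f) (fun τ => F (l' • τ)) := by
    rw [← hf.neb l' hl']
    exact hF.comp_SL l'
  refine AddMonoidHom.ext fun γ => ?_
  obtain ⟨γ, rfl⟩ := Additive.ofMul.surjective γ
  set w := UpperHalfPlane.I
  rw [smul_apply_eq, classHom_apply hR _ hf hF _ (l • w), AddMonoidHom.smul_apply,
    classHom_apply hR _ hf hF γ w, ← hd, smul_eq_mul]
  have e : ∀ u : ℍ, shrinkR q • l • u = l' • shrinkR q • u := fun u => by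
    show shrinkR q • (Matrix.SpecialLinearGroup.mapGL ℝ l) • u =
      (Matrix.SpecialLinearGroup.mapGL ℝ l') • shrinkR q • u
    rw [← mul_smul, hmul, mul_smul]
  rw [show (l * (γ : SL(2, ℤ)) * l⁻¹) • l • w = l • (γ : SL(2, ℤ)) • w by
    rw [← mul_smul, ← mul_smul, inv_mul_cancel_right], e, e]
  have h2 := h1.sub_eq (hF.const_smul (ε ((l' 1 1 : ℤ) : ZMod L)))
    (shrinkR q • (γ : SL(2, ℤ)) • w) (shrinkR q • w)
  simp only [Pi.smul_apply, smul_eq_mul] at h2
  linear_combination h2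

/-- Translation by `y / q`, `n ∣ y`, of `f` translates the periods by `u⁺(-y)`. -/
theorem classHom_transl (hR : R ∣ n) (hL : L ∣ q * R) (hf : IsNeb (q * R) ε f) {F : ℍ → ℂ}
    (hF : IsPrimitive f F) {y : ℤ} (hy : (n : ℤ) ∣ y) (γ : Gamma (q * n)) (w : ℍ) :
    F (transl q y • shrinkR q • (γ : SL(2, ℤ)) • w) - F (transl q y • shrinkR q • w) =
      ((sPlus (-(y : ZMod q))) • classHom hR hL hf) (Additive.ofMul γ) := by
  have hTn : ModularGroup.T ^ y ∈ Gamma n := by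
    refine Gamma_mem.2 ?_
    rw [ModularGroup.coe_T_zpow]
    simp [(ZMod.intCast_zmod_eq_zero_iff_dvd y n).2 hy]
  have hTq : Matrix.SpecialLinearGroup.map (Int.castRingHom (ZMod q)) (ModularGroup.T ^ y) =
      (sPlus (-(y : ZMod q)))⁻¹ := by
    refine eq_inv_of_mul_eq_one_left ?_
    refine Subtype.ext ?_
    rw [Matrix.SpecialLinearGroup.coe_mul, Matrix.SpecialLinearGroup.map_apply_coe,
      ModularGroup.coe_T_zpow, coe_sPlus]
    ext i j
    fin_cases i <;> fin_cases j <;> simp [Matrix.mul_apply, Fin.sum_univ_two]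
  have e : ∀ u : ℍ, transl q y • shrinkR q • u = shrinkR q • (ModularGroup.T ^ y) • u := fun u => by
    show transl q y • shrinkR q • u =
      shrinkR q • (Matrix.SpecialLinearGroup.mapGL ℝ (ModularGroup.T ^ y)) • u
    rw [← mul_smul, ← shrinkR_mul_T_zpow, mul_smul]
  rw [smul_eq_conjHomG hTn hTq, conjHomG_apply, classHom_apply hR hL hf hF _ ((ModularGroup.T ^ y) • w),
    e, e]
  congr 3
  rw [← mul_smul, ← mul_smul, inv_mul_cancel_right]

end Fermat.Agent.RT.InertiaTW
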