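import Fermat.Agent.RT.InertiaTW.TorComb

/-!
# The torus operator kills a twisted trace

A family `f` of vectors fixed by the diagonal matrices of determinant one on which `diag(1, d)`
acts by `Θ d` is twisted by `X` and traced to the upper unipotent matrices. If the sums of
`X d^{±1} Θ d` vanish, both partial torus sums kill the result, so the torus operator does.
-/

set_option autoImplicit false

noncomputable section

open Matrix Fermat.Agent.Carayol

namespace Fermat.Agent.RT.InertiaTW

variable {q : ℕ} [Fact q.Prime] {r : ℕ} {Z M : Type*} [CommRing Z] [AddCommGroup M] [Module Z M]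
  (act : GL (Fin 2) (ZMod q) →* Module.End Z M)

theorem diagElt_mul_uPlus (a b : (ZMod q)ˣ) (t : ZMod q) :
    diagElt a b * uPlus t = uPlus ((a : ZMod q) * t * ((b⁻¹ : (ZMod q)ˣ) : ZMod q)) * diagElt a b := by
  refine Units.ext ?_
  simp only [Units.val_mul, uPlus, diagElt, Matrix.mul_fin_two]
  ext i j
  fin_cases i <;> fin_cases j <;>
    simp only [Fin.zero_eta, Fin.mk_one, Fin.isValue, Matrix.cons_val', Matrix.cons_val_zero,
      Matrix.cons_val_one, Matrix.cons_val_fin_one, Matrix.of_apply, mul_zero, zero_mul, add_zero,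
      zero_add, mul_one, one_mul]
  rw [mul_assoc, Units.inv_mul, mul_one]

theorem diagElt_mul_uMinus (a b : (ZMod q)ˣ) (t : ZMod q) :
    diagElt a b * uMinus t =
      uMinus ((b : ZMod q) * t * ((a⁻¹ : (ZMod q)ˣ) : ZMod q)) * diagElt a b := by
  refine Units.ext ?_
  simp only [Units.val_mul, uMinus, diagElt, Matrix.mul_fin_two]
  ext i j
  fin_cases i <;> fin_cases j <;>
    simp only [Fin.zero_eta, Fin.mk_one, Fin.isValue, Matrix.cons_val', Matrix.cons_val_zero,
      Matrix.cons_val_one, Matrix.cons_val_fin_one, Matrix.of_apply, mul_zero, zero_mul, add_zero,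
      zero_add, mul_one, one_mul]
  rw [mul_assoc, Units.inv_mul, mul_one]

theorem diagElt_mul_diagElt (a d a' d' : (ZMod q)ˣ) :
    (diagElt a d * diagElt a' d' : GL (Fin 2) (ZMod q)) = diagElt (a * a') (d * d') :=
  Carayol.diagElt_mul a d a' d'

/-- A matrix applied to a family of vectors. -/
def vecMat (Y : Matrix (Fin r) (Fin r) Z) (f : Fin r → M) (i : Fin r) : M := ∑ l, Y i l • f l

theorem vecMat_mul (Y Y' : Matrix (Fin r) (Fin r) Z) (f : Fin r → M) :
    vecMat (Y * Y') f = vecMat Y (vecMat Y' f) := by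
  funext i
  simp only [vecMat, Matrix.mul_apply, Finset.sum_smul, Finset.smul_sum, smul_smul]
  exact Finset.sum_comm

theorem map_vecMat (g : M →ₗ[Z] M) (Y : Matrix (Fin r) (Fin r) Z) (f : Fin r → M) (i : Fin r) :
    g (vecMat Y f i) = vecMat Y (fun l => g (f l)) i := by
  simp only [vecMat, map_sum, map_smul]

theorem vecMat_sum {ι : Type*} [Fintype ι] (Y : Matrix (Fin r) (Fin r) Z) (f : ι → Fin r → M)
    (i : Fin r) : vecMat Y (fun l => ∑ u, f u l) i = ∑ u, vecMat Y (f u) i := by
  simp only [vecMat, Finset.smul_sum]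
  exact Finset.sum_comm

theorem sum_vecMat {ι : Type*} [Fintype ι] (Y : ι → Matrix (Fin r) (Fin r) Z) (f : Fin r → M)
    (i : Fin r) : ∑ u, vecMat (Y u) f i = vecMat (∑ u, Y u) f i := by
  simp only [vecMat, Matrix.sum_apply, Finset.sum_smul]
  exact Finset.sum_comm

variable (X Θ : (ZMod q)ˣ →* Matrix (Fin r) (Fin r) Z) (f : Fin r → M)

/-- The twist of `f` by `X`. -/
def twVec (i : Fin r) : M :=
  ∑ u : (ZMod q)ˣ, vecMat (X u) (fun l => act (uMinus (-(u : ZMod q))) (f l)) i

/-- The trace of the twist to the upper unipotent matrices. -/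
def trVec (i : Fin r) : M := ∑ s : ZMod q, act (uPlus (-s)) (twVec act X f i)

theorem trVec_fixed (g : GL (Fin 2) (ZMod q)) (hg : g ∈ upperSubgroup q) (i : Fin r) :
    act g (trVec act X f i) = trVec act X f i := by
  obtain ⟨t, rfl⟩ := hg
  show act (uPlus t.toAdd) _ = _
  simp only [trVec, map_sum, ← Module.End.mul_apply, ← map_mul, ← uPlus_add]
  refine Fintype.sum_equiv (Equiv.subRight t.toAdd) _ _ fun s => ?_
  rw [Equiv.subRight_apply]
  congr 3
  ring

theorem act_trVec (hcomm : ∀ d u, Commute (Θ d) (X u)) {a b c e : (ZMod q)ˣ}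
    (hf : ∀ i, act (diagElt a b) (f i) = vecMat (Θ c) f i) (he : e = a * b⁻¹) (i : Fin r) :
    act (diagElt a b) (trVec act X f i) = vecMat (X e * Θ c) (trVec act X f) i := by
  classical
  have hG : ∀ j, act (diagElt a b) (twVec act X f j) = vecMat (X e * Θ c) (twVec act X f) j := by
    intro j
    rw [show twVec act X f = fun i => ∑ u : (ZMod q)ˣ,
      vecMat (X u) (fun l => act (uMinus (-(u : ZMod q))) (f l)) i from rfl]
    simp only [map_sum, vecMat_sum, map_vecMat]
    refine Fintype.sum_equiv (Equiv.mulLeft e⁻¹) _ _ fun u => ?_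
    rw [Equiv.coe_mulLeft]
    have key : ∀ l, act (diagElt a b) (act (uMinus (-(u : ZMod q))) (f l)) =
        vecMat (Θ c) (fun l => act (uMinus (-((e⁻¹ * u : (ZMod q)ˣ) : ZMod q))) (f l)) l := fun l => by
      rw [← Module.End.mul_apply, ← map_mul, diagElt_mul_uMinus, map_mul, Module.End.mul_apply, hf,
        map_vecMat]
      congr 4
      funext k
      congr 3
      rw [he, _root_.mul_inv_rev, inv_inv, Units.val_mul, Units.val_mul]
      ring
    simp only [key]
    rw [← vecMat_mul, ← vecMat_mul]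
    congr 1
    rw [mul_assoc, (hcomm c (e⁻¹ * u)).eq, ← mul_assoc, ← map_mul, mul_inv_cancel_left]
  rw [show trVec act X f = fun i => ∑ s : ZMod q, act (uPlus (-s)) (twVec act X f i) from rfl]
  simp only [map_sum, vecMat_sum]
  refine Fintype.sum_equiv ((Equiv.mulLeft₀ ((a : ZMod q)) a.ne_zero).trans
    (Equiv.mulRight₀ ((b⁻¹ : (ZMod q)ˣ) : ZMod q) (Units.ne_zero _))) _ _ fun s => ?_
  rw [← Module.End.mul_apply, ← map_mul, diagElt_mul_uPlus, map_mul, Module.End.mul_apply, hG,
    map_vecMat]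
  simp only [mul_neg, neg_mul]
  rfl

/-- The torus operator kills the trace. -/
theorem torOp_trVec (hcomm : ∀ d u, Commute (Θ d) (X u))
    (hdiag : ∀ i a, act (diagElt a a⁻¹) (f i) = f i)
    (hgal : ∀ i d, act (diagElt 1 d) (f i) = vecMat (Θ d) f i)
    (hsum : ∑ d, X d * Θ d = 0) (hsum' : ∑ d, X d⁻¹ * Θ d = 0) (i : Fin r) :
    torOp (fun g => act g (trVec act X f i)) = 0 := by
  have h2 : ∀ j, ∑ d : (ZMod q)ˣ, act (diagElt 1 d) (trVec act X f j) = 0 := fun j => by
    rw [Finset.sum_congr rfl fun d _ => act_trVec act X Θ f hcomm (fun k => hgal k d)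
      (show d⁻¹ = 1 * d⁻¹ by rw [one_mul]) j, sum_vecMat, hsum']
    simp only [vecMat, Matrix.zero_apply, zero_smul, Finset.sum_const_zero]
  have hf1 : ∀ a k, act (diagElt a 1) (f k) = vecMat (Θ a) f k := fun a k => by
    have e : diagElt (q := q) a 1 = diagElt 1 a * diagElt a a⁻¹ := by
      rw [diagElt_mul_diagElt, one_mul, mul_inv_cancel]
    rw [e, map_mul, Module.End.mul_apply, hdiag, hgal]
  have h1 : ∑ a : (ZMod q)ˣ, act (diagElt a 1) (trVec act X f i) = 0 := by
    rw [Finset.sum_congr rfl fun a _ => act_trVec act X Θ f hcomm (hf1 a)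
      (show a = a * 1⁻¹ by rw [inv_one, mul_one]) i, sum_vecMat, hsum]
    simp only [vecMat, Matrix.zero_apply, zero_smul, Finset.sum_const_zero]
  have hT : ∑ a : (ZMod q)ˣ, ∑ d : (ZMod q)ˣ, act (diagElt a d) (trVec act X f i) = 0 := by
    refine Finset.sum_eq_zero fun a _ => ?_
    have e : ∀ d : (ZMod q)ˣ, diagElt (q := q) a d = diagElt a 1 * diagElt 1 d := fun d => by
      rw [diagElt_mul_diagElt, mul_one, one_mul]
    rw [Finset.sum_congr rfl fun d _ => show act (diagElt a d) (trVec act X f i) =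
        act (diagElt a 1) (act (diagElt 1 d) (trVec act X f i)) by
      rw [← Module.End.mul_apply, ← map_mul, ← e d], ← map_sum, h2, map_zero]
  rw [torOp, h1, h2, hT, add_zero, smul_zero, sub_zero]

end Fermat.Agent.RT.InertiaTW
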