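import Fermat.Agent.RT.InertiaTW.FunFamily
import Fermat.Agent.RT.InertiaTW.TwistAlgebra
import Fermat.Agent.Carayol.Rigid

/-!
# The twisted trace of a family of classes is killed by a constant

If `diag(1, d)` acts on the family by `Θ d` and the sums of `X d^{±1} Θ d` vanish, the torus
operator kills the Kummer function of the twisted trace, so the integral study at `q` makes a
fixed power of it a constant times an `m`-th power.
-/

set_option autoImplicit false

noncomputable section

open CongruenceSubgroup AlgebraicCurve Matrix.SpecialLinearGroup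
open Fermat.Agent.Carayol Fermat.Agent.Carayol.Omega Fermat.Agent.JacTorsion Fermat.Agent.Arith
open scoped MatrixGroups Classical

set_option linter.unusedSectionVars false

namespace Fermat.Agent.RT.InertiaTW

section PowQuot

variable {G : Type*} [CommGroup G] (m : ℕ)

/-- The group modulo `m`-th powers, written additively. -/
abbrev PowQuot (G : Type*) [CommGroup G] (m : ℕ) : Type _ :=
  Additive (G ⧸ (powMonoidHom m : G →* G).range)

theorem nsmul_powQuot (x : PowQuot G m) : m • x = 0 := by
  obtain ⟨g, rfl⟩ := Additive.ofMul.surjective x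
  obtain ⟨g, rfl⟩ := QuotientGroup.mk_surjective g
  rw [← ofMul_pow, ← QuotientGroup.mk_pow]
  exact congrArg Additive.ofMul ((QuotientGroup.eq_one_iff _).2 ⟨g, rfl⟩)

instance : Module (ZMod m) (PowQuot G m) := AddCommGroup.zmodModule (nsmul_powQuot m)

/-- The class of an element. -/
def powClass : Additive G →+ PowQuot G m :=
  MonoidHom.toAdditive (QuotientGroup.mk' (powMonoidHom m : G →* G).range)

theorem powClass_eq_zero_iff {x : G} : powClass m (Additive.ofMul x) = 0 ↔ ∃ y, y ^ m = x :=
  (QuotientGroup.eq_one_iff x).trans Iff.rfl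

theorem powClass_prod {ι : Type*} (s : Finset ι) (f : ι → G) :
    powClass m (Additive.ofMul (∏ i ∈ s, f i)) = ∑ i ∈ s, powClass m (Additive.ofMul (f i)) := by
  rw [ofMul_prod, map_sum]

theorem powClass_pow (x : G) (c : ℕ) :
    powClass m (Additive.ofMul (x ^ c)) = c • powClass m (Additive.ofMul x) := by
  rw [ofMul_pow, map_nsmul]

theorem powClass_pow_mul (x y : G) :
    powClass m (Additive.ofMul (x ^ m * y)) = powClass m (Additive.ofMul y) := by
  rw [ofMul_mul, map_add, powClass_pow, nsmul_powQuot, zero_add]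

theorem zmod_smul_powQuot [NeZero m] (c : ZMod m) (x : PowQuot G m) : c • x = c.val • x := by
  conv_lhs => rw [← ZMod.natCast_zmod_val c]
  exact Nat.cast_smul_eq_nsmul _ _ _

/-- An endomorphism modulo `m`-th powers. -/
def powMap (g : G →* G) : Module.End (ZMod m) (PowQuot G m) :=
  (MonoidHom.toAdditive (QuotientGroup.map _ _ g (show (powMonoidHom m : G →* G).range ≤ _ by
    rintro _ ⟨y, rfl⟩
    exact ⟨g y, by simp⟩))).toZModLinearMap m

theorem powMap_powClass (g : G →* G) (x : G) :
    powMap m g (powClass m (Additive.ofMul x)) = powClass m (Additive.ofMul (g x)) := rfl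

theorem powMap_id : powMap m (MonoidHom.id G) = 1 := LinearMap.ext fun x => by
  obtain ⟨x, rfl⟩ := Additive.ofMul.surjective x
  obtain ⟨x, rfl⟩ := QuotientGroup.mk_surjective x
  rfl

theorem powMap_comp (g h : G →* G) : powMap m (g.comp h) = powMap m g * powMap m h :=
  LinearMap.ext fun x => by
    obtain ⟨x, rfl⟩ := Additive.ofMul.surjective x
    obtain ⟨x, rfl⟩ := QuotientGroup.mk_surjective x
    rfl

end PowQuot

theorem sStar_mul {q : ℕ} (s t : SL(2, ZMod q)) : sStar (s * t) = sStar s * sStar t := by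
  rw [sStar, sStar, sStar, ← _root_.mul_inv_rev]
  exact congrArg Inv.inv (Subtype.ext (Matrix.transpose_mul _ _))

theorem sStar_sPlus {q : ℕ} [Fact q.Prime] (a : ZMod q) : sStar (sPlus a) = sMinus (-a) := by
  rw [sStar, inv_eq_iff_mul_eq_one]
  refine Subtype.ext ?_
  rw [Matrix.SpecialLinearGroup.coe_mul, Matrix.SpecialLinearGroup.coe_transpose, coe_sMinus, coe_sPlus]
  ext i j
  fin_cases i <;> fin_cases j <;> simp [Matrix.mul_apply, Fin.sum_univ_two]

theorem sStar_sMinus {q : ℕ} [Fact q.Prime] (a : ZMod q) : sStar (sMinus a) = sPlus (-a) := by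
  rw [sStar, inv_eq_iff_mul_eq_one]
  refine Subtype.ext ?_
  rw [Matrix.SpecialLinearGroup.coe_mul, Matrix.SpecialLinearGroup.coe_transpose, coe_sMinus, coe_sPlus]
  ext i j
  fin_cases i <;> fin_cases j <;> simp [Matrix.mul_apply, Fin.sum_univ_two]

variable {q R : ℕ} [Fact q.Prime] [NeZero R] [NeZero (q * twLevel q R)]
  [Fact (q.Coprime (twLevel q R))] {A : ValuationSubring QBar} (hA : A.LiesOverPrime q)
  (hR : ¬ q ∣ R) {m : ℕ} [NeZero m]

theorem twAct_mul (g h : GL (Fin 2) (ZMod q)) :
    twAct hA hR (g * h) = (twAct hA hR g).comp (twAct hA hR h) :=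
  MonoidHom.ext fun f => (twTate hA hR).transl_mul_apply f g h

theorem twAct_one : twAct hA hR 1 = MonoidHom.id _ :=
  MonoidHom.ext fun f => (twTate hA hR).transl_one f

/-- The action modulo `m`-th powers. -/
def twQuot : GL (Fin 2) (ZMod q) →* Module.End (ZMod m) (PowQuot (twField q R A)ˣ m) where
  toFun g := powMap m (twAct hA hR g)
  map_one' := by rw [twAct_one, powMap_id]
  map_mul' g h := by rw [twAct_mul, powMap_comp]

theorem isUnit_natCast_inertial (hqm : ¬ q ∣ m) :
    IsUnit ((m : ℕ) : (inertialBase hA (Fact.out : q.Prime)).W) := by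
  set U := inertialBase hA (Fact.out : q.Prime)
  by_contra h
  have hm : (m : U.W) ∈ IsLocalRing.maximalIdeal U.W := h
  have hq : (q : U.W) ∈ IsLocalRing.maximalIdeal U.W := U.max_eq ▸ Ideal.mem_span_singleton_self _
  obtain ⟨a, b, e⟩ := Int.isCoprime_iff_nat_coprime.mpr
    (show (q : ℤ).natAbs.Coprime (m : ℤ).natAbs by
      simpa using (Fact.out : q.Prime).coprime_iff_not_dvd.2 hqm)
  refine (IsLocalRing.maximalIdeal.isMaximal U.W).ne_top ((Ideal.eq_top_iff_one _).2 ?_)
  have e' := congrArg (Int.cast : ℤ → U.W) e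
  push_cast at e'
  rw [← e']
  exact add_mem (Ideal.mul_mem_left _ _ hq) (Ideal.mul_mem_left _ _ hm)

theorem places_pow {f : (twField q R A)ˣ} (hf : Places (inertiaField A) m f) (c : ℕ) :
    Places (inertiaField A) m (f ^ c) := fun v hv => by
  rw [Units.val_pow_eq_pow_val, map_pow, WithZero.log_pow, nsmul_eq_mul]
  exact dvd_mul_of_dvd_right (hf v hv) _

theorem places_prod {ι : Type*} (s : Finset ι) {f : ι → (twField q R A)ˣ}
    (hf : ∀ i ∈ s, Places (inertiaField A) m (f i)) :
    Places (inertiaField A) m (∏ i ∈ s, f i) := fun v hv => by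
  induction s using Finset.induction_on with
  | empty => simp
  | insert a t ha ih =>
    rw [Finset.prod_insert ha, Units.val_mul, map_mul,
      WithZero.log_mul (v.ne_zero_iff.2 (Units.ne_zero _)) (v.ne_zero_iff.2 (Units.ne_zero _))]
    exact dvd_add (hf a (Finset.mem_insert_self a t) v hv)
      (ih fun i hi => hf i (Finset.mem_insert_of_mem hi))

theorem places_twAct {f : (twField q R A)ˣ} (hf : Places (inertiaField A) m f)
    (g : GL (Fin 2) (ZMod q)) : Places (inertiaField A) m (twAct hA hR g f) := fun v hv =>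
  hf (v.comap ((twTate hA hR).act g).toRingEquiv.toRingHom) fun c hc => by
    show v (((twTate hA hR).act g) (algebraMap _ _ c)) = 1
    rw [AlgEquiv.commutes]
    exact hv c hc

variable {r : ℕ} {x : Fin r → Pic0.torsion QBar (ModularCurve.modularFunctionFieldBar (q ^ 2 * R)) m}

set_option maxHeartbeats 1000000 in
/-- **The twisted trace is killed by a constant.** -/
theorem glueExp_smul_twistTraceMat_eq_zero (F : FunFamily hA hR m x) (hqm : ¬ q ∣ m)
    (X Θ : (ZMod q)ˣ →* Matrix (Fin r) (Fin r) (ZMod m)) (hcomm : ∀ d u, Commute (Θ d) (X u))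
    (hgal : ∀ σ ∈ A.inertiaSubgroupIn ℚ, ∀ d : (ZMod q)ˣ,
      (∀ μ : QBar, μ ^ q = 1 → σ μ = μ ^ (d : ZMod q).val) → ∀ i,
        σ • (x i : ModularCurve.JZero (q ^ 2 * R)) =
          ∑ l, (Θ d i l).val • (x l : ModularCurve.JZero (q ^ 2 * R)))
    (hsum : ∑ d, X d * Θ d = 0) (hsum' : ∑ d, X d⁻¹ * Θ d = 0) (i : Fin r) :
    glueExp (upperComb q) •
      twistTraceMat (dvd_twLevel q R) X (fun l => (torsionEquiv (q ^ 2 * R) m (x l)).1) i = 0 := by
  set L := twTate hA hR
  let act := twQuot hA hR (m := m)
  let cls : Fin r → PowQuot (twField q R A)ˣ m := fun l => powClass m (Additive.ofMul (F.f l))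
  let G : (twField q R A)ˣ := ∏ u : (ZMod q)ˣ, ∏ l,
    twAct hA hR (uMinus (-(u : ZMod q))) (F.f l) ^ (X u i l).val
  let P : (twField q R A)ˣ := ∏ s : ZMod q, twAct hA hR (uPlus (-s)) G
  have hG : powClass m (Additive.ofMul G) = twVec act X cls i := by
    rw [show G = ∏ u : (ZMod q)ˣ, ∏ l,
      twAct hA hR (uMinus (-(u : ZMod q))) (F.f l) ^ (X u i l).val from rfl, powClass_prod, twVec]
    refine Finset.sum_congr rfl fun u _ => ?_
    rw [powClass_prod, vecMat]
    refine Finset.sum_congr rfl fun l _ => ?_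
    rw [powClass_pow, zmod_smul_powQuot]
    rfl
  have hP : powClass m (Additive.ofMul P) = trVec act X cls i := by
    rw [show P = ∏ s : ZMod q, twAct hA hR (uPlus (-s)) G from rfl, powClass_prod, trVec]
    refine Finset.sum_congr rfl fun s _ => ?_
    rw [← hG]
    rfl
  have hdiag : ∀ j a, act (diagElt a a⁻¹) (cls j) = cls j := fun j a => by
    show powMap m _ (powClass m _) = _
    rw [powMap_powClass, F.diag]
  have hgal' : ∀ j d, act (diagElt 1 d) (cls j) = vecMat (Θ d) cls j := fun j d => by
    obtain ⟨γ, hγ⟩ := F.galois j d (fun l => (Θ d j l).val) fun σ hσ hμ => hgal σ hσ d hμ j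
    show powMap m _ (powClass m _) = _
    rw [powMap_powClass, hγ, powClass_pow_mul, powClass_prod, vecMat]
    refine Finset.sum_congr rfl fun l _ => ?_
    rw [powClass_pow, zmod_smul_powQuot]
  have hfix : L.FixedBy (upperComb q) P := fun g hg => by
    obtain ⟨t, rfl⟩ := hg
    show twAct hA hR (uPlus t.toAdd) P = P
    simp only [P, map_prod]
    refine Fintype.prod_equiv (Equiv.subRight t.toAdd) _ _ fun s => ?_
    rw [← MonoidHom.comp_apply, ← twAct_mul, ← uPlus_add, Equiv.subRight_apply]
    congr 3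
    ring
  have hpl : Places (inertiaField A) m P := places_prod _ fun s _ => places_twAct hA hR
    (places_prod _ fun u _ => places_prod _ fun l _ =>
      places_pow (places_twAct hA hR (F.places l) _) _) _
  obtain ⟨γ, hγ⟩ : ∃ γ, γ ^ m = L.lam (upperComb q) (L.transl P) := by
    refine (powClass_eq_zero_iff m).1 ?_
    refine Eq.trans ?_ (torOp_trVec act X Θ cls hcomm hdiag hgal' hsum hsum' i)
    show powClass m (∑ g, (upperComb q).coeffs g • Additive.ofMul (L.transl P g)) = _
    rw [show ∑ g, (upperComb q).coeffs g • Additive.ofMul (L.transl P g) =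
      torOp fun g : GL (Fin 2) (ZMod q) => Additive.ofMul (L.transl P g) from
        (torOp_eq_sum _).symm, map_torOp]
    refine congrArg torOp (funext fun g => ?_)
    rw [← hP]
    rfl
  obtain ⟨κ, h, hPh⟩ := exists_const_mul_pow
    ((stdSetup (q * twLevel q R)).cuspEmb hA Fact.out (coprime_twLevel Fact.out hR) (twMark q)
      (twMark_eq q) (twMark_dvd_twLevel q R)
      (exists_aut_inertiaField hA Fact.out (not_dvd_twLevel Fact.out hR)
        (stdSetup (q * twLevel q R)).isPrimitiveRoot))
    (upperComb q) (U := inertialBase hA Fact.out) (isUnit_natCast_inertial hA hqm)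
    (f := P) (γ := γ) (κ := 1) hfix hpl (by rw [map_one, one_mul, hγ]; rfl)
  have hzero : KumChar (stdSetup (q * twLevel q R)) (inertiaField A) m
      ((P ^ glueExp (upperComb q) : (twField q R A)ˣ) : twField q R A) 0 := by
    have e : ((P ^ glueExp (upperComb q) : (twField q R A)ˣ) : twField q R A) =
        algebraMap (inertiaField A) (twField q R A) (κ : inertiaField A) *
          (h : twField q R A) ^ m := congrArg Units.val hPh
    rw [e, show (0 : Additive (Gamma (q * twLevel q R)) →+ ZMod m) = 0 + 0 from (add_zero 0).symm]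
    exact (kumChar_const κ.ne_zero).mul (kumChar_pow_self h.ne_zero)
  have hkum : KumChar (stdSetup (q * twLevel q R)) (inertiaField A) m
      ((P ^ glueExp (upperComb q) : (twField q R A)ˣ) : twField q R A)
      (glueExp (upperComb q) • twistTraceMat (dvd_twLevel q R) X
        (fun l => (torsionEquiv (q ^ 2 * R) m (x l)).1) i) := by
    rw [Units.val_pow_eq_pow_val]
    refine KumChar.pow ?_ _
    simp only [P, G, map_prod, map_pow, Units.coe_prod, Units.val_pow_eq_pow_val, twistTraceMat,
      lowerTr, Finset.smul_sum]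
    refine KumChar.prod _ fun s _ => KumChar.prod _ fun u _ => KumChar.prod _ fun l _ => ?_
    rw [smul_comm (sMinus s) (X u i l)]
    conv => arg 5; rw [← ZMod.natCast_zmod_val (X u i l), Nat.cast_smul_eq_nsmul]
    refine KumChar.pow ?_ _
    rw [← MonoidHom.comp_apply, ← twAct_mul, ← toGL_sPlus, ← toGL_sMinus, ← map_mul, smul_smul,
      show sMinus s * sPlus (u : ZMod q) = sStar (sPlus (-s) * sMinus (-(u : ZMod q))) by
        rw [sStar_mul, sStar_sPlus, sStar_sMinus, neg_neg, neg_neg]]
    exact F.kum l _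
  exact hkum.unique hzero

end Fermat.Agent.RT.InertiaTW
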